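import Fermat.Agent.S36.RC.Conc.Hasse
import Fermat.Agent.GAL.Igusa.CuspEmb
import Fermat.Agent.GAL.Igusa.Level
import Fermat.Agent.DR.Conc.Level

/-!
# S36/Kron : the Hasse polynomial `Gp`, the Hasse function `hsE = Gp(j̄) = Δ̄^(1-q)` on `Igusa.E k M`,
its zeros `SS` (the supersingular points) and their number

* `Gp k q : k[X]` monic of degree `q - 1`, `Gp(j̄) = Δ̄ / Δ̄^q` in `k((t))`   (`S36.RC.exists_hasse_poly`);
* `hsE k q M : Igusa.E k M`, `coe_hsE`, `coe_hsE_mul` (`hsE * Δ̄^(q-1) = 1`);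
* `ord_hsE_nonneg` (outside the cusps), `ord_hsE_cusp`;
* `SS k q M : Finset (Place k (Igusa.E k M))`, `mem_SS`, `jb_mem_of_mem_SS`;
* `sum_ord_hsE` : `∑_{e ∈ SS} ord_e hsE = (q - 1) ψ(M)`;
* `card_SS` : if all the zeros have order `12` then `12 #SS = (q - 1) ψ(M)`.
-/

set_option autoImplicit false
set_option linter.unusedSectionVars false

noncomputable section

namespace Fermat.Agent.S36.Kron

open ModularCurve Polynomial AlgebraicCurve Fermat.Agent.S28 Fermat.Agent.S36R.Unit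
  Fermat.Agent.Lib.RR Fermat.Agent.GAL Fermat.Agent.GAL.RED

variable (k : Type) [Field k] (q : ℕ) [NeZero q] [Fact q.Prime] [CharP k q]

/-- **(G1)** -/
theorem exists_Gpoly : ∃ R : k[X], R.Monic ∧ R.natDegree = q - 1 ∧
    aeval (jqModC k) R = DlL k * DlLinv k ^ q := by
  obtain ⟨Φ, U, G, m, c, hB⟩ := GAL.Igusa.hB q (Fact.out)
  exact Fermat.Agent.S36.RC.exists_hasse_poly (hB : S28.BData q Φ U G m c) Fact.out k

/-- **The Hasse polynomial.** -/
def Gp : k[X] := (exists_Gpoly k q).choose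

theorem Gp_monic : (Gp k q).Monic := (exists_Gpoly k q).choose_spec.1

theorem natDegree_Gp : (Gp k q).natDegree = q - 1 := (exists_Gpoly k q).choose_spec.2.1

theorem aeval_Gp : aeval (jqModC k) (Gp k q) = DlL k * DlLinv k ^ q :=
  (exists_Gpoly k q).choose_spec.2.2

variable (M : ℕ)

/-- **The Hasse function** `Δ̄^(1-q)` on the curve of level `M`. -/
def hsE : Igusa.E k M := aeval (Igusa.jb k M) (Gp k q)

theorem coe_hsE : ((hsE k q M : Igusa.E k M) : LaurentSeries k) = DlL k * DlLinv k ^ q := by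
  rw [← aeval_Gp k q, hsE]
  exact (Polynomial.aeval_algHom_apply (modularFunctionFieldFullC k M).val (Igusa.jb k M)
    (Gp k q)).symm

theorem coe_hsE_eq_Hs : ((hsE k q M : Igusa.E k M) : LaurentSeries k) = Hs k q 1 := by
  rw [coe_hsE, Hs, pow_one]

theorem coe_hsE_mul : ((hsE k q M : Igusa.E k M) : LaurentSeries k) * DlL k ^ (q - 1) = 1 := by
  have hq : 1 ≤ q := (Fact.out : q.Prime).one_lt.le
  have h1 : DlL k * DlL k ^ (q - 1) = DlL k ^ q := by
    rw [← pow_succ', Nat.sub_add_cancel hq]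
  rw [coe_hsE, mul_right_comm, h1, ← mul_pow, DlL_mul_DlLinv, one_pow]

theorem hsE_ne_zero : hsE k q M ≠ 0 := by
  intro h
  have := coe_hsE_mul k q M
  rw [h, ZeroMemClass.coe_zero, zero_mul] at this
  exact zero_ne_one this

section FF

variable [IsAlgClosed k] [IsFF k (Igusa.E k M)]

/-- **(G2)** -/
theorem ord_hsE_nonneg (P : Place k (Igusa.E k M)) (h : 0 ≤ P.ord (Igusa.jb k M)) :
    0 ≤ P.ord (hsE k q M) :=
  DR.Conc.XiAbs_ord_aeval_nonneg P h _

/-- **(G2)** -/
theorem ord_hsE_cusp (P : Place k (Igusa.E k M)) (h : P.ord (Igusa.jb k M) < 0) :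
    P.ord (hsE k q M) = ((q - 1 : ℕ) : ℤ) * P.ord (Igusa.jb k M) := by
  rw [hsE, DR.Conc.XiAbs_ord_aeval_monic P h _ (Gp_monic k q), natDegree_Gp]

/-- **The supersingular points** : the zeros of the Hasse function. -/
def SS : Finset (Place k (Igusa.E k M)) := (poleDiv (K := k) (hsE k q M)⁻¹).support

theorem mem_SS {e : Place k (Igusa.E k M)} : e ∈ SS k q M ↔ 0 < e.ord (hsE k q M) := by
  rw [SS, Finsupp.mem_support_iff, poleDiv_apply, e.ord_inv, neg_neg]
  constructor
  · intro h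
    by_contra hc
    exact h (max_eq_right (not_lt.mp hc))
  · intro h
    rw [max_eq_left h.le]
    exact h.ne'

/-- the supersingular points are not cusps. -/
theorem ord_jb_nonneg_of_mem_SS {e : Place k (Igusa.E k M)} (he : e ∈ SS k q M) :
    0 ≤ e.ord (Igusa.jb k M) := by
  rw [mem_SS] at he
  by_contra hc
  rw [not_le] at hc
  rw [ord_hsE_cusp k q M e hc] at he
  have : ((q - 1 : ℕ) : ℤ) * e.ord (Igusa.jb k M) ≤ 0 :=
    mul_nonpos_of_nonneg_of_nonpos (Nat.cast_nonneg _) hc.le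
  omega

theorem jb_mem_of_mem_SS {e : Place k (Igusa.E k M)} (he : e ∈ SS k q M) :
    Igusa.jb k M ∈ e.toValuationSubring :=
  (Lib.PlaceEval.mem_iff e).2 (ord_jb_nonneg_of_mem_SS k q M he)

/-- **(G3)**, first form. -/
theorem sum_ord_hsE' : ∑ e ∈ SS k q M, e.ord (hsE k q M) =
    ((q - 1 : ℕ) : ℤ) * Divisor.degree (poleDiv (K := k) (Igusa.jb k M)) := by
  have h1 := Fermat.Agent.S36.RC.degree_zeros_aeval (k := k) (Igusa.jb k M) (Gp k q) (Gp_monic k q)
  rw [natDegree_Gp] at h1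
  rw [← h1, degree_eq_sum, Finsupp.sum]
  refine Finset.sum_congr rfl fun e he => ?_
  have he' : 0 < e.ord (hsE k q M) := (mem_SS k q M).1 he
  show _ = poleDiv (K := k) (hsE k q M)⁻¹ e
  rw [poleDiv_apply, e.ord_inv, neg_neg, max_eq_left he'.le]

end FF

section Count

variable [NeZero M] [IsAlgClosed k] [IsFF k (Igusa.E k M)] (hM : ((M : ℕ) : k) ≠ 0)

include hM in
theorem degree_poleDiv_jb : Divisor.degree (poleDiv (K := k) (Igusa.jb k M)) = dedekindPsi M := by
  have h1 := Igusa.finiteDimensional_jb k M hM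
  have h2 := Igusa.isSeparable_jb k M hM
  rw [DR.Conc.Level_degree_poleDiv (K := k) (Igusa.jb k M) (Igusa.transcendental_jb k M),
    Igusa.finrank_jb k M hM]

include hM in
/-- **(G3)** -/
theorem sum_ord_hsE : ∑ e ∈ SS k q M, e.ord (hsE k q M) = ((q - 1 : ℕ) : ℤ) * dedekindPsi M := by
  rw [sum_ord_hsE', degree_poleDiv_jb k M hM]

include hM in
/-- **(G4)** -/
theorem card_SS (h : ∀ e ∈ SS k q M, e.ord (hsE k q M) = 12) :
    12 * (SS k q M).card = (q - 1) * dedekindPsi M := by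
  have h1 := sum_ord_hsE k q M hM
  rw [Finset.sum_congr rfl h, Finset.sum_const, nsmul_eq_mul] at h1
  have h2 : ((12 * (SS k q M).card : ℕ) : ℤ) = (((q - 1) * dedekindPsi M : ℕ) : ℤ) := by
    push_cast
    linarith
  exact_mod_cast h2

end Count

end Fermat.Agent.S36.Kron
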