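import Fermat.Agent.S36.Kron.KMain

/-!
# S36/Kron/KLocMain : the Kronecker congruence for an arbitrary triple, and `exists_kLoc`

* `KTri .. x x' u0 rc` : the part of `KOut` which does not mention the place `e`;
* `exists_kTri` : for ANY triple `x, x', u0` of `I`-fixed, Gauss integral functions, regular outside the cusps, with
  `ū0 = Fr x̄'`, `x̄ = Fr ū0`, there is `rc` with `KTri`;
* `KTri.kOut`, `KTri.kLoc` : the adapters;
* `exists_kLoc` : for EVERY non cuspidal place `e` there are `x, x', u0, rc` with `KLoc`, and with `KOut` as soon as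
  `ord_e x̄ = 1`.
-/

set_option autoImplicit false

noncomputable section

namespace Fermat.Agent.S36.Kron

open Polynomial AlgebraicCurve ModularCurve Fermat.Agent.S24 Fermat.Agent.GAL Fermat.Agent.GAL.RED
  Fermat.Agent.GAL.Gauss Fermat.Agent.DR.Conc Fermat.Agent.DR.Gal Fermat.Agent.S36R
  Fermat.Agent.S36.StepA Fermat.Agent.S36R.NormC Fermat.Agent.GAL.NormFormula

/-- a uniformiser at `P`, not vanishing at `Q`, with poles only on the poles of `x`. -/
theorem exists_unif_away {k Fb : Type*} [Field k] [Field Fb] [Algebra k Fb] [Fermat.Agent.Lib.RR.IsFF k Fb]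
    [IsAlgClosed k] {x : Fb} (hx : x ∉ Set.range (algebraMap k Fb)) {P Q : Place k Fb}
    (hP : 0 ≤ P.ord x) (hQ : 0 ≤ Q.ord x) (hPQ : P ≠ Q) :
    ∃ v : Fb, P.ord v = 1 ∧ v ≠ 0 ∧ Q.ord v = 0 ∧ ∀ Q' : Place k Fb, 0 ≤ Q'.ord x → 0 ≤ Q'.ord v := by
  obtain ⟨t, ht1, ht⟩ := Fermat.Agent.DR.Abs.exists_uniformizer hx P hP
  obtain ⟨s, hsP, hsQ, hs⟩ := Fermat.Agent.DR.Abs.exists_separating hx hP hQ hPQ
  have ht0 : t ≠ 0 := by
    rintro rfl
    rw [Place.ord_zero] at ht1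
    exact zero_ne_one ht1
  have hs0 : s ≠ 0 := by
    rintro rfl
    rw [Fermat.Agent.DR.Abs.ev_zero] at hsQ
    exact zero_ne_one hsQ
  have h1s : ∀ Q' : Place k Fb, 0 ≤ Q'.ord x → 0 ≤ Q'.ord (1 - s) := by
    intro Q' hQ'
    rw [← Fermat.Agent.Lib.PlaceEval.mem_iff]
    exact sub_mem (one_mem _) ((Fermat.Agent.Lib.PlaceEval.mem_iff Q').2 (hs Q' hQ'))
  have hreg : ∀ Q' : Place k Fb, 0 ≤ Q'.ord x → 0 ≤ Q'.ord (t * (1 - s) + s ^ 2) := by
    intro Q' hQ'
    rw [← Fermat.Agent.Lib.PlaceEval.mem_iff]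
    exact add_mem (mul_mem ((Fermat.Agent.Lib.PlaceEval.mem_iff Q').2 (ht Q' hQ'))
      ((Fermat.Agent.Lib.PlaceEval.mem_iff Q').2 (h1s Q' hQ')))
      (pow_mem ((Fermat.Agent.Lib.PlaceEval.mem_iff Q').2 (hs Q' hQ')) 2)
  have hmulreg : ∀ Q' : Place k Fb, 0 ≤ Q'.ord x → 0 ≤ Q'.ord (t * (1 - s)) := by
    intro Q' hQ'
    rw [← Fermat.Agent.Lib.PlaceEval.mem_iff]
    exact mul_mem ((Fermat.Agent.Lib.PlaceEval.mem_iff Q').2 (ht Q' hQ'))
      ((Fermat.Agent.Lib.PlaceEval.mem_iff Q').2 (h1s Q' hQ'))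
  have hpowreg : ∀ Q' : Place k Fb, 0 ≤ Q'.ord x → 0 ≤ Q'.ord (s ^ 2) := by
    intro Q' hQ'
    rw [← Fermat.Agent.Lib.PlaceEval.mem_iff]
    exact pow_mem ((Fermat.Agent.Lib.PlaceEval.mem_iff Q').2 (hs Q' hQ')) 2
  -- at `Q`
  have hQv : Fermat.Agent.DR.Abs.ev Q (t * (1 - s) + s ^ 2) = 1 := by
    rw [Fermat.Agent.DR.Abs.ev_add Q (hmulreg Q hQ) (hpowreg Q hQ),
      Fermat.Agent.DR.Abs.ev_mul Q (ht Q hQ) (h1s Q hQ),
      Fermat.Agent.DR.Abs.ev_sub Q (by rw [Place.ord_one]) (hs Q hQ),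
      Fermat.Agent.DR.Abs.ev_pow Q (hs Q hQ), hsQ, Fermat.Agent.DR.Abs.ev_one]
    ring
  have hQ2 := (Fermat.Agent.DR.Abs.ev_ne_zero_iff Q (hreg Q hQ)).1 (by rw [hQv]; exact one_ne_zero)
  -- at `P`
  have hP1 : Fermat.Agent.DR.Abs.ev P (1 - s) = 1 := by
    rw [Fermat.Agent.DR.Abs.ev_sub P (by rw [Place.ord_one]) (hs P hP), hsP,
      Fermat.Agent.DR.Abs.ev_one, sub_zero]
  have hP2 := (Fermat.Agent.DR.Abs.ev_ne_zero_iff P (h1s P hP)).1 (by rw [hP1]; exact one_ne_zero)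
  have hP3 : 0 < P.ord s := by
    rcases (Fermat.Agent.DR.Abs.ev_eq_zero_iff P (hs P hP)).1 hsP with h | h
    · exact absurd h hs0
    · exact h
  have hP4 : P.ord (t * (1 - s)) = 1 := by
    rw [P.ord_mul ht0 hP2.1, ht1, hP2.2, add_zero]
  have hP5 : P.ord (s ^ 2) = 2 * P.ord s := by
    rw [Fermat.Agent.GAL.RED.ord_pow]
    norm_num
  refine ⟨t * (1 - s) + s ^ 2, ?_, hQ2.1, hQ2.2, hreg⟩
  rw [Fermat.Agent.GAL.RED.ord_add_eq_of_lt P (mul_ne_zero ht0 hP2.1) (pow_ne_zero 2 hs0)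
    (by rw [hP4, hP5]; omega), hP4]

variable (A : ValuationSubring Kbar) (M q : ℕ) [NeZero M] [NeZero q] (hq : q.Prime)
  (hqM : ¬ q ∣ M) (hA : A.LiesOverPrime q)
  [Fact q.Prime] [CharP (IsLocalRing.ResidueField ↥A) q]
  [PerfectRing (IsLocalRing.ResidueField ↥A) q]

/-- the part of `KOut` which does not mention the place. -/
structure KTri (x x' u0 : FN M) (rc : ℕ → FN M) : Prop where
  rc_fix : ∀ i, rc i ∈ Set.range (bc0 A M)
  rc_g : ∀ i, (rc i : LaurentSeries Kbar) ∈ Gauss.gRing A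
  rc_reg : ∀ i, rc i ∈ regOff Kbar (jF M)
  coeff : ∀ i, i ≤ q → (heckePoly hq hqM u0).coeff i = gco q x x' rc i
  root : (heckeBetaBar Kbar M q u0) ^ (q + 1) + ∑ i ∈ Finset.range (q + 1),
    heckeAlphaBar Kbar M q (gco q x x' rc i) * (heckeBetaBar Kbar M q u0) ^ i = 0
  div : (((q : Kbar)⁻¹ • (heckeBetaBar Kbar M q u0 - heckeAlphaBar Kbar M q (x' ^ q)) :
    FN (M * q)) : LaurentSeries Kbar) ∈ Gauss.gRing A

/-- **The Kronecker congruence for an arbitrary triple.** -/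
theorem exists_kTri {x x' u0 : FN M}
    (fx : x ∈ Set.range (bc0 A M)) (hfx : x' ∈ Set.range (bc0 A M)) (fu : u0 ∈ Set.range (bc0 A M))
    (ix : (x : LaurentSeries Kbar) ∈ gRing A) (hg : (x' : LaurentSeries Kbar) ∈ gRing A)
    (iu : (u0 : LaurentSeries Kbar) ∈ gRing A)
    (gx : x ∈ regOff Kbar (jF M)) (hreg : x' ∈ regOff Kbar (jF M)) (gu : u0 ∈ regOff Kbar (jF M))
    (red_u0 : (RK A M q hq hqM hA).red u0 =
      FrE (IsLocalRing.ResidueField ↥A) M q ((RK A M q hq hqM hA).red x'))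
    (red_x : (RK A M q hq hqM hA).red x =
      FrE (IsLocalRing.ResidueField ↥A) M q ((RK A M q hq hqM hA).red u0)) :
    ∃ rc, KTri A M q hq hqM x x' u0 rc := by
  set s' : LaurentSeries (IsLocalRing.ResidueField ↥A) :=
    (((RK A M q hq hqM hA).red x' : Igusa.E (IsLocalRing.ResidueField ↥A) M) :
      LaurentSeries (IsLocalRing.ResidueField ↥A)) with hs'
  have r' : Red A (x' : LaurentSeries Kbar) s' := red_coe_RK A M q hq hqM hA hg
  have ru : Red A (u0 : LaurentSeries Kbar) (coeffMap (frobenius _ q) s') := by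
    have h := red_coe_RK A M q hq hqM hA iu
    rw [red_u0] at h
    exact h
  have rx : Red A (x : LaurentSeries Kbar)
      (coeffMap (frobenius _ q) (coeffMap (frobenius _ q) s')) := by
    have h := red_coe_RK A M q hq hqM hA ix
    rw [red_x, red_u0] at h
    exact h
  -- the differences
  have hd : ∀ i, i ≤ q → ((heckePoly hq hqM u0).coeff i - gco0 q x x' i ∈ Set.range (bc0 A M)) ∧
      Red A (((heckePoly hq hqM u0).coeff i - gco0 q x x' i : FN M) : LaurentSeries Kbar) 0 := by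
    intro i hi
    refine ⟨?_, red_coeff_sub hq hqM hA r' ru rx hi⟩
    have h1 : (heckePoly hq hqM u0).coeff i ∈ (bc0 A M).range :=
      coeff_heckePoly_mem_range_bc0 hq hqM u0 A fu i
    have h2 : gco0 q x x' i ∈ (bc0 A M).range := gco0_mem q (bc0 A M).range fx hfx i
    exact (bc0 A M).range.sub_mem h1 h2
  have hq0 : (q : Kbar) ≠ 0 := by exact_mod_cast hq.ne_zero
  refine ⟨fun i => if i ≤ q then (q : Kbar)⁻¹ • ((heckePoly hq hqM u0).coeff i - gco0 q x x' i)
    else 0, ?_⟩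
  have hcoeff : ∀ i, i ≤ q → (heckePoly hq hqM u0).coeff i = gco q x x'
      (fun i => if i ≤ q then (q : Kbar)⁻¹ • ((heckePoly hq hqM u0).coeff i - gco0 q x x' i)
        else 0) i := by
    intro i hi
    rw [gco_eq]
    simp only [if_pos hi]
    rw [Algebra.smul_def, map_inv₀, map_natCast, mul_inv_cancel_left₀ (by exact_mod_cast hq.ne_zero)]
    ring
  refine
    { rc_fix := ?_, rc_g := ?_, rc_reg := ?_, coeff := hcoeff, root := ?_, div := ?_ }
  · intro i
    by_cases hi : i ≤ q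
    · simp only [if_pos hi]
      exact (inv_smul_props A q hq hA (hd i hi).1 (hd i hi).2).1
    · simp only [if_neg hi]
      exact ⟨0, map_zero _⟩
  · intro i
    by_cases hi : i ≤ q
    · simp only [if_pos hi]
      exact (inv_smul_props A q hq hA (hd i hi).1 (hd i hi).2).2
    · simp only [if_neg hi]
      exact (gRing A).zero_mem
  · intro i
    by_cases hi : i ≤ q
    · simp only [if_pos hi]
      exact Subalgebra.smul_mem _ (sub_mem (coeff_heckePoly_mem_regOff hq hqM u0 gu i)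
        (gco0_mem q (regOff Kbar (jF M)).toSubring gx hreg i)) _
    · simp only [if_neg hi]
      exact zero_mem _
  · have h := root_alpha_beta hq hqM u0
    rw [← h]
    congr 1
    refine Finset.sum_congr rfl fun i hi => ?_
    rw [hcoeff i (Nat.lt_succ_iff.1 (Finset.mem_range.1 hi))]
  · -- `β u0 - α x'^q`
    have hcoe : ((heckeBetaBar Kbar M q u0 - heckeAlphaBar Kbar M q (x' ^ q) : FN (M * q)) :
        LaurentSeries Kbar) = qExpand Kbar q (u0 : LaurentSeries Kbar) -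
          (x' : LaurentSeries Kbar) ^ q := by
      show ((heckeBetaBar Kbar M q u0 : FN (M * q)) : LaurentSeries Kbar) -
        ((heckeAlphaBar Kbar M q (x' ^ q) : FN (M * q)) : LaurentSeries Kbar) = _
      rw [coe_heckeBetaBar, coe_heckeAlphaBar]
      rfl
    have hfixy : heckeBetaBar Kbar M q u0 - heckeAlphaBar Kbar M q (x' ^ q) ∈
        Set.range (bc0 A (M * q)) := by
      rw [mem_range_bc0_iff]
      intro τ hτ
      apply Subtype.ext
      rw [coe_arithmeticGalois_smul, hcoe, map_sub, map_pow, AL_coeffMap_qExpand]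
      have h1 := congrArg Subtype.val (((mem_range_bc0_iff A M u0).1 fu) τ hτ)
      have h2 := congrArg Subtype.val (((mem_range_bc0_iff A M x').1 hfx) τ hτ)
      rw [coe_arithmeticGalois_smul] at h1 h2
      rw [h1, h2]
    have hred : Red A ((heckeBetaBar Kbar M q u0 - heckeAlphaBar Kbar M q (x' ^ q) : FN (M * q)) :
        LaurentSeries Kbar) 0 := by
      rw [hcoe]
      have h1 := kred_sub (ru.qExpand q) (r'.pow q)
      rwa [Hecke.pow_char_eq_qExpand _ q s', sub_self] at h1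
    exact (inv_smul_props A q hq hA hfixy hred).2

variable {A M q hq hqM hA}

/-- adapter to `KOut`. -/
theorem KTri.kOut {x x' u0 : FN M} {rc : ℕ → FN M} (h : KTri A M q hq hqM x x' u0 rc)
    (e : Place (IsLocalRing.ResidueField ↥A) (Igusa.E (IsLocalRing.ResidueField ↥A) M))
    (fx : x ∈ Set.range (bc0 A M)) (hfx : x' ∈ Set.range (bc0 A M)) (fu : u0 ∈ Set.range (bc0 A M))
    (ix : (x : LaurentSeries Kbar) ∈ gRing A) (hg : (x' : LaurentSeries Kbar) ∈ gRing A)
    (iu : (u0 : LaurentSeries Kbar) ∈ gRing A)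
    (gx : x ∈ regOff Kbar (jF M)) (hreg : x' ∈ regOff Kbar (jF M)) (gu : u0 ∈ regOff Kbar (jF M))
    (red_u0 : (RK A M q hq hqM hA).red u0 =
      FrE (IsLocalRing.ResidueField ↥A) M q ((RK A M q hq hqM hA).red x'))
    (red_x : (RK A M q hq hqM hA).red x =
      FrE (IsLocalRing.ResidueField ↥A) M q ((RK A M q hq hqM hA).red u0))
    (ord_x : e.ord ((RK A M q hq hqM hA).red x) = 1)
    (ord_x' : e.ord ((RK A M q hq hqM hA).red x') = 1) :
    KOut A M q hq hqM hA e x x' u0 rc :=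
  { x_fix := fx, x'_fix := hfx, u0_fix := fu, rc_fix := h.rc_fix, x_g := ix, x'_g := hg, u0_g := iu,
    rc_g := h.rc_g, x_reg := gx, x'_reg := hreg, u0_reg := gu, rc_reg := h.rc_reg, ord_x := ord_x,
    ord_x' := ord_x', red_u0 := red_u0, red_x := red_x, coeff := h.coeff, root := h.root,
    div := h.div }

/-- adapter to `KLoc`. -/
theorem KTri.kLoc {x x' u0 : FN M} {rc : ℕ → FN M} (h : KTri A M q hq hqM x x' u0 rc)
    (e : Place (IsLocalRing.ResidueField ↥A) (Igusa.E (IsLocalRing.ResidueField ↥A) M))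
    (ix : (x : LaurentSeries Kbar) ∈ gRing A) (hg : (x' : LaurentSeries Kbar) ∈ gRing A)
    (iu : (u0 : LaurentSeries Kbar) ∈ gRing A)
    (gx : x ∈ regOff Kbar (jF M)) (hreg : x' ∈ regOff Kbar (jF M))
    (red_u0 : (RK A M q hq hqM hA).red u0 =
      FrE (IsLocalRing.ResidueField ↥A) M q ((RK A M q hq hqM hA).red x'))
    (ord_x : e.ord ((RK A M q hq hqM hA).red x) = 1 ∨
      ((RK A M q hq hqM hA).red x ≠ 0 ∧ e.ord ((RK A M q hq hqM hA).red x) = 0))
    (ord_x' : e.ord ((RK A M q hq hqM hA).red x') = 1) :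
    KLoc A M q hq hqM hA e x x' u0 rc :=
  ⟨⟨(mem_RM_O_iff A M _ x).2 ix, gx⟩, ⟨(mem_RM_O_iff A M _ x').2 hg, hreg⟩,
    (mem_RM_O_iff A M _ u0).2 iu, fun i => ⟨(mem_RM_O_iff A M _ (rc i)).2 (h.rc_g i), h.rc_reg i⟩,
    ord_x', ord_x, red_u0, h.root, (mem_R1_O_iff A M q hq hqM hA _).2 h.div⟩

variable (A M q hq hqM hA)

/-- **(KR1 + KR3), final form**: at EVERY non cuspidal place `e`. -/
theorem exists_kLoc (hg : GoodRed A M)
    (e : Place (IsLocalRing.ResidueField ↥A) (Igusa.E (IsLocalRing.ResidueField ↥A) M))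
    (he : 0 ≤ e.ord (Igusa.jb (IsLocalRing.ResidueField ↥A) M)) :
    ∃ x x' u0 rc, KLoc A M q hq hqM hA e x x' u0 rc ∧
      (e.ord ((RK A M q hq hqM hA).red x) = 1 → KOut A M q hq hqM hA e x x' u0 rc) := by
  have hM := natCast_M_ne_zero A M q hq hqM hA
  have := Igusa.isAlgClosed_residueField A
  have := Igusa.isFF_E (IsLocalRing.ResidueField ↥A) M hM
  have : IsGalois ℚ Kbar := Fermat.Agent.Lib.Frobenius.isGalois_algebraicClosure inferInstance
  obtain ⟨sg, hsg⟩ := Fermat.Agent.Lib.Frobenius.exists_isFrobeniusAt A hq hA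
  have hD := hsg.mem_decompositionSubgroup
  have hDi := (A.decompositionSubgroup ℚ).inv_mem hD
  have hjb : Igusa.jb (IsLocalRing.ResidueField ↥A) M ∉
      Set.range (algebraMap (IsLocalRing.ResidueField ↥A) _) := by
    rintro ⟨c, hc⟩
    exact Igusa.transcendental_jb (IsLocalRing.ResidueField ↥A) M (hc ▸ isAlgebraic_algebraMap c)
  -- the place `e2 = Fr² e`
  set e2 : Place (IsLocalRing.ResidueField ↥A) (Igusa.E (IsLocalRing.ResidueField ↥A) M) :=
    Fr (IsLocalRing.ResidueField ↥A) M q • Fr (IsLocalRing.ResidueField ↥A) M q • e with he2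
  have hord2 : ∀ y, e2.ord (FrE (IsLocalRing.ResidueField ↥A) M q
      (FrE (IsLocalRing.ResidueField ↥A) M q y)) = e.ord y := by
    intro y
    have h1 := SemilinearAut.ord_smul (Fr (IsLocalRing.ResidueField ↥A) M q) e y
    have h2 := SemilinearAut.ord_smul (Fr (IsLocalRing.ResidueField ↥A) M q)
      (Fr (IsLocalRing.ResidueField ↥A) M q • e) (Fr (IsLocalRing.ResidueField ↥A) M q • y)
    rw [Fr_smul, Fr_smul] at h2
    rw [Fr_smul] at h1
    rw [he2, h2, h1]
  have he2j : 0 ≤ e2.ord (Igusa.jb (IsLocalRing.ResidueField ↥A) M) := by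
    have h := hord2 (Igusa.jb (IsLocalRing.ResidueField ↥A) M)
    rw [FrE_jb, FrE_jb] at h
    rw [h]
    exact he
  -- the function `v = x̄`
  obtain ⟨v, hv2, hve, hv⟩ : ∃ v : Igusa.E (IsLocalRing.ResidueField ↥A) M, e2.ord v = 1 ∧
      (e.ord v = 1 ∨ (v ≠ 0 ∧ e.ord v = 0)) ∧
      ∀ Q' : Place (IsLocalRing.ResidueField ↥A) (Igusa.E (IsLocalRing.ResidueField ↥A) M),
        0 ≤ Q'.ord (Igusa.jb (IsLocalRing.ResidueField ↥A) M) → 0 ≤ Q'.ord v := by
    by_cases hee : e2 = e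
    · obtain ⟨v, hv1, hv⟩ := Fermat.Agent.DR.Abs.exists_uniformizer hjb e he
      exact ⟨v, by rw [hee]; exact hv1, Or.inl hv1, hv⟩
    · obtain ⟨v, hv1, hv0, hv2, hv⟩ := exists_unif_away hjb he2j he hee
      exact ⟨v, hv1, Or.inr ⟨hv0, hv2⟩, hv⟩
  obtain ⟨x0, h1, h2, h3⟩ := exists_lift_regOff_K0 A M hM hq hA hg v (XiAbs_mem_regOff_iff.2 hv)
  set x : FN M := bc0 A M x0 with hx
  set u0 : FN M := arithmeticGalois (modularFunctionFieldFull M) sg⁻¹ • x with hu0
  set x' : FN M := arithmeticGalois (modularFunctionFieldFull M) sg⁻¹ • u0 with hx'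
  have hxu : arithmeticGalois (modularFunctionFieldFull M) sg • u0 = x := by
    rw [hu0, map_inv, smul_inv_smul]
  have hux : arithmeticGalois (modularFunctionFieldFull M) sg • x' = u0 := by
    rw [hx', map_inv, smul_inv_smul]
  have fx : x ∈ Set.range (bc0 A M) := ⟨x0, rfl⟩
  have fu : u0 ∈ Set.range (bc0 A M) := gal_mem_range_bc0 A M q hq hA hDi fx
  have fx' : x' ∈ Set.range (bc0 A M) := gal_mem_range_bc0 A M q hq hA hDi fu
  have ix : (x : LaurentSeries Kbar) ∈ gRing A := (mem_RM_O_iff A M hM x).1 h2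
  have iu : (u0 : LaurentSeries Kbar) ∈ gRing A := gal_mem_gRing A M hDi ix
  have ix' : (x' : LaurentSeries Kbar) ∈ gRing A := gal_mem_gRing A M hDi iu
  have gu : u0 ∈ regOff Kbar (jF M) := semilinear_mem_regOff _ (gal_smul_jF M sg⁻¹) h1
  have gx' : x' ∈ regOff Kbar (jF M) := semilinear_mem_regOff _ (gal_smul_jF M sg⁻¹) gu
  have red_u0 : (RK A M q hq hqM hA).red u0 =
      FrE (IsLocalRing.ResidueField ↥A) M q ((RK A M q hq hqM hA).red x') := by
    have h := red_frob A M q hsg (red_coe_RK A M q hq hqM hA ix')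
    rw [hux] at h
    exact RK_red_eq A M q hq hqM hA h
  have red_x : (RK A M q hq hqM hA).red x =
      FrE (IsLocalRing.ResidueField ↥A) M q ((RK A M q hq hqM hA).red u0) := by
    have h := red_frob A M q hsg (red_coe_RK A M q hq hqM hA iu)
    rw [hxu] at h
    exact RK_red_eq A M q hq hqM hA h
  have hredx : (RK A M q hq hqM hA).red x = v := h3
  have ord_x' : e.ord ((RK A M q hq hqM hA).red x') = 1 := by
    rw [← hord2, ← red_u0, ← red_x, hredx]
    exact hv2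
  obtain ⟨rc, hrc⟩ := exists_kTri A M q hq hqM hA fx fx' fu ix ix' iu h1 gx' gu red_u0 red_x
  refine ⟨x, x', u0, rc, hrc.kLoc e ix ix' iu h1 gx' red_u0 (by rw [hredx]; exact hve) ord_x',
    fun h => hrc.kOut e fx fx' fu ix ix' iu h1 gx' gu red_u0 red_x h ord_x'⟩

end Fermat.Agent.S36.Kron
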