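import Fermat.Agent.S36.Kron.FromK
import Fermat.Agent.S36.Kron.KLocMain
import Fermat.Agent.S36.Kron.Gpoly

/-!
# S36 / Kron : the output of the block KRON

`A` a place of `Kbar` over `q`, `𝕜` its residue field, `M` neat, `q ∤ M`.  `hsE 𝕜 q M = Δ̄^(1-q)` (the "Hasse invariant"),
`SS 𝕜 q M` its zeros (the supersingular points of the reduction of `X₀(M)`).

* `ord_hsE_eq` : at EVERY non cuspidal place, `ord_e hsE ∈ {0, 12}`;
* `kron_main` : every zero of `hsE` has order exactly `12`, carries Kronecker data `KOut` with `r̄₀(e) ≠ 0`, and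
  `12 #SS = (q - 1) ψ(M)`.
-/

set_option autoImplicit false
set_option linter.unusedSectionVars false

noncomputable section

namespace Fermat.Agent.S36.Kron

open ModularCurve AlgebraicCurve Fermat.Agent.S24 Fermat.Agent.GAL Fermat.Agent.GAL.Gauss
  Fermat.Agent.GAL.RED Fermat.Agent.DR.Gal Fermat.Agent.DR.Conc

variable (A : ValuationSubring Kbar) (M q : ℕ) [NeZero M] [NeZero q] (hq : q.Prime)
  (hqM : ¬ q ∣ M) (hA : A.LiesOverPrime q)
  [Fact q.Prime] [CharP (IsLocalRing.ResidueField ↥A) q]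
  [PerfectRing (IsLocalRing.ResidueField ↥A) q] [IsAlgClosed (IsLocalRing.ResidueField ↥A)]
  [Lib.RR.IsFF (IsLocalRing.ResidueField ↥A) (Igusa.E (IsLocalRing.ResidueField ↥A) M)]

set_option quotPrecheck false in
local notation "𝕜" => IsLocalRing.ResidueField ↥A

include hq hqM hA in
/-- at a non cuspidal place the Hasse function has order `0`, or order `12` together with Kronecker data. -/
theorem ord_hsE_cases (hneat : 4 ∣ M ∨ 9 ∣ M) (e : Place 𝕜 (Igusa.E 𝕜 M))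
    (he : 0 ≤ e.ord (Igusa.jb 𝕜 M)) :
    e.ord (hsE 𝕜 q M) = 0 ∨ (e.ord (hsE 𝕜 q M) = 12 ∧ ∃ x x' u0 rc, KOut A M q hq hqM hA e x x' u0 rc ∧
      ¬ ((RK A M q hq hqM hA).red (rc 0) = 0 ∨ 0 < e.ord ((RK A M q hq hqM hA).red (rc 0)))) := by
  have hM := natCast_M_ne_zero A M q hq hqM hA
  have hg := goodRed_of_neat A M hM Igusa.cuspUpper Igusa.cuspLower hneat
  obtain ⟨x, x', u0, rc, hK, hO⟩ := exists_kLoc A M q hq hqM hA hg e he
  rcases kron_local A M q hq hqM hA hneat ((Lib.PlaceEval.mem_iff e).2 he) hK (hsE 𝕜 q M)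
    (coe_hsE_eq_Hs 𝕜 q M) (ord_hsE_nonneg 𝕜 q M e he) with h | ⟨h1, h2, h3⟩
  · exact Or.inl h
  · exact Or.inr ⟨h1, x, x', u0, rc, hO h2, h3⟩

include hq hqM hA in
/-- **The output of KRON.** -/
theorem kron_main (hneat : 4 ∣ M ∨ 9 ∣ M) :
    (∀ e ∈ SS 𝕜 q M, e.ord (hsE 𝕜 q M) = 12 ∧ ∃ x x' u0 rc, KOut A M q hq hqM hA e x x' u0 rc ∧
      ¬ ((RK A M q hq hqM hA).red (rc 0) = 0 ∨ 0 < e.ord ((RK A M q hq hqM hA).red (rc 0)))) ∧
    12 * (SS 𝕜 q M).card = (q - 1) * dedekindPsi M := by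
  have hM := natCast_M_ne_zero A M q hq hqM hA
  have key : ∀ e ∈ SS 𝕜 q M, e.ord (hsE 𝕜 q M) = 12 ∧ ∃ x x' u0 rc,
      KOut A M q hq hqM hA e x x' u0 rc ∧
      ¬ ((RK A M q hq hqM hA).red (rc 0) = 0 ∨ 0 < e.ord ((RK A M q hq hqM hA).red (rc 0))) := by
    intro e he
    rcases ord_hsE_cases A M q hq hqM hA hneat e (ord_jb_nonneg_of_mem_SS 𝕜 q M he) with h | h
    · have := (mem_SS 𝕜 q M).1 he
      omega
    · exact h
  exact ⟨key, card_SS 𝕜 q M hM fun e he => (key e he).1⟩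

end Fermat.Agent.S36.Kron
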