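import Fermat.Agent.S36.Kron.Split
import Fermat.Agent.S36.StepA.HorGal
import Fermat.Agent.S36.StepA.Near
import Fermat.Agent.DR.Conc.Level
import Fermat.Agent.DR.Gal.Defs

/-!
# S36/Kron/InputCore : the term `HInput` at the concrete level (KR4 + KR9), core

`R = RM A M` the Gauss reduction of level `M`, `r` its reduction map, `e` a non cuspidal point.
-/

set_option autoImplicit false
set_option linter.unusedSectionVars false

noncomputable section

namespace Fermat.Agent.S36.Kron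

open AlgebraicCurve ModularCurve Fermat.Agent.S24 Fermat.Agent.GAL Fermat.Agent.GAL.Gauss
  Fermat.Agent.GAL.RED Fermat.Agent.S36.Val Fermat.Agent.S36.Geo Fermat.Agent.S36.StepA
  Fermat.Agent.DR.Conc Fermat.Agent.DR.Gal

variable (A : ValuationSubring Kbar) (M : ℕ) [NeZero M]
  (hMk : ((M : ℕ) : IsLocalRing.ResidueField ↥A) ≠ 0)

theorem RM_red_of_Red {f : FN M} {s : LaurentSeries (IsLocalRing.ResidueField ↥A)}
    (h : Red A (f : LaurentSeries Kbar) s) :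
    (((RM A M hMk).red f : Igusa.E (IsLocalRing.ResidueField ↥A) M) :
      LaurentSeries (IsLocalRing.ResidueField ↥A)) = s := by
  obtain ⟨h1, rfl⟩ := h
  exact coe_RM_red A M hMk f h1

theorem Red_inertia {τ : Kbar ≃ₐ[ℚ] Kbar} (hτ : τ ∈ A.inertiaSubgroupIn ℚ)
    {s : LaurentSeries Kbar} {t : LaurentSeries (IsLocalRing.ResidueField ↥A)} (h : Red A s t) :
    Red A (coeffMap (τ : Kbar →+* Kbar) s) t := by
  obtain ⟨τ', hτ', rfl⟩ := hτ
  have h1 : barAut A τ' = 1 := hτ'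
  have h3 := h.coeffMap τ'
  have h5 : coeffMap ((barAut A τ' : _ ≃+* _) : _ →+* _) t = t := by
    rw [h1]; ext n; rfl
  rwa [h5] at h3

theorem gal_mem_RM_O {τ : Kbar ≃ₐ[ℚ] Kbar} (hτ : τ ∈ A.inertiaSubgroupIn ℚ) {f : FN M}
    (hf : f ∈ (RM A M hMk).O) : E.gal M τ • f ∈ (RM A M hMk).O := by
  rw [mem_RM_O_iff] at hf ⊢
  exact (Red_inertia A hτ ⟨hf, rfl⟩).1

/-- **(C1)** inertia is trivial after reduction. -/
theorem RM_red_gal_of_inertia {τ : Kbar ≃ₐ[ℚ] Kbar} (hτ : τ ∈ A.inertiaSubgroupIn ℚ) (f : FN M) :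
    (RM A M hMk).red (E.gal M τ • f) = (RM A M hMk).red f := by
  by_cases hf : f ∈ (RM A M hMk).O
  · have hf' := (mem_RM_O_iff A M hMk f).1 hf
    apply Subtype.ext
    rw [RM_red_of_Red A M hMk (f := f) ⟨hf', rfl⟩]
    exact RM_red_of_Red A M hMk (f := E.gal M τ • f) (Red_inertia A hτ ⟨hf', rfl⟩)
  · rw [RedData.red_of_not_mem _ hf, RedData.red_of_not_mem]
    intro h
    apply hf
    have := gal_mem_RM_O A M hMk ((A.inertiaSubgroupIn ℚ).inv_mem hτ) h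
    have e1 : E.gal M τ⁻¹ = (E.gal M τ)⁻¹ := map_inv _ _
    rwa [e1, inv_smul_smul] at this

variable [Lib.RR.IsFF (IsLocalRing.ResidueField ↥A) (Igusa.E (IsLocalRing.ResidueField ↥A) M)]
  {r : Place Kbar (FN M) →
    Place (IsLocalRing.ResidueField ↥A) (Igusa.E (IsLocalRing.ResidueField ↥A) M)}
  {e : Place (IsLocalRing.ResidueField ↥A) (Igusa.E (IsLocalRing.ResidueField ↥A) M)}

/-- **(C6)** `discRing` is stable under inertia. -/
theorem gal_mem_discRing_iff (hg : GoodRed A M) (hr : IsRedMap (RM A M hMk) r)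
    {τ : Kbar ≃ₐ[ℚ] Kbar} (hτ : τ ∈ A.inertiaSubgroupIn ℚ) (f : FN M) :
    E.gal M τ • f ∈ discRing (RM A M hMk) r e ↔ f ∈ discRing (RM A M hMk) r e :=
  smul_mem_discRing_iff hg hr (E.gal M τ) (RM_red_gal_of_inertia A M hMk hτ) f

/-- a point of the residue disc of a non cuspidal point is not a cusp. -/
theorem jF_mem_of_r_eq (hr : IsRedMap (RM A M hMk) r)
    (he : 0 ≤ e.ord (Igusa.jb (IsLocalRing.ResidueField ↥A) M)) {P : Place Kbar (FN M)}
    (hP : r P = e) : 0 ≤ P.ord (jF M) := by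
  classical
  by_contra hneg
  rw [not_le] at hneg
  have h1 := (map_poleDiv_jF A M hMk r hr).1
  have h2 := DFunLike.congr_fun h1 e
  rw [RED.poleDiv_apply, max_eq_right (by omega)] at h2
  have h3 : 0 < Finsupp.mapDomain r (RED.poleDiv (K := Kbar) (jF M)) e := by
    refine mapDomain_apply_pos r _ e ?_ hP ?_
    · intro P' _
      rw [RED.poleDiv_apply]
      exact le_max_right _ _
    · rw [RED.poleDiv_apply]
      exact lt_max_of_lt_left (by omega)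
  omega

/-- **(C2)** -/
theorem mem_discRing_of_regOff (hr : IsRedMap (RM A M hMk) r)
    (he : 0 ≤ e.ord (Igusa.jb (IsLocalRing.ResidueField ↥A) M)) {f : FN M}
    (hf : f ∈ (RM A M hMk).O) (hreg : f ∈ regOff Kbar (jF M)) :
    f ∈ discRing (RM A M hMk) r e := by
  refine ⟨hf, fun P hP => ?_⟩
  have h1 := jF_mem_of_r_eq A M hMk hr he hP
  have hj0 : jF M ≠ 0 := by
    apply (RM A M hMk).ne_zero_of_red_ne_zero
    rw [RM_red_jF A M hMk]
    intro h0
    exact Igusa.transcendental_jb (IsLocalRing.ResidueField ↥A) M (h0 ▸ isAlgebraic_zero)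
  exact Fermat.Agent.S24.ord_nonneg_of_mem P (hreg P (Fermat.Agent.S24.mem_of_ord_nonneg P hj0 h1))

theorem RM_A : (RM A M hMk).A = A := gaussRedData'_A A M hMk _ _

variable {q : ℕ}

theorem varpi_facts (hq : q.Prime) (hA : A.LiesOverPrime q) {ϖ : Kbar}
    (hϖ : ϖ ^ (q + 1) = (q : Kbar)) :
    ϖ ≠ 0 ∧ A.valuation ϖ < 1 := by
  have hq0 : (q : Kbar) ≠ 0 := Nat.cast_ne_zero.2 hq.ne_zero
  have h0 : ϖ ≠ 0 := by
    rintro rfl
    rw [zero_pow (Nat.succ_ne_zero q)] at hϖ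
    exact hq0 hϖ.symm
  refine ⟨h0, ?_⟩
  have h1 : A.valuation (q : Kbar) < 1 := (A.mem_nonunits_iff).1 hA
  by_contra h2
  rw [not_lt] at h2
  have h3 : 1 ≤ A.valuation ϖ ^ (q + 1) := one_le_pow₀ h2
  rw [← map_pow, hϖ] at h3
  exact absurd h1 (not_lt.2 h3)

/-- the valuation of `Kbar` has rank one. -/
theorem exists_pow_mul_inv_small (hq : q.Prime) (hA : A.LiesOverPrime q) {ϖ : Kbar}
    (hϖ : ϖ ^ (q + 1) = (q : Kbar)) (η : Kbar) (hη : η ≠ 0) :
    ∃ n : ℕ, (ϖ ^ q) ^ n * η⁻¹ ∈ A.nonunits := by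
  obtain ⟨n0, hn0⟩ := Fermat.Agent.PT.Local.exists_pow_le ⟨A, q, hq, hA⟩ hη
  have hn0' : A.valuation (q : Kbar) ^ n0 ≤ A.valuation η := hn0
  have h1 : A.valuation (q : Kbar) < 1 := (A.mem_nonunits_iff).1 hA
  have hq0 : A.valuation (q : Kbar) ≠ 0 :=
    (Valuation.ne_zero_iff _).2 (Nat.cast_ne_zero.2 hq.ne_zero)
  have hvη : A.valuation η ≠ 0 := (Valuation.ne_zero_iff _).2 hη
  refine ⟨(q + 1) * (n0 + 1), ?_⟩
  have e1 : (ϖ ^ q) ^ ((q + 1) * (n0 + 1)) = (q : Kbar) ^ (q * (n0 + 1)) := by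
    rw [← hϖ, ← pow_mul, ← pow_mul]
    congr 1
    ring
  rw [A.mem_nonunits_iff, e1, map_mul, map_inv₀, map_pow, ← div_eq_mul_inv,
    div_lt_one₀ (zero_lt_iff.2 hvη)]
  refine lt_of_lt_of_le ?_ hn0'
  refine pow_lt_pow_right_of_lt_one₀ (zero_lt_iff.2 hq0) h1 ?_
  have := hq.one_le
  nlinarith

/-- **(C3)** -/
theorem discHyp_RM (hq : q.Prime) (hA : A.LiesOverPrime q) (hr : IsRedMap (RM A M hMk) r)
    (he : 0 ≤ e.ord (Igusa.jb (IsLocalRing.ResidueField ↥A) M)) {x : FN M}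
    (hxO : x ∈ (RM A M hMk).O) (hxreg : x ∈ regOff Kbar (jF M))
    (hord : e.ord ((RM A M hMk).red x) = 1) {ϖ : Kbar} (hϖ : ϖ ^ (q + 1) = (q : Kbar)) :
    DiscHyp (RM A M hMk) r e x (ϖ ^ q) := by
  obtain ⟨h0, h1⟩ := varpi_facts A hq hA hϖ
  refine ⟨?_, hord, (mem_discRing_of_regOff A M hMk hr he hxO hxreg).2, pow_ne_zero q h0, ?_, ?_⟩
  · intro h
    rw [h, Place.ord_zero] at hord
    exact zero_ne_one hord
  · rw [RM_A, A.mem_nonunits_iff, map_pow]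
    exact pow_lt_one₀ zero_le h1 hq.ne_zero
  · intro η hη
    rw [RM_A]
    exact exists_pow_mul_inv_small A hq hA hϖ η hη

/-- **(C4)** the Taylor constant of an inertia-fixed function vanishing at `e` is divisible by `q`. -/
theorem taylor_const_div (hq : q.Prime) (hA : A.LiesOverPrime q) (hg : GoodRed A M)
    (hr : IsRedMap (RM A M hMk) r) {x x' : FN M} {ρ : Kbar} (h : DiscHyp (RM A M hMk) r e x ρ)
    (hx : ∀ τ ∈ A.inertiaSubgroupIn ℚ, E.gal M τ • x = x)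
    (hx' : ∀ τ ∈ A.inertiaSubgroupIn ℚ, E.gal M τ • x' = x')
    (hx'D : x' ∈ discRing (RM A M hMk) r e) (hv : Van (RM A M hMk) e x') (γ : Kbar) (w : FN M)
    (hw : w ∈ discRing (RM A M hMk) r e) (heq : x' = algebraMap Kbar (FN M) γ + x * w) :
    γ / q ∈ (RM A M hMk).A := by
  have h1 : γ ∈ (RM A M hMk).A.nonunits := (van_iff hr h hx'D hw heq).1 hv
  rw [RM_A] at h1 ⊢
  refine Fermat.Agent.S36R.K0L.div_mem' A hq hA ?_ h1
  rw [IntermediateField.mem_fixedField_iff]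
  intro τ hτ
  exact taylor_const_fixed hr h (E.gal M τ)
    (fun f hf => (gal_mem_discRing_iff A M hMk hg hr hτ f).2 hf) (hx τ hτ) (hx' τ hτ) hw heq

variable {N : ℕ} [Algebra (FN M) (FN N)] [IsScalarTower Kbar (FN M) (FN N)]

/-- **(C5)** the term `HInput`. -/
theorem exists_hInput_core (hq : q.Prime) (hA : A.LiesOverPrime q) (hg : GoodRed A M)
    (hr : IsRedMap (RM A M hMk) r)
    (he : 0 ≤ e.ord (Igusa.jb (IsLocalRing.ResidueField ↥A) M)) {x x' : FN M} {rc : ℕ → FN M}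
    (fix_x : ∀ τ ∈ A.inertiaSubgroupIn ℚ, E.gal M τ • x = x)
    (fix_x' : ∀ τ ∈ A.inertiaSubgroupIn ℚ, E.gal M τ • x' = x')
    (int_x : x ∈ (RM A M hMk).O) (int_x' : x' ∈ (RM A M hMk).O)
    (int_rc : ∀ i, rc i ∈ (RM A M hMk).O)
    (reg_x : x ∈ regOff Kbar (jF M)) (reg_x' : x' ∈ regOff Kbar (jF M))
    (reg_rc : ∀ i, rc i ∈ regOff Kbar (jF M))
    (ord_x : e.ord ((RM A M hMk).red x) = 1) (ord_x' : e.ord ((RM A M hMk).red x') = 1)
    (hc : ¬ ((RM A M hMk).red (rc 0) = 0 ∨ 0 < e.ord ((RM A M hMk).red (rc 0))))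
    {ϖ : Kbar} (hϖ : ϖ ^ (q + 1) = (q : Kbar)) {x₀ x₂ : FN N}
    (root₀ : x₀ ^ (q + 1) +
      ∑ i ∈ Finset.range (q + 1), algebraMap (FN M) (FN N) (gcoAbs q x x' rc i) * x₀ ^ i = 0)
    (root₂ : x₂ ^ (q + 1) +
      ∑ i ∈ Finset.range (q + 1), algebraMap (FN M) (FN N) (gcoAbs q x x' rc i) * x₂ ^ i = 0)
    (ne : x₀ ≠ x₂) (finite : FiniteDimensional (FN M) (FN N))
    (finrank_le : Module.finrank (FN M) (FN N) ≤ q * (q + 1)) :
    ∃ (rr ss : ℕ → FN M) (c : Kbar),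
      HInput (RM A M hMk) r e q ϖ x (gcoAbs q x x' rc) rr ss c x₀ x₂ := by
  have disc := discHyp_RM A M hMk hq hA hr he int_x reg_x ord_x hϖ
  have hx'D := mem_discRing_of_regOff A M hMk hr he int_x' reg_x'
  refine hInput_of_congr hr hq (Nat.cast_ne_zero.2 hq.ne_zero) disc hϖ
    (fun i _ => mem_discRing_of_regOff A M hMk hr he (int_rc i) (reg_rc i)) hx'D
    (taylor_const_div A M hMk hq hA hg hr disc fix_x fix_x' hx'D
      (Or.inr (by rw [ord_x']; exact one_pos))) hc root₀ root₂ ne finite finrank_le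

end Fermat.Agent.S36.Kron
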