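import Fermat.Agent.S36.Kron.HeckePoly
import Fermat.Agent.S36R.K0.Lattice
import Fermat.Agent.DR.Conc.Normalise
import Fermat.Agent.S37.BetaDeg
import Fermat.Agent.S36.Hecke.BetaNorm
import Fermat.Agent.S36.Norm.RegNorm
import Fermat.Agent.DR.Conc.Coord

set_option autoImplicit false
set_option linter.style.haveILetI false
set_option linter.unusedSectionVars false

/-!
# S36/Kron (KR2) : complements on the Hecke polynomial `heckePoly hq hM u₀` (`HeckePoly.lean`)

* `root_alpha_beta` : `β u₀` is a root (coefficients through `α`), level `M q`;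
* `rootV` : the series roots;
* `lo_ne_hi` : `u₀(t) ≠ u₀(t^(q²))` for a non constant `u₀`;
* `finiteAlong_mid`, `finrankAlong_mid` : `[FN (M q q) : mid (FN M)] = q (q + 1)`;
* the coefficients: fixed by inertia, Gauss integral, regular outside the cusps.
-/

open ModularCurve AlgebraicCurve IntermediateField Polynomial

noncomputable section

namespace Fermat.Agent.S36.Kron

open Fermat.Agent.S24 Fermat.Agent.GAL Fermat.Agent.GAL.Gauss Fermat.Agent.GAL.NormFormula
  Fermat.Agent.S36.StepA Fermat.Agent.S36R Fermat.Agent.DR.Conc Fermat.Agent.DR.Gal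

variable {M q : ℕ} [NeZero M] [NeZero q] (hq : q.Prime) (hM : ¬ q ∣ M) (u₀ : FN M)

/-- a monic polynomial of degree `n`, evaluated. -/
theorem eval₂_eq_pow_add_sum {R S : Type*} [CommRing R] [CommRing S] (f : R →+* S) (x : S)
    {P : Polynomial R} (hP : P.Monic) {n : ℕ} (hn : P.natDegree = n) :
    P.eval₂ f x = x ^ n + ∑ i ∈ Finset.range n, f (P.coeff i) * x ^ i := by
  rw [eval₂_eq_sum_range, hn, Finset.sum_range_succ, ← hn, hP.coeff_natDegree, map_one, one_mul,
    add_comm]

/-- every root of `prodPoly` is a root of the polynomial with coefficients `g_i(t^q)`. -/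
theorem rootV {ζ : Kbar} (hζ : IsPrimitiveRoot ζ q) (ρ : LaurentSeries Kbar)
    (hρ : ρ = qExpand Kbar (q * q) (u₀ : LaurentSeries Kbar) ∨
      ∃ i : Fin q, ρ = Fermat.Agent.S24.twist (ζ ^ (i : ℕ)) (pow_ne_zero _ (hζ.ne_zero hq.ne_zero))
        (u₀ : LaurentSeries Kbar)) :
    ρ ^ (q + 1) + ∑ i ∈ Finset.range (q + 1),
      qExpand Kbar q (((heckePoly hq hM u₀).coeff i : FN M) : LaurentSeries Kbar) * ρ ^ i = 0 := by
  have h1 : (prodPoly q ζ (hζ.ne_zero hq.ne_zero) (u₀ : LaurentSeries Kbar)).eval ρ = 0 := by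
    rw [prodPoly, eval_mul, eval_prod]
    rcases hρ with rfl | ⟨i, rfl⟩
    · apply mul_eq_zero_of_left
      rw [eval_sub, eval_X, eval_C, sub_self]
    · apply mul_eq_zero_of_right
      refine Finset.prod_eq_zero (Finset.mem_univ i) ?_
      rw [eval_sub, eval_X, eval_C, sub_self]
  rw [← heckePoly_map hq hM u₀ hζ, eval_map,
    eval₂_eq_pow_add_sum _ _ (heckePoly_monic hq hM u₀) (heckePoly_natDegree hq hM u₀)] at h1
  exact h1

/-- **(P2)** `β u₀` is a root of the Hecke polynomial (coefficients through `α`). -/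
theorem root_alpha_beta :
    (heckeBetaBar Kbar M q u₀) ^ (q + 1) + ∑ i ∈ Finset.range (q + 1),
      heckeAlphaBar Kbar M q ((heckePoly hq hM u₀).coeff i) * (heckeBetaBar Kbar M q u₀) ^ i = 0 := by
  obtain ⟨ζ, hζ⟩ : ∃ ζ : Kbar, IsPrimitiveRoot ζ q :=
    HasEnoughRootsOfUnity.exists_primitiveRoot Kbar q
  apply ((qExpand Kbar q).comp (valN (M * q))).injective
  have h := rootV hq hM u₀ hζ _ (Or.inl rfl)
  rw [map_zero, map_add, map_pow, map_sum, ← h]
  have hb : ((qExpand Kbar q).comp (valN (M * q))) (heckeBetaBar Kbar M q u₀)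
      = qExpand Kbar (q * q) (u₀ : LaurentSeries Kbar) := by
    rw [RingHom.comp_apply, valN_apply, coe_heckeBetaBar, qExpand_qExpand]
  rw [hb]
  congr 1
  refine Finset.sum_congr rfl fun i _ => ?_
  rw [map_mul, map_pow, hb, RingHom.comp_apply, valN_apply, coe_heckeAlphaBar]

/-- a Laurent series with `f(t^n) = f(t)`, `n ≥ 2`, is constant. -/
theorem eq_C_of_qExpand_eq {L : Type*} [Field L] (n : ℕ) [NeZero n] (hn : 2 ≤ n)
    (f : LaurentSeries L) (h : qExpand L n f = f) : f = HahnSeries.C (f.coeff 0) := by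
  have key : ∀ N : ℕ, ∀ m : ℤ, m.natAbs ≤ N → m ≠ 0 → f.coeff m = 0 := by
    intro N
    induction N with
    | zero =>
      intro m hm hm0
      exact absurd (Int.natAbs_eq_zero.mp (Nat.le_zero.mp hm)) hm0
    | succ N ih =>
      intro m hm hm0
      by_cases hd : (n : ℤ) ∣ m
      · obtain ⟨m', rfl⟩ := hd
        have hm'0 : m' ≠ 0 := by
          rintro rfl
          exact hm0 (mul_zero _)
        rw [← h, qExpand_coeff_mul]
        apply ih m' _ hm'0
        rw [Int.natAbs_mul, Int.natAbs_natCast] at hm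
        have h1 : 1 ≤ m'.natAbs := Int.natAbs_pos.mpr hm'0
        nlinarith
      · rw [← h]
        exact qExpand_coeff_of_not_dvd n f hd
  ext m
  by_cases hm : m = 0
  · subst hm
    simp
  · rw [key _ m le_rfl hm, HahnSeries.C_apply, HahnSeries.coeff_single_of_ne hm]

include hq in
/-- **(P3)** `x₀ ≠ x₂` for a non constant `u₀`. -/
theorem lo_ne_hi (hu : ∀ c : Kbar, u₀ ≠ algebraMap Kbar (FN M) c) : lo M q u₀ ≠ hi M q u₀ := by
  intro h
  have h1 := congrArg (fun z : FN (M * q * q) => (z : LaurentSeries Kbar)) h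
  simp only [coe_lo, coe_hi] at h1
  have h2 := eq_C_of_qExpand_eq (q * q) (by nlinarith [hq.two_le]) _ h1.symm
  apply hu ((u₀ : LaurentSeries Kbar).coeff 0)
  apply Subtype.ext
  rw [coe_algebraMap_FN]
  exact h2

theorem finiteAlong_comp' {K F F' F'' : Type*} [Field K] [Field F] [Field F'] [Field F'']
    [Algebra K F] [Algebra K F'] [Algebra K F''] (φ : F →ₐ[K] F') (φ' : F' →ₐ[K] F'')
    (h : FiniteAlong K φ) (h' : FiniteAlong K φ') : FiniteAlong K (φ'.comp φ) := by
  letI := algebraAlong φ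
  letI := algebraAlong φ'
  letI := algebraAlong (φ'.comp φ)
  haveI : IsScalarTower F F' F'' := IsScalarTower.of_algebraMap_eq (fun _ => rfl)
  haveI : Module.Finite F F' := h
  haveI : Module.Finite F' F'' := h'
  exact Module.Finite.trans F' F''

theorem finrankAlong_comp' {K F F' F'' : Type*} [Field K] [Field F] [Field F'] [Field F'']
    [Algebra K F] [Algebra K F'] [Algebra K F''] (φ : F →ₐ[K] F') (φ' : F' →ₐ[K] F'') :
    finrankAlong K (φ'.comp φ) = finrankAlong K φ * finrankAlong K φ' := by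
  letI := algebraAlong φ
  letI := algebraAlong φ'
  letI := algebraAlong (φ'.comp φ)
  haveI : IsScalarTower F F' F'' := IsScalarTower.of_algebraMap_eq (fun _ => rfl)
  exact (Module.finrank_mul_finrank F F' F'').symm

/-- `FN (M q q)` is finite over `mid (FN M)`. -/
theorem finiteAlong_mid : FiniteAlong Kbar (mid M q) :=
  finiteAlong_comp' _ _ (Hecke.finiteAlong_beta M q) (Hecke.finiteAlong_alpha (M * q) q)

include hq hM in
/-- `[FN (M q q) : mid (FN M)] = q (q + 1)`. -/
theorem finrankAlong_mid : finrankAlong Kbar (mid M q) = q * (q + 1) := by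
  have h2 : finrankAlong Kbar (a2 M q) = q :=
    Fermat.Agent.S36.Hecke.finrankAlong_alpha_of_dvd hq (dvd_mul_left q M)
  rw [mid, finrankAlong_comp', Fermat.Agent.S37.finrankAlong_beta M q hq hM, h2, mul_comm]

/-- **(P4a)** the coefficients are fixed by inertia if `u₀` is. -/
theorem coeff_heckePoly_mem_range_bc0 (A : ValuationSubring Kbar)
    (hu : u₀ ∈ Set.range (bc0 A M)) (i : ℕ) :
    ((heckePoly hq hM u₀).coeff i : FN M) ∈ Set.range (bc0 A M) := by
  rw [mem_range_bc0_iff] at hu ⊢
  intro τ hτ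
  exact gal_coeff_heckePoly hq hM u₀ τ (hu τ hτ) i

/-- **(P4b)** Gauss integrality. -/
theorem coeff_heckePoly_mem_O (A : ValuationSubring Kbar)
    (hMk : ((M : ℕ) : IsLocalRing.ResidueField ↥A) ≠ 0)
    (hu : u₀ ∈ (RM A M hMk).O) (i : ℕ) :
    ((heckePoly hq hM u₀).coeff i : FN M) ∈ (RM A M hMk).O := by
  obtain ⟨ζ, hζ⟩ : ∃ ζ : Kbar, IsPrimitiveRoot ζ q :=
    HasEnoughRootsOfUnity.exists_primitiveRoot Kbar q
  rw [mem_RM_O_iff] at hu ⊢
  apply mem_gRing_of_qExpand A q
  have hlin : ∀ s ∈ gRing A, (X - C s : (LaurentSeries Kbar)[X]) ∈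
      Polynomial.liftsRing (gRing A).subtype := fun s hs =>
    sub_mem (X_mem_lifts _) (C_mem_lifts (gRing A).subtype ⟨s, hs⟩)
  have h1 : prodPoly q ζ (hζ.ne_zero hq.ne_zero) (u₀ : LaurentSeries Kbar) ∈
      Polynomial.liftsRing (gRing A).subtype := by
    refine mul_mem (hlin _ (qExpand_mem_gRing A (q * q) hu)) (prod_mem fun i _ => hlin _ ?_)
    exact Normalise_twist_mem A q hq hζ hu i
  have h2 := (lifts_iff_coeff_lifts _).1 ((lifts_iff_liftsRing _ _).2 h1) i
  rw [← heckePoly_map hq hM u₀ hζ, coeff_map] at h2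
  obtain ⟨y, hy⟩ := h2
  rw [← psi_apply, ← hy]
  exact y.2

/-- Lagrange interpolation: a polynomial whose values at the constants lie in a `K`-subspace has its
coefficients in this subspace. -/
theorem coeff_mem_of_eval_mem {K F : Type*} [Field K] [Field F] [Algebra K F] [Infinite K]
    (S : Submodule K F) (P : F[X]) (h : ∀ c : K, P.eval (algebraMap K F c) ∈ S) (i : ℕ) :
    P.coeff i ∈ S := by
  classical
  let v0 : Fin (P.natDegree + 1) → K := fun k => Infinite.natEmbedding K k
  have hv0 : Function.Injective v0 := fun a b hab =>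
    Fin.ext ((Infinite.natEmbedding K).injective hab)
  let v : Fin (P.natDegree + 1) → F := fun k => algebraMap K F (v0 k)
  have hv : Function.Injective v := (algebraMap K F).injective.comp hv0
  have hb : ∀ k, Lagrange.basis Finset.univ v k
      = (Lagrange.basis Finset.univ v0 k).map (algebraMap K F) := by
    intro k
    simp only [Lagrange.basis, Polynomial.map_prod, Lagrange.basisDivisor, Polynomial.map_mul,
      Polynomial.map_sub, map_C, map_X, map_inv₀, map_sub, v]
  have h1 := Lagrange.eq_interpolate (s := Finset.univ) (v := v) (f := P) hv.injOn (by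
    rw [Finset.card_univ, Fintype.card_fin]
    exact lt_of_le_of_lt degree_le_natDegree (by exact_mod_cast Nat.lt_succ_self _))
  rw [h1, Lagrange.interpolate_apply, finsetSum_coeff]
  refine Submodule.sum_mem _ fun k _ => ?_
  rw [coeff_C_mul, hb, coeff_map, mul_comm, ← Algebra.smul_def]
  exact S.smul_mem _ (h _)

include hq hM in
/-- the multiplicative Hecke operator preserves the functions which are regular outside the cusps. -/
theorem heckeNorm_mem_regOff {f : FN M} (hf : f ∈ regOff Kbar (jF M)) :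
    heckeNorm Kbar M q f ∈ regOff Kbar (jF M) := by
  haveI : Lib.RR.IsFF Kbar (FN M) := Fermat.Agent.GAL.Desc.isFF_FF_Kbar M
  haveI : Lib.RR.IsFF Kbar (FN (M * q)) := Fermat.Agent.GAL.Desc.isFF_FF_Kbar (M * q)
  letI := algebraAlong (heckeAlphaBar Kbar M q)
  haveI := isScalarTower_along (heckeAlphaBar Kbar M q)
  haveI : FiniteDimensional (FN M) (FN (M * q)) := DegreeAlpha.finiteDimensional_alpha M q hq hM
  have h1 : heckeBetaBar Kbar M q f ∈ regOff Kbar (algebraMap (FN M) (FN (M * q)) (jF M)) := by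
    intro P hP
    refine beta_mem_regOff M q hq hM hf P ?_
    rw [xN_mem_place_iff M q hq hM, jN_eq_alpha]
    exact hP
  obtain ⟨a, ha⟩ := Fermat.Agent.S36.Norm.norm_mem_L (K := Kbar) (jF M)
    (exists_mem_rr_of_mem_regOff h1)
  rw [heckeNorm_apply]
  exact mem_regOff_of_mem_rr ha

/-- **(P4c)** regularity outside the cusps. -/
theorem coeff_heckePoly_mem_regOff (hu : u₀ ∈ regOff Kbar (jF M)) (i : ℕ) :
    ((heckePoly hq hM u₀).coeff i : FN M) ∈ regOff Kbar (jF M) := by
  refine coeff_mem_of_eval_mem (K := Kbar) (Subalgebra.toSubmodule (regOff Kbar (jF M))) _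
    (fun c => ?_) i
  rw [heckePoly_eval]
  exact heckeNorm_mem_regOff hq hM (sub_mem (Subalgebra.algebraMap_mem _ c) hu)

end Fermat.Agent.S36.Kron
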