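import Fermat.Agent.S36.Kron.KOut
import Fermat.Agent.S36.Kron.HeckePolyInt
import Fermat.Agent.S36.Kron.InputCore
import Fermat.Agent.S36.StepA.HorA
import Fermat.Agent.S36R.K0.Fixed

/-!
# S36/Kron/Input : `HInput` from `KOut` (KR4 + KR9), and the package on `H_e`

`FN (M q q)` is an algebra over `FN M` along `mid M q` (`f(t) ↦ f(t^q)`); `x₀ = lo M q u0 = u0(t)`,
`x₂ = hi M q u0 = u0(t^{q²})`.
-/

set_option autoImplicit false
set_option linter.unusedSectionVars false
set_option linter.style.haveILetI false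

noncomputable section

namespace Fermat.Agent.S36.Kron

open Polynomial AlgebraicCurve ModularCurve Fermat.Agent.S24 Fermat.Agent.GAL Fermat.Agent.GAL.RED
  Fermat.Agent.GAL.Gauss Fermat.Agent.S36.Val Fermat.Agent.S36.Geo Fermat.Agent.S36.StepA
  Fermat.Agent.DR.Conc Fermat.Agent.DR.Gal Fermat.Agent.S36R

theorem gco_eq_gcoAbs {M : ℕ} (q : ℕ) (x x' : FN M) (rc : ℕ → FN M) :
    gco q x x' rc = gcoAbs q x x' rc := rfl

section Gal

variable {M q : ℕ} [NeZero M] [NeZero q]

theorem gal_mid (τ : Kbar ≃ₐ[ℚ] Kbar) (f : FN M) :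
    E.gal (M * q * q) τ • mid M q f = mid M q (E.gal M τ • f) := by
  apply Subtype.ext
  rw [coe_mid]
  show coeffMap (τ : Kbar →+* Kbar) ((mid M q f : FN (M * q * q)) : LaurentSeries Kbar) =
    qExpand Kbar q (coeffMap (τ : Kbar →+* Kbar) (f : LaurentSeries Kbar))
  rw [coe_mid, AL_coeffMap_qExpand]

theorem gal_lo (τ : Kbar ≃ₐ[ℚ] Kbar) (f : FN M) :
    E.gal (M * q * q) τ • lo M q f = lo M q (E.gal M τ • f) := by
  apply Subtype.ext
  rw [coe_lo]
  show coeffMap (τ : Kbar →+* Kbar) ((lo M q f : FN (M * q * q)) : LaurentSeries Kbar) =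
    coeffMap (τ : Kbar →+* Kbar) (f : LaurentSeries Kbar)
  rw [coe_lo]

theorem gal_hi (τ : Kbar ≃ₐ[ℚ] Kbar) (f : FN M) :
    E.gal (M * q * q) τ • hi M q f = hi M q (E.gal M τ • f) := by
  apply Subtype.ext
  rw [coe_hi]
  show coeffMap (τ : Kbar →+* Kbar) ((hi M q f : FN (M * q * q)) : LaurentSeries Kbar) =
    qExpand Kbar (q * q) (coeffMap (τ : Kbar →+* Kbar) (f : LaurentSeries Kbar))
  rw [coe_hi, AL_coeffMap_qExpand]

theorem gal_of_mem_range_bc0 (A : ValuationSubring Kbar) {f : FN M}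
    (hf : f ∈ Set.range (bc0 A M)) (τ : Kbar ≃ₐ[ℚ] Kbar) (hτ : τ ∈ A.inertiaSubgroupIn ℚ) :
    E.gal M τ • f = f := (mem_range_bc0_iff A M f).1 hf τ hτ

end Gal

variable (A : ValuationSubring Kbar) (M q : ℕ) [NeZero M] [NeZero q] (hq : q.Prime)
  (hqM : ¬ q ∣ M) (hA : A.LiesOverPrime q)
  [Fact q.Prime] [CharP (IsLocalRing.ResidueField ↥A) q] [PerfectRing (IsLocalRing.ResidueField ↥A) q]

variable {A M q hq hqM hA}
  {e : Place (IsLocalRing.ResidueField ↥A) (Igusa.E (IsLocalRing.ResidueField ↥A) M)}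
  {x x' u0 : FN M} {rc : ℕ → FN M}

/-- `u0` is not constant. -/
theorem KOut.u0_ne (h : KOut A M q hq hqM hA e x x' u0 rc) (c : Kbar) :
    u0 ≠ algebraMap Kbar (FN M) c := by
  intro hc
  have h1 := h.ord_x
  rw [h.red_x, hc, RedData.red_algebraMap', FrE_algebraMap, RED.ord_algebraMap] at h1
  exact zero_ne_one h1

/-- `KOut` gives helper53's interface `KLoc`. -/
theorem KOut.kLoc (h : KOut A M q hq hqM hA e x x' u0 rc) : KLoc A M q hq hqM hA e x x' u0 rc :=
  ⟨⟨h.x_int, h.x_reg⟩, ⟨h.x'_int, h.x'_reg⟩, h.u0_int, fun i => ⟨h.rc_int i, h.rc_reg i⟩, h.ord_x',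
    Or.inl h.ord_x, h.red_u0, h.root, h.div_mem⟩

theorem KOut.root_lo (h : KOut A M q hq hqM hA e x x' u0 rc) :
    (lo M q u0) ^ (q + 1) + ∑ i ∈ Finset.range (q + 1),
      mid M q (gco q x x' rc i) * (lo M q u0) ^ i = 0 := by
  rw [← root_of_eval hq hqM u0 (eval_lo hq hqM u0)]
  congr 1
  refine Finset.sum_congr rfl fun i hi => ?_
  rw [h.coeff i (Nat.lt_succ_iff.1 (Finset.mem_range.1 hi))]

theorem KOut.root_hi (h : KOut A M q hq hqM hA e x x' u0 rc) :
    (hi M q u0) ^ (q + 1) + ∑ i ∈ Finset.range (q + 1),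
      mid M q (gco q x x' rc i) * (hi M q u0) ^ i = 0 := by
  rw [← root_of_eval hq hqM u0 (eval_hi hq hqM u0)]
  congr 1
  refine Finset.sum_congr rfl fun i hi => ?_
  rw [h.coeff i (Nat.lt_succ_iff.1 (Finset.mem_range.1 hi))]

variable [Lib.RR.IsFF (IsLocalRing.ResidueField ↥A) (Igusa.E (IsLocalRing.ResidueField ↥A) M)]
  {r : Place Kbar (FN M) →
    Place (IsLocalRing.ResidueField ↥A) (Igusa.E (IsLocalRing.ResidueField ↥A) M)}

/-- **KR4 + KR9** : the term `HInput` from `KOut`. -/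
theorem exists_hInput (hg : GoodRed A M) (hr : IsRedMap (RK A M q hq hqM hA) r)
    (he : 0 ≤ e.ord (Igusa.jb (IsLocalRing.ResidueField ↥A) M))
    (h : KOut A M q hq hqM hA e x x' u0 rc)
    (hc : ¬ ((RK A M q hq hqM hA).red (rc 0) = 0 ∨ 0 < e.ord ((RK A M q hq hqM hA).red (rc 0))))
    {ϖ : Kbar} (hϖ : ϖ ^ (q + 1) = (q : Kbar)) :
    letI := algebraAlong (mid M q)
    haveI := isScalarTower_along (mid M q)
    ∃ (rr ss : ℕ → FN M) (c : Kbar),
      HInput (RK A M q hq hqM hA) r e q ϖ x (gco q x x' rc) rr ss c (lo M q u0) (hi M q u0) := by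
  letI := algebraAlong (mid M q)
  haveI := isScalarTower_along (mid M q)
  exact exists_hInput_core A M _ hq hA hg hr he (gal_of_mem_range_bc0 A h.x_fix)
    (gal_of_mem_range_bc0 A h.x'_fix) h.x_int h.x'_int h.rc_int h.x_reg h.x'_reg h.rc_reg
    h.ord_x h.ord_x' hc hϖ h.root_lo h.root_hi (lo_ne_hi hq u0 h.u0_ne) finiteAlong_mid
    (le_of_eq (finrankAlong_mid hq hqM))

/-! ### the package on `H_e` (everything for `V : ValOver A (FN (M q q))`) -/

section Package

variable [IsAlgClosed (IsLocalRing.ResidueField ↥A)] {ϖ : Kbar} {rr ss : ℕ → FN M} {c : Kbar}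

/-- existence and uniqueness of the valuation `H_e` of `FN (M q q)`. -/
theorem KOut.existsUnique_hor (hr : IsRedMap (RK A M q hq hqM hA) r) :
    letI := algebraAlong (mid M q)
    haveI := isScalarTower_along (mid M q)
    ∀ (_ : HInput (RK A M q hq hqM hA) r e q ϖ x (gco q x x' rc) rr ss c (lo M q u0) (hi M q u0)),
    ∃! V : ValOver A (FN (M * q * q)), IsDiscVal (RK A M q hq hqM hA) r e x (ϖ ^ q)
      (V.O.comap (algebraMap (FN M) (FN (M * q * q)))) := by
  letI := algebraAlong (mid M q)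
  haveI := isScalarTower_along (mid M q)
  intro H
  exact HInput_existsUnique_A (RM_A A M _) H hr (RM_isCartesian A M _)

/-- the residue field of `H_e` is the curve `a^q b - a b^q = …` generated by the reductions of `x₀/ϖ, x₂/ϖ`. -/
theorem KOut.isHCurve_hor (hr : IsRedMap (RK A M q hq hqM hA) r) :
    letI := algebraAlong (mid M q)
    haveI := isScalarTower_along (mid M q)
    ∀ (_ : HInput (RK A M q hq hqM hA) r e q ϖ x (gco q x x' rc) rr ss c (lo M q u0) (hi M q u0))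
      (V : ValOver A (FN (M * q * q))) (_ : IsDiscVal (RK A M q hq hqM hA) r e x (ϖ ^ q)
        (V.O.comap (algebraMap (FN M) (FN (M * q * q))))),
    ∃ hc : c ∈ A, IsHCurve (IsLocalRing.ResidueField ↥A) q (IsLocalRing.residue ↥A ⟨c, hc⟩)
        (V.red ((algebraMap Kbar (FN (M * q * q)) ϖ)⁻¹ * lo M q u0))
        (V.red ((algebraMap Kbar (FN (M * q * q)) ϖ)⁻¹ * hi M q u0)) ∧
      IntermediateField.adjoin (IsLocalRing.ResidueField ↥A)
        {V.red ((algebraMap Kbar (FN (M * q * q)) ϖ)⁻¹ * lo M q u0),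
          V.red ((algebraMap Kbar (FN (M * q * q)) ϖ)⁻¹ * hi M q u0)} = ⊤ := by
  letI := algebraAlong (mid M q)
  haveI := isScalarTower_along (mid M q)
  intro H V hV
  exact HInput_isHCurve_A (RM_A A M _) H hr (RM_isCartesian A M _) V hV

/-- scales on `H_e`. -/
theorem KOut.exists_scale_hor (hr : IsRedMap (RK A M q hq hqM hA) r) :
    letI := algebraAlong (mid M q)
    haveI := isScalarTower_along (mid M q)
    ∀ (_ : HInput (RK A M q hq hqM hA) r e q ϖ x (gco q x x' rc) rr ss c (lo M q u0) (hi M q u0))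
      (V : ValOver A (FN (M * q * q))) (_ : IsDiscVal (RK A M q hq hqM hA) r e x (ϖ ^ q)
        (V.O.comap (algebraMap (FN M) (FN (M * q * q))))) (w : FN (M * q * q)) (_ : w ≠ 0),
    ∃ a : Kbar, a ≠ 0 ∧ V.redData.red (a • w) ≠ 0 := by
  letI := algebraAlong (mid M q)
  haveI := isScalarTower_along (mid M q)
  intro H V hV w hw
  exact HInput_exists_scale_A (RM_A A M _) H hr (RM_isCartesian A M _) V hV hw

/-- **`hhor`** : the inertia group acts on the residue field of `H_e` through a Galois group of order `q + 1`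
with rational quotient. -/
theorem KOut.hhor (hg : GoodRed A M) (hr : IsRedMap (RK A M q hq hqM hA) r)
    (h : KOut A M q hq hqM hA e x x' u0 rc) :
    letI := algebraAlong (mid M q)
    haveI := isScalarTower_along (mid M q)
    ∀ (_ : HInput (RK A M q hq hqM hA) r e q ϖ x (gco q x x' rc) rr ss c (lo M q u0) (hi M q u0))
      (V : ValOver A (FN (M * q * q))) (_ : IsDiscVal (RK A M q hq hqM hA) r e x (ϖ ^ q)
        (V.O.comap (algebraMap (FN M) (FN (M * q * q))))),
    ∃ t : V.Res, Transcendental (E.kk A) t ∧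
      ∃ (_ : FiniteDimensional (IntermediateField.adjoin (E.kk A) {t}) V.Res)
        (_ : IsGalois (IntermediateField.adjoin (E.kk A) {t}) V.Res),
        Module.finrank (IntermediateField.adjoin (E.kk A) {t}) V.Res = q + 1 ∧
        ∀ γ : V.Res ≃ₐ[IntermediateField.adjoin (E.kk A) {t}] V.Res, ∃ τ ∈ A.inertiaSubgroupIn ℚ,
          ∀ y ∈ V.redData.O, V.redData.red (E.gal (M * q * q) τ • y) = γ (V.redData.red y) := by
  letI := algebraAlong (mid M q)
  haveI := isScalarTower_along (mid M q)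
  intro H V hV
  have hcomm : ∀ (τ : Kbar ≃ₐ[ℚ] Kbar) (f : FN M),
      E.gal (M * q * q) τ • algebraMap (FN M) (FN (M * q * q)) f =
        algebraMap (FN M) (FN (M * q * q)) (E.gal M τ • f) := fun τ f => gal_mid τ f
  have h0 : ∀ τ ∈ A.inertiaSubgroupIn ℚ, E.gal (M * q * q) τ • lo M q u0 = lo M q u0 := by
    intro τ hτ
    rw [gal_lo, gal_of_mem_range_bc0 A h.u0_fix τ hτ]
  have h2 : ∀ τ ∈ A.inertiaSubgroupIn ℚ, E.gal (M * q * q) τ • hi M q u0 = hi M q u0 := by
    intro τ hτ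
    rw [gal_hi, gal_of_mem_range_bc0 A h.u0_fix τ hτ]
  exact hhor_of_HInput_A (RM_A A M _) hq hA hcomm H hr (RM_isCartesian A M _) V hV
    (fun τ hτ f => gal_mem_discRing_iff A M _ hg hr hτ f) (gal_of_mem_range_bc0 A h.x_fix) h0 h2

end Package

end Fermat.Agent.S36.Kron
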