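import Fermat.Agent.S36.Kron.Defs

/-!
# S36/Kron/Const : Teichmueller representatives
-/

set_option autoImplicit false
set_option linter.unusedSectionVars false

noncomputable section

namespace Fermat.Agent.S36.Kron

open ModularCurve AlgebraicCurve Fermat.Agent.S24 Fermat.Agent.GAL Fermat.Agent.GAL.Gauss
  Fermat.Agent.GAL.RED Fermat.Agent.DR.Gal Fermat.Agent.DR.Conc Fermat.Agent.S36R Fermat.Agent.Lib.RR

variable (A : ValuationSubring Kbar) {q : ℕ} (hq : q.Prime) (hA : A.LiesOverPrime q)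

include hq hA in
/-- **(CO1)** Teichmueller representatives of the elements of `F_{q²}`.
PROOF.  `a = 0`: `c = 0`.  Else `a^n = 1`, `n = q² - 1` (cancel `a` in `a^(q²) = a`, `q² = n + 1`).  Lift `a` to `c₁ ∈ A`
(`IsLocalRing.residue_surjective`).  `Kbar` has a primitive `n`-th root of unity
(`HasEnoughRootsOfUnity.exists_primitiveRoot Kbar n`), `X^n - 1 = ∏_{ζ ∈ nthRootsFinset n} (X - ζ)`
(`Polynomial.X_pow_sub_one_eq_prod`); evaluate at `c₁`: the product `c₁^n - 1` is a non unit of `A`, so one factor is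
(`K0L.exists_factor_lt_one ⟨A, q, hq, hA⟩`).  That `ζ` satisfies `ζ^n = 1`; so `ζ ∈ A` (integral:
`K0L`/`PT.Local.v_le_one_of_isIntegral`, or `Normalise_zeta_mem A`), `ζ ∈ K0 A` (`K0L.root_mem_K0`, `q ∤ q² - 1`),
`residue ζ = residue c₁ = a`, `ζ^(q²) = ζ`. -/
theorem exists_teich (a : IsLocalRing.ResidueField ↥A) (ha : a ^ (q ^ 2) = a) :
    ∃ (c : Kbar) (hc : c ∈ A), c ∈ K0 A ∧ c ^ (q ^ 2) = c ∧ IsLocalRing.residue ↥A ⟨c, hc⟩ = a := by
  classical
  have hq2 : 0 < q ^ 2 := pow_pos hq.pos 2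
  by_cases ha0 : a = 0
  · refine ⟨0, A.zero_mem, (K0 A).zero_mem, zero_pow hq2.ne', ?_⟩
    rw [ha0]
    exact map_zero (IsLocalRing.residue ↥A)
  obtain ⟨n, hn⟩ : ∃ n, q ^ 2 = n + 1 := ⟨q ^ 2 - 1, by omega⟩
  have hn0 : n ≠ 0 := by
    rintro rfl
    have h1 : 1 < q ^ 2 := Nat.one_lt_pow (by norm_num) hq.one_lt
    omega
  have : NeZero n := ⟨hn0⟩
  have han : a ^ n = 1 := by
    rw [hn, pow_succ] at ha
    exact mul_right_cancel₀ ha0 (by rw [ha, one_mul])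
  have hqn : ¬ q ∣ n := by
    intro h
    have h1 : q ∣ q ^ 2 := dvd_pow_self q (by norm_num)
    rw [hn] at h1
    exact hq.one_lt.ne' (Nat.dvd_one.1 ((Nat.dvd_add_right h).1 h1))
  obtain ⟨c₁, hc₁⟩ := IsLocalRing.residue_surjective (R := ↥A) a
  obtain ⟨ζ₀, hζ₀⟩ := HasEnoughRootsOfUnity.exists_primitiveRoot Kbar n
  have hprod := Polynomial.X_pow_sub_one_eq_prod (Nat.pos_of_ne_zero hn0) hζ₀
  have hev : ((c₁ : Kbar)) ^ n - 1 = ∏ ζ ∈ Polynomial.nthRootsFinset n (1 : Kbar), ((c₁ : Kbar) - ζ) := by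
    have := congrArg (Polynomial.eval (c₁ : Kbar)) hprod
    simpa [Polynomial.eval_prod] using this
  have hnu : (c₁ ^ n - 1 : ↥A) ∈ IsLocalRing.maximalIdeal ↥A := by
    rw [← IsLocalRing.residue_eq_zero_iff, map_sub, map_pow, hc₁, han, map_one, sub_self]
  have hv : A.valuation (∏ ζ ∈ Polynomial.nthRootsFinset n (1 : Kbar), ((c₁ : Kbar) - ζ)) < 1 := by
    rw [← hev]
    have := (ValuationSubring.valuation_lt_one_iff A (c₁ ^ n - 1)).1 hnu
    simpa using this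
  obtain ⟨ζ, hζ, hζv⟩ := K0L.exists_factor_lt_one ⟨A, q, hq, hA⟩ (c₁ : Kbar) _ hv
  have hζn : ζ ^ n = 1 := (Polynomial.mem_nthRootsFinset (Nat.pos_of_ne_zero hn0) 1).1 hζ
  have hζA : ζ ∈ A := (Normalise_zeta_mem A (Nat.pos_of_ne_zero hn0) hζn).1
  refine ⟨ζ, hζA, K0L.root_mem_K0 ⟨A, q, hq, hA⟩ hqn hζn, by rw [hn, pow_succ, hζn, one_mul], ?_⟩
  rw [← hc₁, ← sub_eq_zero, ← map_sub, IsLocalRing.residue_eq_zero_iff]
  apply (ValuationSubring.valuation_lt_one_iff A _).2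
  have h2 : A.valuation ((c₁ : Kbar) - ζ) = A.valuation (ζ - (c₁ : Kbar)) := by
    rw [← neg_sub, Valuation.map_neg]
  have h3 : A.valuation ((c₁ : Kbar) - ζ) < 1 := hζv
  rw [h2] at h3
  simpa using h3

end Fermat.Agent.S36.Kron
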