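import Fermat.Agent.DR.Conc.Export
import Fermat.Agent.S36R.K0.Fixed
import Fermat.Agent.S36R.K0.BlockL

/-!
# S36/Kron : the Kronecker congruence at level `M q` and the supersingular points.  Definitions.

`A` a place of `Kbar` over `q`, `k` its residue field, `M` neat, `q ∤ M`; `R = RMq` the Gauss reduction of `FN M`,
`Eb = Igusa.E k M`.

* `CoeffIn L s` : the coefficients of the series `s` lie in the subfield `L` of `Kbar`.
  `L = ⊥` : "rational"; `L = K0 A` (fixed field of the inertia group) : "`I`-fixed".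
* `Nice A M q .. L y` : `y : FN M` has coefficients in `L`, is Gauss integral, and is regular outside the cusps.

PLAN OF THE BLOCK (see `Main.lean` for the output).
1. (`FactD`) an `I`-fixed Gauss-integral function with zero reduction is divisible by `q`.
2. (`Descent`, `RatCart`, `Unif`) every non cuspidal place `e` of `Eb` has a uniformiser `w̄ - a`, `w` RATIONAL, nice.
3. (`Charpoly`, `HeckeNorm`, `Kronecker`) `P_{u0}(T) = (T - x'^q)(T^q - x) + q ∑ r_i T^i`, `r_i` nice, for
   `ū0 = Fr x̄'`, `x̄ = Fr ū0`.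
4. (`ODE`, `Der`, `Local`) `ρ = (θ x̄')^(q-1) ∈ Eb` has a pole at `e` iff it has a double pole iff `r̄_0(e) ≠ 0` (and
   `w̄(e) ∈ F_{q²}`); Kodaira-Spencer (`S36R.KS.KS_main`): `ρ^6 G(j̄) = κ^(q-1)`, `G(j̄) = Δ̄^(1-q)`.
5. (`Gpoly`, `Count`) `G` is a polynomial of degree `q - 1`; `SS` = zeros of `G(j̄)`; `12 #SS = (q-1) ψ(M)`.
6. (`Input`, `Main`) `HInput` at every `e ∈ SS`.
-/

set_option autoImplicit false
set_option linter.unusedSectionVars false

noncomputable section

namespace Fermat.Agent.S36.Kron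

open ModularCurve AlgebraicCurve Fermat.Agent.S24 Fermat.Agent.GAL Fermat.Agent.GAL.Gauss
  Fermat.Agent.GAL.RED Fermat.Agent.DR.Gal Fermat.Agent.DR.Conc Fermat.Agent.S36R

/-- the coefficients of `s` lie in `L`. -/
def CoeffIn (L : IntermediateField ℚ Kbar) (s : LaurentSeries Kbar) : Prop := ∀ n, s.coeff n ∈ L

namespace CoeffIn

variable {L L' : IntermediateField ℚ Kbar} {s t : LaurentSeries Kbar}

theorem mono (h : L ≤ L') (hs : CoeffIn L s) : CoeffIn L' s := fun n => h (hs n)

theorem zero : CoeffIn L 0 := fun _ => L.zero_mem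

theorem C {c : Kbar} (hc : c ∈ L) : CoeffIn L (HahnSeries.C c) := fun n => by
  rw [HahnSeries.C_apply, HahnSeries.coeff_single]
  split_ifs
  · exact hc
  · exact L.zero_mem

theorem one : CoeffIn L 1 := by
  have : (1 : LaurentSeries Kbar) = HahnSeries.C 1 := (map_one _).symm
  rw [this]
  exact C L.one_mem

theorem add (hs : CoeffIn L s) (ht : CoeffIn L t) : CoeffIn L (s + t) := fun n => by
  rw [HahnSeries.coeff_add]
  exact L.add_mem (hs n) (ht n)

theorem neg (hs : CoeffIn L s) : CoeffIn L (-s) := fun n => by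
  rw [HahnSeries.coeff_neg]
  exact L.neg_mem (hs n)

theorem sub (hs : CoeffIn L s) (ht : CoeffIn L t) : CoeffIn L (s - t) := by
  rw [sub_eq_add_neg]
  exact hs.add ht.neg

theorem mul (hs : CoeffIn L s) (ht : CoeffIn L t) : CoeffIn L (s * t) := fun n => by
  rw [HahnSeries.coeff_mul]
  exact sum_mem fun ij _ => L.mul_mem (hs _) (ht _)

theorem pow (hs : CoeffIn L s) (n : ℕ) : CoeffIn L (s ^ n) := by
  induction n with
  | zero => rw [pow_zero]; exact one
  | succ n ih => rw [pow_succ]; exact ih.mul hs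

theorem qExpand (hs : CoeffIn L s) (d : ℕ) [NeZero d] : CoeffIn L (qExpand Kbar d s) := fun n => by
  by_cases hn : (d : ℤ) ∣ n
  · obtain ⟨m, rfl⟩ := hn
    rw [qExpand_coeff_mul]
    exact hs m
  · rw [qExpand_coeff_of_not_dvd d _ hn]
    exact L.zero_mem

end CoeffIn

/-- `I`-fixed series = series fixed by the coefficientwise action of the inertia group. -/
theorem coeffIn_K0_iff (A : ValuationSubring Kbar) (s : LaurentSeries Kbar) :
    CoeffIn (K0 A) s ↔ ∀ τ ∈ A.inertiaSubgroupIn ℚ, coeffMap (τ : Kbar →+* Kbar) s = s := by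
  constructor
  · intro h τ hτ
    ext n
    rw [coeffMap_coeff]
    exact mem_K0.mp (h n) τ hτ
  · intro h n
    rw [mem_K0]
    intro τ hτ
    have := congrArg (fun z : LaurentSeries Kbar => z.coeff n) (h τ hτ)
    simp only [coeffMap_coeff] at this
    exact this

/-- rational series = series fixed by the coefficientwise action of the Galois group. -/
theorem coeffIn_bot_iff (s : LaurentSeries Kbar) :
    CoeffIn ⊥ s ↔ ∀ τ : Kbar ≃ₐ[ℚ] Kbar, coeffMap (τ : Kbar →+* Kbar) s = s := by
  constructor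
  · intro h τ
    ext n
    rw [coeffMap_coeff]
    obtain ⟨r, hr⟩ := IntermediateField.mem_bot.mp (h n)
    rw [← hr]
    exact τ.commutes r
  · intro h n
    rw [InfiniteGalois.mem_bot_iff_fixed]
    intro τ
    have := congrArg (fun z : LaurentSeries Kbar => z.coeff n) (h τ)
    simp only [coeffMap_coeff] at this
    exact this

variable (A : ValuationSubring Kbar) (M q : ℕ) [NeZero M] [NeZero q] (hq : q.Prime)
  (hqM : ¬ q ∣ M) (hA : A.LiesOverPrime q)

/-- `y` has coefficients in `L`, is Gauss integral and regular outside the cusps.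
(A `def`, not a `structure`: the kernel times out on a structure with such fields.) -/
def Nice (L : IntermediateField ℚ Kbar) (y : FN M) : Prop :=
  CoeffIn L (y : LaurentSeries Kbar) ∧ y ∈ (RMq A M q hq hqM hA).O ∧ y ∈ regOff Kbar (jF M)

namespace Nice

variable {A M q hq hqM hA} {L L' : IntermediateField ℚ Kbar} {y z : FN M}

theorem coeff (hy : Nice A M q hq hqM hA L y) : CoeffIn L (y : LaurentSeries Kbar) := hy.1

theorem int (hy : Nice A M q hq hqM hA L y) : y ∈ (RMq A M q hq hqM hA).O := hy.2.1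

theorem reg (hy : Nice A M q hq hqM hA L y) : y ∈ regOff Kbar (jF M) := hy.2.2

theorem mono (h : L ≤ L') (hy : Nice A M q hq hqM hA L y) : Nice A M q hq hqM hA L' y :=
  ⟨hy.coeff.mono h, hy.int, hy.reg⟩

theorem add (hy : Nice A M q hq hqM hA L y) (hz : Nice A M q hq hqM hA L z) :
    Nice A M q hq hqM hA L (y + z) :=
  ⟨hy.coeff.add hz.coeff, add_mem hy.int hz.int, add_mem hy.reg hz.reg⟩

theorem sub (hy : Nice A M q hq hqM hA L y) (hz : Nice A M q hq hqM hA L z) :
    Nice A M q hq hqM hA L (y - z) :=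
  ⟨hy.coeff.sub hz.coeff, sub_mem hy.int hz.int, sub_mem hy.reg hz.reg⟩

theorem neg (hy : Nice A M q hq hqM hA L y) : Nice A M q hq hqM hA L (-y) :=
  ⟨hy.coeff.neg, neg_mem hy.int, neg_mem hy.reg⟩

theorem mul (hy : Nice A M q hq hqM hA L y) (hz : Nice A M q hq hqM hA L z) :
    Nice A M q hq hqM hA L (y * z) :=
  ⟨hy.coeff.mul hz.coeff, mul_mem hy.int hz.int, mul_mem hy.reg hz.reg⟩

theorem pow (hy : Nice A M q hq hqM hA L y) (n : ℕ) : Nice A M q hq hqM hA L (y ^ n) :=
  ⟨hy.coeff.pow n, pow_mem hy.int n, pow_mem hy.reg n⟩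

theorem const {c : Kbar} (hc : c ∈ L) (hcA : c ∈ A) :
    Nice A M q hq hqM hA L (algebraMap Kbar (FN M) c) := by
  refine ⟨?_, ?_, Subalgebra.algebraMap_mem _ c⟩
  · rw [coe_algebraMap_FN]
    exact CoeffIn.C hc
  · rw [mem_RM_O_iff, coe_algebraMap_FN]
    exact (C_mem_gRing_iff A c).mpr hcA

theorem zero : Nice A M q hq hqM hA L (0 : FN M) := by
  have := const (A := A) (M := M) (q := q) (hq := hq) (hqM := hqM) (hA := hA) L.zero_mem A.zero_mem
  rwa [map_zero] at this

end Nice

end Fermat.Agent.S36.Kron
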