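import Fermat.Agent.S36R.KS.DerivAbs
import Fermat.Agent.GAL.RED.CurveBasic

/-!
# S36/Kron (KR5, abstract local part) : derivatives at a place, any characteristic

`F / k` a function field, `v` a place with residue field `k`, `X` a uniformiser at `v`.
If `du = g dX` then `g` is regular at `v` if `u` is, and `g` has a double pole if `u` has a simple pole.
(Expansions: `S24.Expansion.Datum.σ_eq_of_smul_D_eq`, which is characteristic free.)
-/

set_option autoImplicit false
set_option linter.style.haveILetI false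
set_option linter.unusedSectionVars false

noncomputable section

namespace Fermat.Agent.S36.Kron

open KaehlerDifferential IntermediateField AlgebraicCurve Fermat.Agent.S24.Differential

variable {k F : Type*} [Field k] [Field F] [Algebra k F]

/-- an element of order one is an irreducible element of the valuation ring. -/
theorem DerLocal_irreducible (v : Place k F) {X : F} (hX : v.ord X = 1) :
    ∃ π : v.toValuationSubring, Irreducible π ∧ (π : F) = X := by
  have hX0 : X ≠ 0 := by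
    rintro rfl
    rw [v.ord_zero] at hX
    exact zero_ne_one hX
  obtain ⟨π₀, hπ₀⟩ := IsDiscreteValuationRing.exists_irreducible v.toValuationSubring
  obtain ⟨u, hu⟩ := v.exists_unit_mul_zpow hX0 hπ₀
  rw [hX, zpow_one] at hu
  refine ⟨(u : v.toValuationSubring) * π₀, ?_, hu.symm⟩
  exact (irreducible_units_mul u).mpr hπ₀

/-- **(DL1)** `du = g dX`, `u` regular at `v`, `X` a uniformiser at `v` : `g` is regular at `v`. -/
theorem ord_nonneg_of_D_eq (v : Place k F)
    (hres : Function.Surjective (algebraMap k v.ResidueField)) {X u g : F} (hX : v.ord X = 1)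
    (hu : 0 ≤ v.ord u) (h : D k F u = g • D k F X) : 0 ≤ v.ord g := by
  obtain ⟨π, hπ, rfl⟩ := DerLocal_irreducible v hX
  obtain ⟨a, s, hs, rfl⟩ := IsFractionRing.div_surjective v.toValuationSubring g
  have hs0 : s ≠ 0 := nonZeroDivisors.ne_zero hs
  have hsF : algebraMap v.toValuationSubring F s ≠ 0 := by simpa using hs0
  let f : v.toValuationSubring := ⟨u, mem_of_ord_nonneg v hu⟩
  have hrel : s • D k F (algebraMap v.toValuationSubring F f) =
      a • D k F (algebraMap v.toValuationSubring F (datum v hres hπ).π) := by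
    change s • D k F u = a • D k F (π : F)
    rw [h, ← algebraMap_smul F s, ← algebraMap_smul F a, smul_smul, mul_div_cancel₀ _ hsF]
  have key := (datum v hres hπ).σ_eq_of_smul_D_eq (σ_injective v hres hπ) f a s hrel
  rcases eq_or_ne a 0 with rfl | ha0
  · rw [map_zero, zero_div, v.ord_zero]
  obtain ⟨ns, hs1, hs2⟩ := exists_ord_order v hres hπ hs0
  obtain ⟨na, ha1, ha2⟩ := exists_ord_order v hres hπ ha0
  have hord := congrArg PowerSeries.order key
  rw [PowerSeries.order_mul, hs2, ha2] at hord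
  have hle : ns ≤ na := by
    have : (ns : ℕ∞) ≤ na := by rw [hord]; exact le_self_add
    exact_mod_cast this
  have haF : algebraMap v.toValuationSubring F a ≠ 0 := by simpa using ha0
  rw [div_eq_mul_inv, v.ord_mul haF (inv_ne_zero hsF), v.ord_inv]
  change 0 ≤ v.ord (a : F) + -v.ord (s : F)
  rw [ha1, hs1]
  have : (ns : ℤ) ≤ na := by exact_mod_cast hle
  omega

/-- **(DL0)** the differential of a uniformiser does not vanish. -/
theorem D_ne_zero_of_ord_eq_one (v : Place k F)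
    (hres : Function.Surjective (algebraMap k v.ResidueField)) {X : F} (hX : v.ord X = 1) :
    D k F X ≠ 0 := by
  intro h0
  obtain ⟨π, hπ, rfl⟩ := DerLocal_irreducible v hX
  have hrel : (1 : v.toValuationSubring) • D k F (algebraMap v.toValuationSubring F π) =
      (0 : v.toValuationSubring) • D k F (algebraMap v.toValuationSubring F (datum v hres hπ).π) := by
    change (1 : v.toValuationSubring) • D k F (π : F) = (0 : v.toValuationSubring) • D k F (π : F)
    rw [h0, smul_zero, smul_zero]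
  have key := (datum v hres hπ).σ_eq_of_smul_D_eq (σ_injective v hres hπ) π 0 1 hrel
  have h1 : (datum v hres hπ).σ π = PowerSeries.X := (datum v hres hπ).σ_π
  rw [map_zero, map_one, one_mul, h1, PowerSeries.derivative_X] at key
  exact zero_ne_one key

/-- **(DL2)** `du = g dX`, `u` has a simple pole at `v` : `g` has a double pole. -/
theorem ord_eq_neg_two_of_D_eq (v : Place k F)
    (hres : Function.Surjective (algebraMap k v.ResidueField)) {X u g : F} (hX : v.ord X = 1)
    (hgen : ∀ w : F, ∃ c : F, D k F w = c • D k F X)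
    (hu : v.ord u = -1) (h : D k F u = g • D k F X) : v.ord g = -2 := by
  have hX0 : X ≠ 0 := by
    rintro rfl
    rw [v.ord_zero] at hX
    exact zero_ne_one hX
  have hu0 : u ≠ 0 := by
    rintro rfl
    rw [v.ord_zero] at hu
    omega
  obtain ⟨w', hw'⟩ := hgen (u * X)
  have hw : 0 ≤ v.ord (u * X) := by
    rw [v.ord_mul hu0 hX0, hu, hX]
    norm_num
  have h1 := ord_nonneg_of_D_eq v hres hX hw hw'
  have h2 : (w' - (u + X * g)) • D k F X = 0 := by
    rw [sub_smul, ← hw', Derivation.leibniz, h, add_smul, smul_smul, sub_self]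
  have h3 : w' = u + X * g :=
    sub_eq_zero.mp ((smul_eq_zero.mp h2).resolve_right (D_ne_zero_of_ord_eq_one v hres hX))
  have h4 : g = (w' - u) * X⁻¹ := by
    rw [h3]
    field_simp
    ring
  have h5 : v.ord (w' - u) = -1 := by
    rcases eq_or_ne w' 0 with rfl | hw0
    · rw [zero_sub, Fermat.Agent.GAL.RED.ord_neg, hu]
    · rw [sub_eq_add_neg, add_comm, Fermat.Agent.GAL.RED.ord_add_eq_of_lt v (neg_ne_zero.mpr hu0) hw0
        (by rw [Fermat.Agent.GAL.RED.ord_neg, hu]; omega), Fermat.Agent.GAL.RED.ord_neg, hu]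
  have h6 : w' - u ≠ 0 := by
    intro h0
    rw [h0, v.ord_zero] at h5
    omega
  rw [h4, v.ord_mul h6 (inv_ne_zero hX0), v.ord_inv, h5, hX]
  norm_num

section Emb

variable {L : Type*} [Field L] [Algebra k L]

/-- **The derivative `du/dX`, `X` a uniformiser at `v`**, computed in a bigger field `L` with a
derivation `d` (e.g. `L = k((t))`, `d = t d/dt`).  `x₀` is any separating variable with
`d (φ x₀) ≠ 0`. -/
theorem exists_deriv_local (φ : F →ₐ[k] L) (d : Derivation k L L) (x₀ : F)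
    [FiniteDimensional k⟮x₀⟯ F] [Algebra.IsSeparable k⟮x₀⟯ F] (hx₀ : d (φ x₀) ≠ 0)
    (v : Place k F) (hres : Function.Surjective (algebraMap k v.ResidueField)) {X : F}
    (hX : v.ord X = 1) :
    d (φ X) ≠ 0 ∧ ∀ u : F, ∃ g : F, d (φ u) = φ g * d (φ X) ∧ (0 ≤ v.ord u → 0 ≤ v.ord g) ∧
      (v.ord u = -1 → v.ord g = -2) := by
  have hD := D_ne_zero_of_ord_eq_one v hres hX
  haveI : Algebra.IsSeparable k⟮X⟯ F := Fermat.Agent.GAL.FF.isSeparable_of_D_ne_zero x₀ X hD
  have hgen : ∀ w : F, ∃ c : F, D k F w = c • D k F X := fun w =>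
    Fermat.Agent.GAL.FF.exists_eq_smul_D (k := k) X (D k F w)
  have hdX : d (φ X) ≠ 0 := by
    intro h0
    obtain ⟨c, hc⟩ := hgen x₀
    have := Fermat.Agent.S36R.KS.deriv_eq_of_D_eq φ d hc
    rw [h0, mul_zero] at this
    exact hx₀ this
  refine ⟨hdX, fun u => ?_⟩
  obtain ⟨g, hg⟩ := hgen u
  exact ⟨g, Fermat.Agent.S36R.KS.deriv_eq_of_D_eq φ d hg,
    fun hu => ord_nonneg_of_D_eq v hres hX hu hg,
    fun hu => ord_eq_neg_two_of_D_eq v hres hX hgen hu hg⟩

open Fermat.Agent.GAL.RED in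
/-- **The abstract ODE lemma (KR5).** -/
theorem ode_abs (φ : F →ₐ[k] L) (d : Derivation k L L) (x₀ : F)
    [FiniteDimensional k⟮x₀⟯ F] [Algebra.IsSeparable k⟮x₀⟯ F] (hx₀ : d (φ x₀) ≠ 0)
    (v : Place k F) (hres : Function.Surjective (algebraMap k v.ResidueField)) (q : ℕ) (hq : 2 ≤ q)
    {X X' Hb : F} {rb : ℕ → F} (hX' : v.ord X' = 1)
    (hX : v.ord X = 1 ∨ (X ≠ 0 ∧ v.ord X = 0)) (hrb : ∀ i, 0 ≤ v.ord (rb i))
    (hrel : Hb * (X' ^ (q ^ 2) - X) + ∑ i ∈ Finset.range (q + 1), rb i * X' ^ (q * i) = 0)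
    (hode : d (φ Hb) = d (φ X') ^ q - φ X' ^ (q - 1) * d (φ X')) :
    ∃ ρ : F, φ ρ = d (φ X') ^ (q - 1) ∧
      ((v.ord X = 1 ∧ rb 0 ≠ 0 ∧ v.ord (rb 0) = 0 ∧ v.ord ρ = -2) ∨
        (¬ (v.ord X = 1 ∧ rb 0 ≠ 0 ∧ v.ord (rb 0) = 0) ∧ 0 ≤ v.ord ρ)) := by
  have hmem : ∀ f : F, f ∈ v.toValuationSubring ↔ 0 ≤ v.ord f := by
    intro f
    rcases eq_or_ne f 0 with rfl | hf
    · simp
    · exact Fermat.Agent.S24.mem_iff_ord_nonneg v hf
  have hX'0 : X' ≠ 0 := by
    rintro rfl
    rw [v.ord_zero] at hX'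
    exact zero_ne_one hX'
  have hX'O : X' ∈ v.toValuationSubring := (hmem _).2 (by rw [hX']; norm_num)
  have hX0 : X ≠ 0 := by
    rcases hX with h | h
    · rintro rfl
      rw [v.ord_zero] at h
      exact zero_ne_one h
    · exact h.1
  obtain ⟨hdX, hder⟩ := exists_deriv_local φ d x₀ hx₀ v hres hX'
  obtain ⟨g, hg, hg1, hg2⟩ := hder Hb
  -- the function `ρ`
  have hρ : φ (g + X' ^ (q - 1)) = d (φ X') ^ (q - 1) := by
    rw [hg] at hode
    have h1 : d (φ X') ^ q = d (φ X') ^ (q - 1) * d (φ X') := by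
      rw [← pow_succ, Nat.sub_add_cancel (by omega)]
    rw [h1, ← sub_mul] at hode
    have h2 := mul_right_cancel₀ hdX hode
    rw [map_add, map_pow, h2, sub_add_cancel]
  refine ⟨g + X' ^ (q - 1), hρ, ?_⟩
  -- the denominator
  set W := X' ^ (q ^ 2) - X with hW
  have hq2 : (1 : ℤ) < ((q ^ 2 : ℕ) : ℤ) := by
    have : 1 < q ^ 2 := by nlinarith
    exact_mod_cast this
  have hWord : v.ord W = v.ord X := by
    rw [hW, sub_eq_add_neg, add_comm, ord_add_eq_of_lt v (neg_ne_zero.mpr hX0)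
      (pow_ne_zero _ hX'0), Fermat.Agent.GAL.RED.ord_neg]
    rw [Fermat.Agent.GAL.RED.ord_neg, ord_pow, hX', mul_one]
    rcases hX with h | h
    · rw [h]; exact hq2
    · rw [h.2]; omega
  have hW0 : W ≠ 0 := by
    intro h0
    rw [hW, sub_eq_zero] at h0
    have h1 := congrArg v.ord h0
    rw [ord_pow, hX', mul_one] at h1
    rcases hX with h | h
    · rw [h] at h1; omega
    · rw [h.2] at h1; omega
  -- the numerator
  obtain ⟨S₂, hS₂O, hS₂⟩ : ∃ S₂ ∈ v.toValuationSubring,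
      ∑ i ∈ Finset.range (q + 1), rb i * X' ^ (q * i) = rb 0 + X' * S₂ := by
    refine ⟨∑ i ∈ Finset.range q, rb (i + 1) * X' ^ (q * (i + 1) - 1), ?_, ?_⟩
    · exact sum_mem fun i _ => mul_mem ((hmem _).2 (hrb _)) (pow_mem hX'O _)
    · rw [Finset.sum_range_succ', mul_zero, pow_zero, mul_one, add_comm, Finset.mul_sum]
      congr 1
      refine Finset.sum_congr rfl fun i _ => ?_
      have h1 : q * (i + 1) = (q * (i + 1) - 1) + 1 := by
        have : 1 ≤ q * (i + 1) := Nat.mul_pos (by omega) (Nat.succ_pos i)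
        omega
      conv_lhs => rw [h1, pow_succ]
      ring
  rw [hS₂] at hrel
  have hHb : Hb = -(rb 0 + X' * S₂) * W⁻¹ := by
    field_simp
    linear_combination hrel
  have hXpow : X' ^ (q - 1) ∈ v.toValuationSubring := pow_mem hX'O _
  by_cases hc : v.ord X = 1 ∧ rb 0 ≠ 0 ∧ v.ord (rb 0) = 0
  · left
    obtain ⟨c1, c2, c3⟩ := hc
    refine ⟨c1, c2, c3, ?_⟩
    have hS : rb 0 + X' * S₂ ≠ 0 ∧ v.ord (rb 0 + X' * S₂) = 0 := by
      rcases eq_or_ne S₂ 0 with rfl | h0
      · rw [mul_zero, add_zero]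
        exact ⟨c2, c3⟩
      · have h1 : v.ord (rb 0) < v.ord (X' * S₂) := by
          rw [c3, v.ord_mul hX'0 h0, hX']
          have := (hmem _).1 hS₂O
          omega
        have h2 := ord_add_eq_of_lt v c2 (mul_ne_zero hX'0 h0) h1
        refine ⟨?_, by rw [h2, c3]⟩
        intro h3
        have h4 : rb 0 = -(X' * S₂) := eq_neg_of_add_eq_zero_left h3
        rw [h4, Fermat.Agent.GAL.RED.ord_neg] at h1
        exact lt_irrefl _ h1
    have hHord : v.ord Hb = -1 := by
      rw [hHb, v.ord_mul (neg_ne_zero.mpr hS.1) (inv_ne_zero hW0), Fermat.Agent.GAL.RED.ord_neg, hS.2, v.ord_inv, hWord,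
        c1]
      norm_num
    have hgo := hg2 hHord
    have hg0 : g ≠ 0 := by
      rintro rfl
      rw [v.ord_zero] at hgo
      omega
    rw [ord_add_eq_of_lt v hg0 (pow_ne_zero _ hX'0), hgo]
    rw [hgo]
    have := (hmem _).1 hXpow
    omega
  · right
    refine ⟨hc, ?_⟩
    have hHO : Hb ∈ v.toValuationSubring := by
      rcases hX with h | h
      · -- `rb 0` vanishes at `v`
        obtain ⟨r', hr'O, hr'⟩ : ∃ r' ∈ v.toValuationSubring, rb 0 = X' * r' := by
          rcases eq_or_ne (rb 0) 0 with h0 | h0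
          · exact ⟨0, zero_mem _, by rw [h0, mul_zero]⟩
          · refine ⟨rb 0 * X'⁻¹, ?_, by field_simp⟩
            rw [hmem, v.ord_mul h0 (inv_ne_zero hX'0), v.ord_inv, hX']
            have h1 : v.ord (rb 0) ≠ 0 := fun h1 => hc ⟨h, h0, h1⟩
            have h2 := hrb 0
            omega
        have h3 : X' * W⁻¹ ∈ v.toValuationSubring := by
          rw [hmem, v.ord_mul hX'0 (inv_ne_zero hW0), v.ord_inv, hWord, h, hX']
          norm_num
        have h4 : Hb = -(r' + S₂) * (X' * W⁻¹) := by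
          rw [hHb, hr']
          ring
        rw [h4]
        exact mul_mem (neg_mem (add_mem hr'O hS₂O)) h3
      · have h3 : W⁻¹ ∈ v.toValuationSubring := by
          rw [hmem, v.ord_inv, hWord, h.2]
          norm_num
        rw [hHb]
        exact mul_mem (neg_mem (add_mem ((hmem _).2 (hrb 0)) (mul_mem hX'O hS₂O))) h3
    rw [← hmem]
    exact add_mem ((hmem _).2 (hg1 ((hmem _).1 hHO))) hXpow

open Fermat.Agent.GAL.RED in
/-- **The abstract ODE lemma + Kodaira-Spencer**: the order of the Hasse function `hs = Δ^(1-q)` at `v` is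
`12` or `0`. -/
theorem ord_hasse_abs (φ : F →ₐ[k] L) (d : Derivation k L L) (x₀ : F)
    [FiniteDimensional k⟮x₀⟯ F] [Algebra.IsSeparable k⟮x₀⟯ F] (hx₀ : d (φ x₀) ≠ 0)
    (v : Place k F) (hres : Function.Surjective (algebraMap k v.ResidueField)) (q : ℕ) (hq : 2 ≤ q)
    {X X' Hb : F} {rb : ℕ → F} (hX' : v.ord X' = 1)
    (hX : v.ord X = 1 ∨ (X ≠ 0 ∧ v.ord X = 0)) (hrb : ∀ i, 0 ≤ v.ord (rb i))
    (hrel : Hb * (X' ^ (q ^ 2) - X) + ∑ i ∈ Finset.range (q + 1), rb i * X' ^ (q * i) = 0)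
    (hode : d (φ Hb) = d (φ X') ^ q - φ X' ^ (q - 1) * d (φ X'))
    {Δ : L} {κ hs : F} (hκ : v.ord κ = 0) (hκΔ : φ κ * Δ = d (φ X') ^ 6)
    (hhs : φ hs * Δ ^ (q - 1) = 1) (hreg : 0 ≤ v.ord hs) :
    (v.ord X = 1 ∧ rb 0 ≠ 0 ∧ v.ord (rb 0) = 0 ∧ v.ord hs = 12) ∨
      (¬ (v.ord X = 1 ∧ rb 0 ≠ 0 ∧ v.ord (rb 0) = 0) ∧ v.ord hs = 0) := by
  obtain ⟨hdX, -⟩ := exists_deriv_local φ d x₀ hx₀ v hres hX'
  obtain ⟨ρ, hρ, hcase⟩ := ode_abs φ d x₀ hx₀ v hres q hq hX' hX hrb hrel hode
  have hκ0 : κ ≠ 0 := by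
    rintro rfl
    rw [map_zero, zero_mul] at hκΔ
    exact pow_ne_zero 6 hdX hκΔ.symm
  have hhs0 : hs ≠ 0 := by
    rintro rfl
    rw [map_zero, zero_mul] at hhs
    exact zero_ne_one hhs
  have hρ0 : ρ ≠ 0 := by
    rintro rfl
    rw [map_zero] at hρ
    exact pow_ne_zero _ hdX hρ.symm
  have hkey : ρ ^ 6 * hs = κ ^ (q - 1) := by
    apply φ.toRingHom.injective
    show φ (ρ ^ 6 * hs) = φ (κ ^ (q - 1))
    rw [map_mul, map_pow, map_pow, hρ, ← pow_mul, mul_comm (q - 1) 6, pow_mul, ← hκΔ, mul_pow,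
      mul_assoc, mul_comm (Δ ^ (q - 1)), hhs, mul_one]
  have hord := congrArg v.ord hkey
  rw [v.ord_mul (pow_ne_zero _ hρ0) hhs0, ord_pow, ord_pow, hκ, mul_zero] at hord
  push_cast at hord
  rcases hcase with ⟨c1, c2, c3, c4⟩ | ⟨c1, c2⟩
  · left
    refine ⟨c1, c2, c3, ?_⟩
    rw [c4] at hord
    omega
  · right
    refine ⟨c1, ?_⟩
    omega

end Emb

end Fermat.Agent.S36.Kron
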