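import Fermat.Agent.S36.Kron.Defs
import Fermat.Agent.FLAT.Geo.FixedBasis
import Fermat.Agent.S36R.AA.LiftAbs

/-!
# S36/Kron/Descent : Galois stable finite dimensional spaces of modular functions have rational bases
-/

set_option autoImplicit false
set_option linter.unusedSectionVars false

noncomputable section

namespace Fermat.Agent.S36.Kron

open ModularCurve AlgebraicCurve Fermat.Agent.S24 Fermat.Agent.GAL Fermat.Agent.GAL.Gauss
  Fermat.Agent.GAL.RED Fermat.Agent.DR.Gal Fermat.Agent.DR.Conc Fermat.Agent.S36R Fermat.Agent.Lib.RR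

variable (M : ℕ) [NeZero M]

/-- The coefficient functionals on `FN M`. -/
def Descent_lam (e : ℤ) : FN M →ₗ[Kbar] Kbar where
  toFun f := (f : LaurentSeries Kbar).coeff e
  map_add' _ _ := rfl
  map_smul' c f := by
    show ((c • f : FN M) : LaurentSeries Kbar).coeff e = c • (f : LaurentSeries Kbar).coeff e
    rw [Algebra.smul_def, MulMemClass.coe_mul, IntermediateField.coe_algebraMap_apply,
      Gauss.algebraMap_eq_C, HahnSeries.C_mul_eq_smul]
    simp

/-- **(DE1)** a finite dimensional Galois stable subspace of `FN M` has a basis of rational functions.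

PROOF.  `l n : V →ₗ[Kbar] Kbar`, `f ↦ (f : LaurentSeries Kbar).coeff n` (`n : ℤ`) is a separating family;
`FLAT.Geo.exists_separating_subfamily'` gives `e : Fin d → ℤ` (`d = finrank`) still separating, so
`c : V →ₗ (Fin d → Kbar)`, `f ↦ (coeff (e a) f)_a` is injective, hence bijective
(`LinearMap.injective_iff_surjective_of_finrank_eq_finrank`, `Module.finrank_fin_fun`).  `b i := c⁻¹ (Pi.single i 1)`.
Independent since the `c (b i)` are.  For `σ` : `σ • b i ∈ V` and `c (σ • b i) = σ ∘ c (b i) = Pi.single i 1`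
(`coe_arithmeticGalois_smul`, `coeffMap_coeff`), so `σ • b i = b i`; conclude by `coeffIn_bot_iff`. -/
theorem exists_rat_basis (V : Submodule Kbar (FN M)) [FiniteDimensional Kbar V]
    (hV : ∀ (σ : Kbar ≃ₐ[ℚ] Kbar), ∀ f ∈ V,
      arithmeticGalois (L := Kbar) (modularFunctionFieldFull M) σ • f ∈ V) :
    ∃ b : Fin (Module.finrank Kbar V) → FN M, (∀ i, b i ∈ V) ∧ LinearIndependent Kbar b ∧
      ∀ i, CoeffIn ⊥ (b i : LaurentSeries Kbar) := by
  obtain ⟨e, b, hbV, hli, hδ, hinj⟩ := Fermat.Agent.S36R.AA.exists_dual_basis (Descent_lam M)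
    (fun f hf => by
      apply Subtype.ext
      ext n
      exact hf n) V
  refine ⟨b, hbV, hli, fun j => ?_⟩
  rw [coeffIn_bot_iff]
  intro τ
  have h1 := Fermat.Agent.S36R.AA.fixed_of_dual_basis (Descent_lam M) V e b hbV hδ hinj
    (fun f => arithmeticGalois (L := Kbar) (modularFunctionFieldFull M) τ • f) (τ : Kbar →+* Kbar)
    (hV τ) (fun e f => rfl) j
  have h2 := congrArg (fun z : FN M => (z : LaurentSeries Kbar)) h1
  exact h2

end Fermat.Agent.S36.Kron
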