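import Fermat.Agent.S36.Kron.Defs
import Fermat.Agent.S36.StepA.Tame

/-!
# S36/Kron/FactD2 : normalisation of a bounded series over `K0 A` by a power of `q`
-/

set_option autoImplicit false
set_option linter.unusedSectionVars false

noncomputable section

namespace Fermat.Agent.S36.Kron

open ModularCurve AlgebraicCurve Fermat.Agent.S24 Fermat.Agent.GAL Fermat.Agent.GAL.Gauss
  Fermat.Agent.S36R Fermat.Agent.S36.StepA

variable (A : ValuationSubring Kbar) {q : ℕ} (hq : q.Prime) (hA : A.LiesOverPrime q)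

include hq hA in
/-- **(FD2)** a nonzero bounded series with coefficients in `K0 A` is `q^n` times an `A`-integral series with non
zero reduction.

PROOF: as `StepA.IsTame.normable`, with `K0L.exists_zpow' A hq hA` (every nonzero element of `K0 A` has the
valuation of a power of `q`) instead of a uniformiser of a number field: the set of the `n` with
`v (z_m) = v(q)^n` for some `m` is bounded below (`IsBdd`), `Int.exists_least_of_bdd`; `u := liftA (C (q^(-n)) * z)`. -/
theorem exists_zpow_mul_iA {z : LaurentSeries Kbar} (hz : z ≠ 0) (hK : CoeffIn (K0 A) z)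
    (hB : IsBdd A z) :
    ∃ (n : ℤ) (u : LaurentSeries ↥A), pA A u ≠ 0 ∧ z = HahnSeries.C ((q : Kbar) ^ n) * iA A u := by
  obtain ⟨c, hc, hzc⟩ := hB
  let P : PT.Local.Plc := ⟨A, q, hq, hA⟩
  have hq0 : (q : Kbar) ≠ 0 := by exact_mod_cast hq.ne_zero
  have hπ0 : 0 < A.valuation (q : Kbar) := zero_lt_iff.2 ((Valuation.ne_zero_iff _).2 hq0)
  have hπ1 : A.valuation (q : Kbar) < 1 := (ValuationSubring.mem_nonunits_iff A).1 hA
  obtain ⟨N, hN⟩ : ∃ N : ℕ, A.valuation (q : Kbar) ^ N ≤ A.valuation c := PT.Local.exists_pow_le P hc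
  obtain ⟨n₁, hn₁⟩ : ∃ n, z.coeff n ≠ 0 := by
    by_contra hcon
    exact hz (HahnSeries.ext (funext fun n => by
      by_contra hn
      exact hcon ⟨n, hn⟩))
  obtain ⟨k₀, ⟨n₀, hn₀, hk₀⟩, hmin⟩ := Int.exists_least_of_bdd
    (P := fun k : ℤ => ∃ n, z.coeff n ≠ 0 ∧ A.valuation (z.coeff n) = A.valuation (q : Kbar) ^ k)
    ⟨-(N : ℤ), by
      rintro k ⟨n, -, hk⟩
      have h1 : A.valuation (c * z.coeff n) ≤ 1 := (A.valuation_le_one_iff _).2 (hzc n)
      rw [map_mul, hk] at h1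
      have h2 : A.valuation (q : Kbar) ^ ((N : ℤ) + k) ≤ 1 := by
        rw [zpow_add₀ hπ0.ne', zpow_natCast]
        exact le_trans (mul_le_mul_left hN _) h1
      have h3 := (zpow_le_one_iff_right_of_lt_one₀ hπ0 hπ1).1 h2
      omega⟩
    (by
      obtain ⟨k, hk⟩ := K0L.exists_zpow' A hq hA (hK n₁) hn₁
      exact ⟨k, n₁, hn₁, hk⟩)
  have hdiv : ∀ n, (HahnSeries.C ((q : Kbar) ^ (-k₀)) * z).coeff n ∈ A := by
    intro n
    rw [HahnSeries.C_mul_eq_smul, HahnSeries.coeff_smul, smul_eq_mul]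
    by_cases hn : z.coeff n = 0
    · rw [hn, mul_zero]; exact A.zero_mem
    · obtain ⟨k, hk⟩ := K0L.exists_zpow' A hq hA (hK n) hn
      have hle := hmin k ⟨n, hn, hk⟩
      rw [← A.valuation_le_one_iff, map_mul, map_zpow₀, hk, ← zpow_add₀ hπ0.ne',
        zpow_le_one_iff_right_of_lt_one₀ hπ0 hπ1]
      omega
  refine ⟨k₀, liftA _ hdiv, ?_, ?_⟩
  · intro h0
    have h2 := congrArg (fun x => HahnSeries.coeff x n₀) h0
    simp only [pA_coeff, HahnSeries.coeff_zero] at h2
    rw [IsLocalRing.residue_eq_zero_iff, A.valuation_lt_one_iff] at h2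
    have h3 : (((liftA _ hdiv).coeff n₀ : ↥A) : Kbar) = (q : Kbar) ^ (-k₀) * z.coeff n₀ := by
      show (HahnSeries.C ((q : Kbar) ^ (-k₀)) * z).coeff n₀ = _
      rw [HahnSeries.C_mul_eq_smul, HahnSeries.coeff_smul, smul_eq_mul]
    rw [h3, map_mul, map_zpow₀, hk₀, ← zpow_add₀ hπ0.ne', neg_add_cancel, zpow_zero] at h2
    exact lt_irrefl _ h2
  · rw [iA_liftA, ← mul_assoc, ← map_mul, ← zpow_add₀ hq0, add_neg_cancel, zpow_zero, map_one,
      one_mul]

end Fermat.Agent.S36.Kron
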