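import Fermat.Agent.S36.Kron.FactD1
import Fermat.Agent.S36.Kron.FactD2

/-!
# S36/Kron/FactD : discreteness of the Gauss norm of the `I`-fixed modular functions

`K0 A` = fixed field of the inertia group; `q` is a uniformiser of `A ∩ K0 A` (`K0L.exists_zpow'`, `K0L.div_mem'`).
An `I`-fixed `y ≠ 0` in `FN N` (any level `N`) is `q^n * (Gauss unit)`.  Hence: `I`-fixed, Gauss integral,
zero reduction `⟹` divisible by `q`.
-/

set_option autoImplicit false
set_option linter.unusedSectionVars false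

noncomputable section

namespace Fermat.Agent.S36.Kron

open ModularCurve AlgebraicCurve Fermat.Agent.S24 Fermat.Agent.GAL Fermat.Agent.GAL.Gauss
  Fermat.Agent.S36R Fermat.Agent.S36.StepA

variable (A : ValuationSubring Kbar) {q : ℕ} (hq : q.Prime) (hA : A.LiesOverPrime q)

include hq hA in
/-- **(FD3)** the Gauss norm of an `I`-fixed function is a power of `|q|`.  (FD1 + FD2 for `a` and `s`;
`u := iA a'' / iA s''`, `inv_mem_gRing_of_gRes_ne_zero`, `gRes_iA`.) -/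
theorem exists_zpow_mul_unit {N : ℕ} (y : FN N) (hy0 : y ≠ 0)
    (hy : CoeffIn (K0 A) (y : LaurentSeries Kbar)) :
    ∃ (n : ℤ) (u : ↥(gRing A)), gRes A u ≠ 0 ∧
      (y : LaurentSeries Kbar) = HahnSeries.C ((q : Kbar) ^ n) * (u : LaurentSeries Kbar) := by
  obtain ⟨a, s, hs0, haK, hsK, haB, hsB, hys⟩ := exists_frac_K0 A y hy
  have hy0' : (y : LaurentSeries Kbar) ≠ 0 := fun h => hy0 (Subtype.ext h)
  have ha0 : a ≠ 0 := by
    rw [← hys]
    exact mul_ne_zero hy0' hs0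
  obtain ⟨n1, a', ha', hae⟩ := exists_zpow_mul_iA A hq hA ha0 haK haB
  obtain ⟨n2, s', hs', hse⟩ := exists_zpow_mul_iA A hq hA hs0 hsK hsB
  have hS0 : iA A s' ≠ 0 := iA_ne_zero_of_pA_ne_zero A hs'
  have hmul : iA A s' * (iA A a' / iA A s') = iA A a' := by
    field_simp
  have hmem : iA A a' / iA A s' ∈ gRing A := (mem_gRing_iff A).mpr ⟨a', s', hs', hmul⟩
  refine ⟨n1 - n2, ⟨iA A a' / iA A s', hmem⟩, ?_, ?_⟩
  · rw [gRes_eq A ⟨_, hmem⟩ hs' hmul]
    exact div_ne_zero ha' hs'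
  · have hq0 : (q : Kbar) ≠ 0 := by exact_mod_cast hq.ne_zero
    have hQ0 : (HahnSeries.C (q : Kbar) : LaurentSeries Kbar) ≠ 0 := by
      rw [Ne, map_eq_zero]
      exact hq0
    rw [hae, hse, map_zpow₀, map_zpow₀] at hys
    show (y : LaurentSeries Kbar) = HahnSeries.C ((q : Kbar) ^ (n1 - n2)) * (iA A a' / iA A s')
    rw [map_zpow₀, zpow_sub₀ hQ0]
    have h2 : (HahnSeries.C (q : Kbar) : LaurentSeries Kbar) ^ n2 ≠ 0 := zpow_ne_zero _ hQ0
    field_simp
    linear_combination hys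

include hq hA in
/-- **FACT D.**  PROOF: `y = 0` trivial.  Else `y = C (q^n) * u` (FD3).  If `n ≤ 0` then
`u = C (q^(-n)) * y` has `gRes u = gRes (C ..) * gRes y = 0`: contradiction.  So `n ≥ 1` and
`C q⁻¹ * y = C (q^(n-1)) * u ∈ gRing A` (`C_mem_gRing_iff`; `q ∈ A`). -/
theorem factD {N : ℕ} (y : FN N) (hy : CoeffIn (K0 A) (y : LaurentSeries Kbar))
    (h : (y : LaurentSeries Kbar) ∈ gRing A) (h0 : gRes A ⟨_, h⟩ = 0) :
    HahnSeries.C ((q : Kbar)⁻¹) * (y : LaurentSeries Kbar) ∈ gRing A := by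
  by_cases hy0 : y = 0
  · rw [hy0]
    simp only [ZeroMemClass.coe_zero, mul_zero]
    exact zero_mem _
  obtain ⟨n, u, hu, hyu⟩ := exists_zpow_mul_unit A hq hA y hy0 hy
  have hq0 : (q : Kbar) ≠ 0 := by exact_mod_cast hq.ne_zero
  have hqA : (q : Kbar) ∈ A := by
    have h1 : A.valuation (q : Kbar) < 1 := (ValuationSubring.mem_nonunits_iff A).1 hA
    exact (A.valuation_le_one_iff _).1 h1.le
  have hpowA : ∀ m : ℤ, 0 ≤ m → (q : Kbar) ^ m ∈ A := by
    intro m hm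
    obtain ⟨k, rfl⟩ := Int.eq_ofNat_of_zero_le hm
    rw [zpow_natCast]
    exact pow_mem hqA k
  have hn : 1 ≤ n := by
    by_contra hcon
    have hn0 : 0 ≤ -n := by omega
    have hC : HahnSeries.C ((q : Kbar) ^ (-n)) ∈ gRing A := (C_mem_gRing_iff A _).mpr (hpowA _ hn0)
    have hue : u = ⟨_, hC⟩ * ⟨_, h⟩ := by
      apply Subtype.ext
      show (u : LaurentSeries Kbar) = HahnSeries.C ((q : Kbar) ^ (-n)) * (y : LaurentSeries Kbar)
      rw [hyu, ← mul_assoc, ← map_mul, ← zpow_add₀ hq0, neg_add_cancel, zpow_zero, map_one, one_mul]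
    apply hu
    rw [hue, map_mul, h0, mul_zero]
  have hC : HahnSeries.C ((q : Kbar) ^ (n - 1)) ∈ gRing A :=
    (C_mem_gRing_iff A _).mpr (hpowA _ (by omega))
  have he : HahnSeries.C ((q : Kbar)⁻¹) * (y : LaurentSeries Kbar)
      = HahnSeries.C ((q : Kbar) ^ (n - 1)) * (u : LaurentSeries Kbar) := by
    rw [hyu, ← mul_assoc, ← map_mul, zpow_sub₀ hq0, zpow_one]
    congr 2
    field_simp
  rw [he]
  exact mul_mem hC u.2

end Fermat.Agent.S36.Kron
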