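import Fermat.Agent.S36.Kron.Defs
import Fermat.Agent.S36.StepA.Tame

/-!
# S36/Kron/FactD1 : an `I`-fixed modular function is a quotient of bounded series over `K0 A`
-/

set_option autoImplicit false
set_option linter.unusedSectionVars false

noncomputable section

namespace Fermat.Agent.S36.Kron

open ModularCurve AlgebraicCurve Fermat.Agent.S24 Fermat.Agent.GAL Fermat.Agent.GAL.Gauss
  Fermat.Agent.S36R Fermat.Agent.S36.StepA

variable (A : ValuationSubring Kbar) {q : ℕ} (hq : q.Prime) (hA : A.LiesOverPrime q)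

/-- finite `Kbar`-linear combinations of series with integral coefficients. -/
def FactD1_S (x : LaurentSeries Kbar) : Prop :=
  ∃ (I : Type) (_ : Fintype I) (c : I → Kbar) (z : I → LaurentSeries ℤ),
    x = ∑ i, HahnSeries.C (c i) * coeffMap (Int.castRingHom Kbar) (z i)

theorem FactD1_S.add {x y : LaurentSeries Kbar} (hx : FactD1_S x) (hy : FactD1_S y) :
    FactD1_S (x + y) := by
  obtain ⟨I, _, c, z, rfl⟩ := hx
  obtain ⟨J, _, c', z', rfl⟩ := hy
  exact ⟨I ⊕ J, inferInstance, Sum.elim c c', Sum.elim z z', by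
    rw [Fintype.sum_sum_type]; rfl⟩

theorem FactD1_S.mul {x y : LaurentSeries Kbar} (hx : FactD1_S x) (hy : FactD1_S y) :
    FactD1_S (x * y) := by
  obtain ⟨I, _, c, z, rfl⟩ := hx
  obtain ⟨J, _, c', z', rfl⟩ := hy
  refine ⟨I × J, inferInstance, fun p => c p.1 * c' p.2, fun p => z p.1 * z' p.2, ?_⟩
  rw [Fintype.sum_mul_sum, Fintype.sum_prod_type]
  refine Finset.sum_congr rfl fun i _ => Finset.sum_congr rfl fun j _ => ?_
  rw [map_mul, map_mul]
  ring

theorem FactD1_mem_S {N : ℕ} {x : FN N} (hx : x ∈ FNAdjoin.A N) :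
    FactD1_S (x : LaurentSeries Kbar) := by
  refine FNAdjoin.A_induction (P := fun x : FN N => FactD1_S (x : LaurentSeries Kbar))
    ?_ ?_ ?_ ?_ hx
  · intro d _ hd
    refine ⟨Unit, inferInstance, fun _ => 1, fun _ => qExpand ℤ d (jqModC ℤ), ?_⟩
    rw [FNAdjoin.coe_jd', Igusa.LevelDeg_coeffEmb_jq, Fintype.sum_unique, map_one, one_mul,
      ModularCurve.coeffMap_qExpand, coeffMap_jqModC]
  · intro c
    refine ⟨Unit, inferInstance, fun _ => c, fun _ => 1, ?_⟩
    rw [Fintype.sum_unique, map_one, mul_one, DR.Conc.coe_algebraMap_FN]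
  · intro x y _ _ hx hy
    exact hx.add hy
  · intro x y _ _ hx hy
    exact hx.mul hy

theorem FactD1_isBdd_zero : IsBdd A 0 := by
  have := isBdd_C (A := A) 0
  rwa [map_zero] at this

/-- a `K0`-linear functional applied coefficientwise to an element of the span is bounded. -/
theorem FactD1_isBdd (lam : Kbar →+ K0 A)
    (hlam : ∀ (a : K0 A) (c : Kbar), lam (c * algebraMap (K0 A) Kbar a) = lam c * a)
    {x : LaurentSeries Kbar} (hx : FactD1_S x) :
    IsBdd A (coeffMap (algebraMap (K0 A) Kbar) (Degree.coeffAdd lam x)) := by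
  obtain ⟨I, _, c, z, rfl⟩ := hx
  rw [map_sum, map_sum]
  refine Finset.sum_induction _ (IsBdd A) (fun _ _ h h' => h.add h') (FactD1_isBdd_zero A) ?_
  intro i _
  have hco : ∀ n, (coeffMap (algebraMap (K0 A) Kbar) (Degree.coeffAdd lam
      (HahnSeries.C (c i) * coeffMap (Int.castRingHom Kbar) (z i)))).coeff n
      = algebraMap (K0 A) Kbar (lam (c i)) * (((z i).coeff n : ℤ) : Kbar) := by
    intro n
    rw [coeffMap_coeff]
    have h0 : (HahnSeries.C (c i) * coeffMap (Int.castRingHom Kbar) (z i)).coeff n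
        = c i * (((z i).coeff n : ℤ) : Kbar) := by
      rw [HahnSeries.C_apply, HahnSeries.coeff_single_mul, sub_zero]
      rfl
    have h1 : (Degree.coeffAdd lam
        (HahnSeries.C (c i) * coeffMap (Int.castRingHom Kbar) (z i))).coeff n
        = lam ((HahnSeries.C (c i) * coeffMap (Int.castRingHom Kbar) (z i)).coeff n) := rfl
    have h2 : (((z i).coeff n : ℤ) : Kbar)
        = algebraMap (K0 A) Kbar (((z i).coeff n : ℤ) : K0 A) := (map_intCast _ _).symm
    rw [h1, h0, h2, hlam, map_mul]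
  by_cases h0 : lam (c i) = 0
  · refine ⟨1, one_ne_zero, fun n => ?_⟩
    rw [hco, h0, map_zero, zero_mul, mul_zero]
    exact A.zero_mem
  · have h0' : algebraMap (K0 A) Kbar (lam (c i)) ≠ 0 := (map_ne_zero _).2 h0
    refine ⟨(algebraMap (K0 A) Kbar (lam (c i)))⁻¹, inv_ne_zero h0', fun n => ?_⟩
    rw [hco, inv_mul_cancel_left₀ h0']
    exact intCast_mem A _

theorem FactD1_coeffIn (z : LaurentSeries (K0 A)) :
    CoeffIn (K0 A) (coeffMap (algebraMap (K0 A) Kbar) z) := fun n => by
  rw [coeffMap_coeff]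
  exact (z.coeff n).2

/-- **(FD1)** an `I`-fixed modular function is a quotient of two bounded series with coefficients in `K0 A`.

PROOF.  `FNAdjoin.exists_div N y` : `y = a' / s'`, `a', s' ∈ FNAdjoin.A N` (the `Kbar`-algebra generated by the `jd`).
Let `Z` be the set of the series `coeffEmb Kbar z`, `z = coeffMap (Int.castRingHom ℚ) z₀` (integral coefficients); it is
closed under multiplication and contains `1` and the `jd` (`FNAdjoin.coeffEmb_qExpand`, `Igusa.LevelDeg_coeffEmb_jq`,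
`jqModC`).  By `FNAdjoin.A_induction` every element of `FNAdjoin.A N` lies (as a series) in
`Submodule.span Kbar Z` (closed under products: `Submodule.span_mul_span`, as in
`GAL.Desc.BaseChange_mul_mem_spanBC`).
`ι := algebraMap (K0 A) Kbar`; `y = coeffMap ι y₀`.  `GAL.Desc.exists_coeffAdd_ne_zero` : a `K0`-linear
`lam : Kbar →+ K0 A` with `coeffAdd lam s' ≠ 0`; `GAL.Desc.coeffAdd_mul_coeffMap` :
`coeffAdd lam s' * y₀ = coeffAdd lam (s' * y) = coeffAdd lam a'`.
For `m ∈ Z`, `c : Kbar` : `coeffAdd lam (C c * m) = C (lam c) * m₀` is bounded; so `coeffAdd lam` of an element of the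
span is bounded (`IsBdd.add`).  Take `s := coeffMap ι (coeffAdd lam s')`, `a := coeffMap ι (coeffAdd lam a')`. -/
theorem exists_frac_K0 {N : ℕ} (y : FN N) (hy : CoeffIn (K0 A) (y : LaurentSeries Kbar)) :
    ∃ a s : LaurentSeries Kbar, s ≠ 0 ∧ CoeffIn (K0 A) a ∧ CoeffIn (K0 A) s ∧ IsBdd A a ∧ IsBdd A s ∧
      (y : LaurentSeries Kbar) * s = a := by
  obtain ⟨a', ha', s', hs', hs0, hy'⟩ := FNAdjoin.exists_div N y
  have hs0' : (s' : LaurentSeries Kbar) ≠ 0 := fun h => hs0 (Subtype.ext h)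
  have h1 : (s' : LaurentSeries Kbar) * (y : LaurentSeries Kbar) = (a' : LaurentSeries Kbar) := by
    have h2 : s' * y = a' := by rw [hy', mul_div_cancel₀ _ hs0]
    exact congrArg Subtype.val h2
  -- `y` comes from a series over `K0 A`
  have hsupp : Function.support (fun n => (⟨(y : LaurentSeries Kbar).coeff n, hy n⟩ : K0 A))
      = (y : LaurentSeries Kbar).support := by
    ext n
    rw [Function.mem_support, HahnSeries.mem_support, Ne, Ne, ← Subtype.coe_inj]
    rfl
  let y₀ : LaurentSeries (K0 A) :=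
    ⟨fun n => ⟨(y : LaurentSeries Kbar).coeff n, hy n⟩, by
      rw [hsupp]; exact (y : LaurentSeries Kbar).isPWO_support⟩
  have hy₀ : coeffMap (algebraMap (K0 A) Kbar) y₀ = (y : LaurentSeries Kbar) := by
    ext n
    rw [coeffMap_coeff]
    rfl
  obtain ⟨lam, hlam, hne⟩ := GAL.Desc.exists_coeffAdd_ne_zero (algebraMap (K0 A) Kbar) hs0'
  have h4 := congrArg (Degree.coeffAdd lam) h1
  rw [← hy₀, GAL.Desc.coeffAdd_mul_coeffMap (algebraMap (K0 A) Kbar) lam hlam] at h4
  refine ⟨coeffMap (algebraMap (K0 A) Kbar) (Degree.coeffAdd lam (a' : LaurentSeries Kbar)),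
    coeffMap (algebraMap (K0 A) Kbar) (Degree.coeffAdd lam (s' : LaurentSeries Kbar)),
    (map_ne_zero _).2 hne, FactD1_coeffIn A _, FactD1_coeffIn A _,
    FactD1_isBdd A lam hlam (FactD1_mem_S ha'), FactD1_isBdd A lam hlam (FactD1_mem_S hs'),
    ?_⟩
  rw [← h4, map_mul, hy₀, mul_comm]

end Fermat.Agent.S36.Kron
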