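import Fermat.Agent.S36.Kron.Defs
import Fermat.Agent.Lib.Frobenius
import Fermat.Agent.DR.Conc.Galois

/-!
# S36/Kron/FrRat : the reduction of a rational function has coefficients in the prime field
-/

set_option autoImplicit false
set_option linter.unusedSectionVars false

noncomputable section

namespace Fermat.Agent.S36.Kron

open ModularCurve AlgebraicCurve Fermat.Agent.S24 Fermat.Agent.GAL Fermat.Agent.GAL.Gauss
  Fermat.Agent.GAL.RED Fermat.Agent.DR.Gal Fermat.Agent.DR.Conc Fermat.Agent.S36R Fermat.Agent.Lib.RR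

variable (A : ValuationSubring Kbar) (M q : ℕ) [NeZero M] [NeZero q] (hq : q.Prime)
  (hqM : ¬ q ∣ M) (hA : A.LiesOverPrime q)

variable [Fact q.Prime] [CharP (IsLocalRing.ResidueField ↥A) q] [PerfectRing (IsLocalRing.ResidueField ↥A) q]

/-- **(DE3)** the reduction of a rational integral function has coefficients in the prime field.
PROOF. `Lib.Frobenius.exists_isFrobeniusAt A hq hA` gives `σ`; `τ := ⟨σ, hσ.mem_decompositionSubgroup⟩`.
`coeffMap σ w = w` (`coeffIn_bot_iff`).  `coeffMap_mem_gRing`, `gRes_coeffMap` (`DR/Conc/Series.lean`) with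
`Galois_mem A τ`, `barAut A τ`, `Galois_residue A τ` (as in `compat_R1`, `DR/Conc/Galois.lean`), `coe_RM_red`,
`coe_FrE`; `barAut A τ = frobenius` as in `galE_barAut_of_frobenius`. -/
theorem FrE_red_of_rat (w : FN M) (hw : CoeffIn ⊥ (w : LaurentSeries Kbar))
    (hwO : w ∈ (RMq A M q hq hqM hA).O) :
    FrE (IsLocalRing.ResidueField ↥A) M q ((RMq A M q hq hqM hA).red w) =
      (RMq A M q hq hqM hA).red w := by
  obtain ⟨σ, hσ⟩ := Lib.Frobenius.exists_isFrobeniusAt A hq hA
  have hg : (w : LaurentSeries Kbar) ∈ gRing A := (mem_RM_O_iff A M _ w).mp hwO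
  have hfix : coeffMap (σ : Kbar →+* Kbar) (w : LaurentSeries Kbar) = w :=
    (coeffIn_bot_iff _).1 hw σ
  have h1 := gRes_coeffMap A _ (Galois_mem A ⟨σ, hσ.mem_decompositionSubgroup⟩) _
    (Galois_residue A ⟨σ, hσ.mem_decompositionSubgroup⟩) hg
  have h2 : (⟨coeffMap (σ : Kbar →+* Kbar) (w : LaurentSeries Kbar),
      coeffMap_mem_gRing A _ (Galois_mem A ⟨σ, hσ.mem_decompositionSubgroup⟩) _
        (Galois_residue A ⟨σ, hσ.mem_decompositionSubgroup⟩) hg⟩ : gRing A) = ⟨w, hg⟩ :=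
    Subtype.ext hfix
  apply Subtype.ext
  rw [coe_FrE, coe_RM_red A M _ w hg]
  have h3 : gRes A ⟨w, hg⟩ = coeffMap
      ((barAut A ⟨σ, hσ.mem_decompositionSubgroup⟩ :
        IsLocalRing.ResidueField ↥A ≃+* IsLocalRing.ResidueField ↥A) :
        IsLocalRing.ResidueField ↥A →+* IsLocalRing.ResidueField ↥A) (gRes A ⟨w, hg⟩) := by
    rw [← h1]
    exact congrArg (gRes A) h2.symm
  conv_rhs => rw [h3]
  ext n
  exact (hσ.smul_residue_eq _).symm

end Fermat.Agent.S36.Kron
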