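import Fermat.Agent.S36.Kron.Defs

/-!
# S36/Kron/RedReg : reduction of functions regular outside the cusps
-/

set_option autoImplicit false
set_option linter.unusedSectionVars false

noncomputable section

namespace Fermat.Agent.S36.Kron

open ModularCurve AlgebraicCurve Fermat.Agent.S24 Fermat.Agent.GAL Fermat.Agent.GAL.Gauss
  Fermat.Agent.GAL.RED Fermat.Agent.DR.Gal Fermat.Agent.DR.Conc Fermat.Agent.S36R Fermat.Agent.Lib.RR

variable (A : ValuationSubring Kbar) (M q : ℕ) [NeZero M] [NeZero q] (hq : q.Prime)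
  (hqM : ¬ q ∣ M) (hA : A.LiesOverPrime q)

section RedRegAbs

variable {K F k Fb : Type*} [Field K] [Field F] [Algebra K F] [Field k] [Field Fb] [Algebra k Fb]
  [Lib.RR.IsFF K F] [IsAlgClosed K] [Lib.RR.IsFF k Fb] [IsAlgClosed k]

theorem RedReg_abs {R : RedData K F k Fb} {r : Place K F → Place k Fb}
    (hr : IsRedMap R r) {y : F} {yb : Fb}
    (hmap : Finsupp.mapDomain r (RED.poleDiv (K := K) y) = RED.poleDiv (K := k) yb)
    (hpos : 0 < Divisor.degree (RED.poleDiv (K := K) y)) (u : F) (hu : u ∈ regOff K y)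
    (huO : u ∈ R.O) : R.red u ∈ regOff k yb := by
  obtain ⟨a₀, ha₀⟩ := exists_mem_rr_of_mem_regOff hu
  set a : ℕ := a₀ + 3 * genusFF K F with ha
  have h4 : (a : ℤ) = a₀ + 3 * genusFF K F := by rw [ha]; push_cast; ring
  have hdeg : 3 * (genusFF K F : ℤ) ≤ Divisor.degree ((a : ℤ) • RED.poleDiv (K := K) y) := by
    rw [map_zsmul, smul_eq_mul]
    have h1 : (a : ℤ) * 1 ≤ (a : ℤ) * Divisor.degree (RED.poleDiv (K := K) y) :=
      mul_le_mul_of_nonneg_left (by omega) (by positivity)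
    omega
  have hL := hr.redSub_L _ hdeg
  rw [mapDomain_zsmul', hmap] at hL
  have huL : u ∈ riemannRochSpace ((a : ℤ) • RED.poleDiv (K := K) y) := by
    rw [mem_riemannRochSpace_iff] at ha₀ ⊢
    intro P
    rcases ha₀ P with h0 | h0
    · exact Or.inl h0
    · right
      rw [Finsupp.smul_apply, RED.poleDiv_apply, nsmul_eq_mul] at h0
      rw [Finsupp.smul_apply, RED.poleDiv_apply, smul_eq_mul]
      have h1 : (a₀ : ℤ) * max (-P.ord y) 0 ≤ (a : ℤ) * max (-P.ord y) 0 :=
        mul_le_mul_of_nonneg_right (by omega) (le_max_right _ _)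
      omega
  have h5 : R.red u ∈ R.redSub (riemannRochSpace ((a : ℤ) • RED.poleDiv (K := K) y)) :=
    R.mem_redSub.mpr ⟨u, huL, huO, rfl⟩
  rw [hL, natCast_zsmul] at h5
  exact mem_regOff_of_mem_rr h5

end RedRegAbs

/-- **(RC6)** the reduction of an integral function which is regular outside the cusps is regular outside the cusps.
PROOF.  `u ∈ L(a (j)_∞)` for some `a` (`exists_mem_rr_of_mem_regOff`), enlarge `a` so that `3 g ≤ deg`;
`hr.redSub_L`, `map_poleDiv_jF` : `red u ∈ L̄(a (j̄)_∞)`; `mem_regOff_of_mem_rr`. -/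
theorem red_mem_regOff (hg : GoodRed A M) (u : FN M) (hu : u ∈ regOff Kbar (jF M))
    (huO : u ∈ (RMq A M q hq hqM hA).O) :
    (RMq A M q hq hqM hA).red u ∈
      regOff (IsLocalRing.ResidueField ↥A) (Igusa.jb (IsLocalRing.ResidueField ↥A) M) := by
  have : Lib.RR.IsFF Kbar (FN M) := Fermat.Agent.GAL.Desc.isFF_FF_Kbar M
  have := Igusa.isAlgClosed_residueField A
  have := Igusa.isFF_E (IsLocalRing.ResidueField ↥A) M (natCast_M_ne_zero A M q hq hqM hA)
  obtain ⟨r, hr⟩ := RED.exists_isRedMap (RMq A M q hq hqM hA)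
    (RM_isCartesian A M (natCast_M_ne_zero A M q hq hqM hA)) hg
  refine RedReg_abs hr (map_poleDiv_jF A M (natCast_M_ne_zero A M q hq hqM hA) r hr).1 ?_ u hu huO
  rw [Level_degree_poleDiv_jF]
  exact_mod_cast DegreeAlpha.dedekindPsi_pos M

end Fermat.Agent.S36.Kron
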