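import Fermat.Agent.S36.Kron.Ode
import Fermat.Agent.S36.Kron.RedReg

/-!
# S36 / Kron, file `FromK`: from the Kronecker congruence (`KLoc`) to the differential equation (`OdeData`)

`H := (β u0 - α x'^q)/q ∈ R1.O`, `Hb := R1.red H`.
* relation: divide `P(β u0) = 0` by `q` and reduce;
* differential equation: `θ H = (θ u0)(t^q) - x'^(q-1) θ x'` and `θ` commutes with the Gauss reduction.
-/

set_option autoImplicit false
set_option linter.unusedSectionVars false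

noncomputable section

namespace Fermat.Agent.S36.Kron

open ModularCurve AlgebraicCurve Fermat.Agent.S24 Fermat.Agent.GAL Fermat.Agent.GAL.Gauss
  Fermat.Agent.GAL.RED Fermat.Agent.DR.Gal Fermat.Agent.DR.Conc Fermat.Agent.S36R.KS
  Fermat.Agent.S36R.Unit

/-- (K1) pure algebra: `y^(q+1) + ∑ gcoᵢ yⁱ = (y - a'^q)(y^q - a) + q ∑ rᵢ yⁱ`.
PROOF: `gco`, `Finset.sum_add_distrib`, `Finset.sum_ite_eq'`-type lemmas (`q, 1, 0 ∈ range (q+1)`, pairwise distinct since `2 ≤ q`),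
`Finset.mul_sum`, `ring`. -/
theorem gco_sum {F : Type*} [Field F] {q : ℕ} (hq : 2 ≤ q) (a a' y : F) (r : ℕ → F) :
    y ^ (q + 1) + ∑ i ∈ Finset.range (q + 1), gco q a a' r i * y ^ i =
      (y - a' ^ q) * (y ^ q - a) + (q : F) * ∑ i ∈ Finset.range (q + 1), r i * y ^ i := by
  have h1 : ∑ i ∈ Finset.range (q + 1), gco q a a' r i * y ^ i =
      (-a' ^ q) * y ^ q + (-a) * y ^ 1 + (a' ^ q * a) * y ^ 0 +
        (q : F) * ∑ i ∈ Finset.range (q + 1), r i * y ^ i := by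
    unfold gco
    simp only [add_mul, Finset.sum_add_distrib, ite_mul, zero_mul]
    rw [Finset.sum_ite_eq', Finset.sum_ite_eq', Finset.sum_ite_eq',
      if_pos (Finset.mem_range.2 (by omega)), if_pos (Finset.mem_range.2 (by omega)),
      if_pos (Finset.mem_range.2 (by omega)), Finset.mul_sum]
    congr 1
    exact Finset.sum_congr rfl fun i _ => mul_assoc _ _ _
  rw [h1]
  ring

variable (A : ValuationSubring Kbar) (M q : ℕ) [NeZero M] [NeZero q] (hq : q.Prime)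
  (hqM : ¬ q ∣ M) (hA : A.LiesOverPrime q)
  [Fact q.Prime] [CharP (IsLocalRing.ResidueField ↥A) q]
  [PerfectRing (IsLocalRing.ResidueField ↥A) q]

set_option quotPrecheck false in
local notation "𝕜" => IsLocalRing.ResidueField ↥A

/-- `H = (β u0 - α x'^q)/q`. -/
def kH (x' u0 : FN M) : FN (M * q) :=
  (q : Kbar)⁻¹ • (heckeBetaBar Kbar M q u0 - heckeAlphaBar Kbar M q (x' ^ q))

variable {e : Place (IsLocalRing.ResidueField ↥A) (Igusa.E (IsLocalRing.ResidueField ↥A) M)}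
  {x x' u0 : FN M} {rc : ℕ → FN M}

/-- (K2) the relation in characteristic `0`: `H ((β u0)^q - α x) + ∑ α(rcᵢ) (β u0)ⁱ = 0`.
PROOF: the field `root` of `KLoc` (`h.2.2.2.2.2.2.2.1`); `map` of `gco` under the ring hom `α` is `gco q (α x) (α x') (α ∘ rc)` (`map_add`, `apply_ite`, `map_neg`,
`map_pow`, `map_mul`, `map_natCast`, `map_zero`); `gco_sum`; `β u0 - α x'^q = q • H` (`(q : Kbar) ≠ 0`, `Algebra.smul_def`/`smul_smul`); cancel `q`. -/
theorem kLoc_rel0 (h : KLoc A M q hq hqM hA e x x' u0 rc) :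
    kH M q x' u0 * ((heckeBetaBar Kbar M q u0) ^ q - heckeAlphaBar Kbar M q x) +
      ∑ i ∈ Finset.range (q + 1), heckeAlphaBar Kbar M q (rc i) * (heckeBetaBar Kbar M q u0) ^ i = 0 := by
  have hroot := h.2.2.2.2.2.2.2.1
  have hα : ∀ i, heckeAlphaBar Kbar M q (gco q x x' rc i) =
      gco q (heckeAlphaBar Kbar M q x) (heckeAlphaBar Kbar M q x')
        (fun i => heckeAlphaBar Kbar M q (rc i)) i := by
    intro i
    unfold gco
    simp only [map_add, apply_ite (heckeAlphaBar Kbar M q), map_neg, map_pow, map_mul, map_natCast,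
      map_zero]
  simp only [hα] at hroot
  rw [gco_sum hq.two_le] at hroot
  have hq0 : ((q : ℕ) : FN (M * q)) ≠ 0 := Nat.cast_ne_zero.2 hq.ne_zero
  have hH : heckeBetaBar Kbar M q u0 - heckeAlphaBar Kbar M q x' ^ q =
      ((q : ℕ) : FN (M * q)) * kH M q x' u0 := by
    rw [kH, Algebra.smul_def, map_inv₀, map_natCast, map_pow, mul_inv_cancel_left₀ hq0]
  rw [hH, mul_assoc, ← mul_add] at hroot
  exact (mul_eq_zero.1 hroot).resolve_left hq0

/-- (K3) the relation in characteristic `q`.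
PROOF: apply `(R1 ..).red` to `kLoc_rel0`: all the terms are in `R1.O` (`kH ∈ R1.O` = last field of `KLoc`; `alpha_mem_R1_O_iff`, `beta_mem_R1_O_iff`),
`red_add`, `red_mul`, `red_sub`, `red_pow`, reduction of a finite sum (induction / `map_sum` for `R1.res`), `R1_red_alpha`, `R1_red_beta`, `red u0 = FrE (red x')`,
`Phi_FrE : Phi (FrE y) = y^q`; `(X'^q)^q = X'^(q^2)`, `(X'^q)^i = X'^(q*i)`. -/
theorem kLoc_rel (h : KLoc A M q hq hqM hA e x x' u0 rc) :
    (R1 A M q hq hqM hA).red (kH M q x' u0) *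
        (((RMq A M q hq hqM hA).red x') ^ (q ^ 2) - (RMq A M q hq hqM hA).red x) +
      ∑ i ∈ Finset.range (q + 1), (RMq A M q hq hqM hA).red (rc i) *
        ((RMq A M q hq hqM hA).red x') ^ (q * i) = 0 := by
  have h0 := kLoc_rel0 A M q hq hqM hA h
  obtain ⟨hx, hx', hu0, hrc, -, -, hFr, -, hH⟩ := h
  have hb : heckeBetaBar Kbar M q u0 ∈ (R1 A M q hq hqM hA).O :=
    (beta_mem_R1_O_iff A M q hq hqM hA u0).2 hu0
  have ha : heckeAlphaBar Kbar M q x ∈ (R1 A M q hq hqM hA).O :=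
    (alpha_mem_R1_O_iff A M q hq hqM hA x).2 hx.1
  have hr : ∀ i, heckeAlphaBar Kbar M q (rc i) ∈ (R1 A M q hq hqM hA).O :=
    fun i => (alpha_mem_R1_O_iff A M q hq hqM hA (rc i)).2 (hrc i).1
  have hredb : (R1 A M q hq hqM hA).red (heckeBetaBar Kbar M q u0) =
      ((RMq A M q hq hqM hA).red x') ^ q := by
    rw [R1_red_beta, hFr, Phi_FrE]
  have hbq : (heckeBetaBar Kbar M q u0) ^ q ∈ (R1 A M q hq hqM hA).O :=
    (R1 A M q hq hqM hA).O.pow_mem hb q
  have hterm : ∀ i ∈ Finset.range (q + 1),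
      heckeAlphaBar Kbar M q (rc i) * (heckeBetaBar Kbar M q u0) ^ i ∈ (R1 A M q hq hqM hA).O :=
    fun i _ => (R1 A M q hq hqM hA).O.mul_mem _ _ (hr i) ((R1 A M q hq hqM hA).O.pow_mem hb i)
  have hH' : kH M q x' u0 ∈ (R1 A M q hq hqM hA).O := hH
  have h1 := congrArg (R1 A M q hq hqM hA).red h0
  rw [(R1 A M q hq hqM hA).red_zero,
    (R1 A M q hq hqM hA).red_add
      ((R1 A M q hq hqM hA).O.mul_mem _ _ hH' ((R1 A M q hq hqM hA).O.sub_mem hbq ha))
      ((R1 A M q hq hqM hA).O.sum_mem hterm),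
    (R1 A M q hq hqM hA).red_mul hH' ((R1 A M q hq hqM hA).O.sub_mem hbq ha),
    (R1 A M q hq hqM hA).red_sub hbq ha, (R1 A M q hq hqM hA).red_pow, hredb, R1_red_alpha,
    (R1 A M q hq hqM hA).red_sum _ _ hterm, ← pow_mul, ← pow_two] at h1
  rw [← h1]
  congr 1
  refine Finset.sum_congr rfl fun i _ => ?_
  rw [(R1 A M q hq hqM hA).red_mul (hr i) ((R1 A M q hq hqM hA).O.pow_mem hb i),
    (R1 A M q hq hqM hA).red_pow, hredb, R1_red_alpha, ← pow_mul]

/-- (K4) the differential equation.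
PROOF.  In `Kbar((t))`: `coe (kH) = C q⁻¹ * (qExpand q u0 - x'^q)` (`coe_heckeBetaBar`, `coe_heckeAlphaBar`, `coe_algebraMap_FN`, `Algebra.smul_def`).
`θ (qExpand q u0) = q * qExpand q (θ u0)` (`theta_qExpand`), `θ (x'^q) = q * x'^(q-1) * θ x'` (`theta_pow`), `θ (C c * y) = C c * θ y` (`theta_mul`, `theta_C`), so
`θ (coe kH) = qExpand q (θ u0) - x'^(q-1) θ x'`.  All these series are in `gRing A` (`mem_RM_O_iff`, `theta_mem_gRing`, `qExpand_mem_gRing`); with `GR` (`S36R/Unit/Gauss.lean`):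
`GR A (θ y) (θ ȳ)` (`gRes_theta`), `GR.qExpand`, `GR.mul`, `GR.pow`, `GR.sub`, `GR.unique`; `coe_R1_red`, `coe_RM_red`.  So
`θ Hb = qExpand q (θ ū0) - X'^(q-1) θ X'`; `ū0 = FrE X'` : `coe_FrE` (`coeffMap (frobenius)`), `theta_coeffMap`, `Hecke.pow_char_eq_qExpand : y^q = qExpand q (coeffMap frobenius y)`. -/
theorem kLoc_ode (h : KLoc A M q hq hqM hA e x x' u0 rc) :
    theta (((R1 A M q hq hqM hA).red (kH M q x' u0) : Igusa.E 𝕜 M) : LaurentSeries 𝕜) =
      theta (((RMq A M q hq hqM hA).red x' : Igusa.E 𝕜 M) : LaurentSeries 𝕜) ^ q -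
        (((RMq A M q hq hqM hA).red x' : Igusa.E 𝕜 M) : LaurentSeries 𝕜) ^ (q - 1) *
          theta (((RMq A M q hq hqM hA).red x' : Igusa.E 𝕜 M) : LaurentSeries 𝕜) := by
  have hx : (x' : LaurentSeries Kbar) ∈ gRing A := (mem_RM_O_iff A M _ x').mp h.2.1.1
  have hu : (u0 : LaurentSeries Kbar) ∈ gRing A := (mem_RM_O_iff A M _ u0).mp h.2.2.1
  have hH : ((kH M q x' u0 : FN (M * q)) : LaurentSeries Kbar) ∈ gRing A :=
    (mem_R1_O_iff A M q hq hqM hA _).mp h.2.2.2.2.2.2.2.2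
  have hFr : (RMq A M q hq hqM hA).red u0 = FrE 𝕜 M q ((RMq A M q hq hqM hA).red x') :=
    h.2.2.2.2.2.2.1
  have hU : gRes A ⟨_, hu⟩ = coeffMap (frobenius 𝕜 q) (gRes A ⟨_, hx⟩) := by
    rw [← coe_RM_red A M (natCast_M_ne_zero A M q hq hqM hA) u0 hu,
      ← coe_RM_red A M (natCast_M_ne_zero A M q hq hqM hA) x' hx, hFr, coe_FrE]
  rw [coe_R1_red A M q hq hqM hA _ hH, coe_RM_red A M _ x' hx]
  -- the identity in characteristic `0`
  have hq0 : (q : Kbar) ≠ 0 := Nat.cast_ne_zero.2 hq.ne_zero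
  have hcoe : ((kH M q x' u0 : FN (M * q)) : LaurentSeries Kbar) =
      HahnSeries.C (q : Kbar)⁻¹ *
        (qExpand Kbar q (u0 : LaurentSeries Kbar) - (x' : LaurentSeries Kbar) ^ q) := by
    rw [kH, Algebra.smul_def, IntermediateField.coe_mul, DR.Conc.coe_algebraMap_FN,
      AddSubgroupClass.coe_sub, coe_heckeBetaBar, coe_heckeAlphaBar, IntermediateField.coe_pow]
  have hCq : (HahnSeries.C (q : Kbar)⁻¹ : LaurentSeries Kbar) * (q : LaurentSeries Kbar) = 1 := by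
    have h1 : (q : LaurentSeries Kbar) = HahnSeries.C (q : Kbar) := by rw [map_natCast]
    rw [h1, ← map_mul, inv_mul_cancel₀ hq0, map_one]
  have h0 : theta ((kH M q x' u0 : FN (M * q)) : LaurentSeries Kbar) =
      qExpand Kbar q (theta (u0 : LaurentSeries Kbar)) -
        (x' : LaurentSeries Kbar) ^ (q - 1) * theta (x' : LaurentSeries Kbar) := by
    rw [hcoe, theta_mul, theta_C, mul_zero, add_zero, map_sub, theta_qExpand, theta_pow]
    linear_combination (qExpand Kbar q (theta (u0 : LaurentSeries Kbar)) -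
        (x' : LaurentSeries Kbar) ^ (q - 1) * theta (x' : LaurentSeries Kbar)) * hCq
  -- reduction
  have g1 : GR A (theta ((kH M q x' u0 : FN (M * q)) : LaurentSeries Kbar))
      (theta (gRes A ⟨_, hH⟩)) := ⟨theta_mem_gRing A hH, gRes_theta A hH⟩
  have g2 : GR A (theta (u0 : LaurentSeries Kbar)) (theta (gRes A ⟨_, hu⟩)) :=
    ⟨theta_mem_gRing A hu, gRes_theta A hu⟩
  have g3 : GR A (theta (x' : LaurentSeries Kbar)) (theta (gRes A ⟨_, hx⟩)) :=
    ⟨theta_mem_gRing A hx, gRes_theta A hx⟩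
  have g4 : GR A (x' : LaurentSeries Kbar) (gRes A ⟨_, hx⟩) := GR.of_mem hx
  have g5 := (g2.qExpand q).sub ((g4.pow (q - 1)).mul g3)
  rw [h0] at g1
  rw [g1.unique g5, hU, theta_coeffMap, ← Hecke.pow_char_eq_qExpand]

/-- `KLoc ⟹ OdeData`. -/
theorem odeData_of_kLoc (hneat : 4 ∣ M ∨ 9 ∣ M) (h : KLoc A M q hq hqM hA e x x' u0 rc) :
    OdeData A M q e ((RMq A M q hq hqM hA).red x) ((RMq A M q hq hqM hA).red x')
      ((R1 A M q hq hqM hA).red (kH M q x' u0)) (fun i => (RMq A M q hq hqM hA).red (rc i)) :=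
  have hg := goodRed_of_neat A M (natCast_M_ne_zero A M q hq hqM hA) Igusa.cuspUpper
    Igusa.cuspLower hneat
  ⟨red_mem_regOff A M q hq hqM hA hg x h.1.2 h.1.1,
    red_mem_regOff A M q hq hqM hA hg x' h.2.1.2 h.2.1.1,
    fun i => red_mem_regOff A M q hq hqM hA hg (rc i) (h.2.2.2.1 i).2 (h.2.2.2.1 i).1,
    h.2.2.2.2.1, h.2.2.2.2.2.1, kLoc_rel A M q hq hqM hA h, kLoc_ode A M q hq hqM hA h⟩

/-- **The output of the second half of KRON, local form.**  `hs` = the function `Δ̄^(1-q)`. -/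
theorem kron_local (hneat : 4 ∣ M ∨ 9 ∣ M) (he : Igusa.jb 𝕜 M ∈ e.toValuationSubring)
    (h : KLoc A M q hq hqM hA e x x' u0 rc) (hs : Igusa.E 𝕜 M)
    (hhs : (hs : LaurentSeries 𝕜) = Hs 𝕜 q 1) (hreg : 0 ≤ e.ord hs) :
    e.ord hs = 0 ∨ (e.ord hs = 12 ∧ e.ord ((RMq A M q hq hqM hA).red x) = 1 ∧
      ¬ ((RMq A M q hq hqM hA).red (rc 0) = 0 ∨ 0 < e.ord ((RMq A M q hq hqM hA).red (rc 0)))) :=
  ord_hs_of_odeData A M q hq hqM hA hneat he (odeData_of_kLoc A M q hq hqM hA hneat h) hs hhs hreg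

end Fermat.Agent.S36.Kron
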