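import Fermat.Agent.S36.Kron.Defs

/-!
# S36/Kron/GalRR : `L(a (j)_∞)` is Galois stable
-/

set_option autoImplicit false
set_option linter.unusedSectionVars false

noncomputable section

namespace Fermat.Agent.S36.Kron

open ModularCurve AlgebraicCurve Fermat.Agent.S24 Fermat.Agent.GAL Fermat.Agent.GAL.Gauss
  Fermat.Agent.GAL.RED Fermat.Agent.DR.Gal Fermat.Agent.DR.Conc Fermat.Agent.S36R Fermat.Agent.Lib.RR

variable (M : ℕ) [NeZero M]

theorem GalRR_smul_jF (τ : Kbar ≃ₐ[ℚ] Kbar) :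
    arithmeticGalois (L := Kbar) (modularFunctionFieldFull M) τ • (jF M : FN M) = jF M := by
  apply Subtype.ext
  rw [coe_arithmeticGalois_smul]
  exact coeffMap_coeffEmb τ jq

/-- **(DE2)** `L(a (j)_∞)` is Galois stable.
PROOF. `g := arithmeticGalois .. σ`; `g • jF M = jF M` (rational coefficients: `Subtype.ext`,
`coe_arithmeticGalois_smul`, `coe_jF`/`coeffEmb`); `SemilinearAut.ord_smul g P f : (g • P).ord (g • f) = P.ord f`.
For a place `P` write `P = g • (g⁻¹ • P)`: `P.ord (g • f) = (g⁻¹ • P).ord f`, `P.ord (jF M) = (g⁻¹ • P).ord (jF M)`;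
`mem_riemannRochSpace_iff`, `Finsupp.smul_apply`, `RED.poleDiv_apply`. -/
theorem gal_mem_rr [Lib.RR.IsFF Kbar (FN M)] (a : ℤ) (σ : Kbar ≃ₐ[ℚ] Kbar) (f : FN M)
    (hf : f ∈ riemannRochSpace (a • RED.poleDiv (K := Kbar) (jF M))) :
    arithmeticGalois (L := Kbar) (modularFunctionFieldFull M) σ • f ∈
      riemannRochSpace (a • RED.poleDiv (K := Kbar) (jF M)) := by
  set g := arithmeticGalois (L := Kbar) (modularFunctionFieldFull M) σ with hg
  rw [mem_riemannRochSpace_iff] at hf ⊢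
  intro P
  have hP : P = g • (g⁻¹ • P) := by rw [smul_inv_smul]
  have h1 : P.ord (g • f) = (g⁻¹ • P).ord f := by
    conv_lhs => rw [hP]
    exact SemilinearAut.ord_smul g _ f
  have h2 : P.ord (jF M : FN M) = (g⁻¹ • P).ord (jF M : FN M) := by
    conv_lhs => rw [hP, ← GalRR_smul_jF M σ]
    exact SemilinearAut.ord_smul g _ _
  rcases hf (g⁻¹ • P) with h0 | h0
  · left
    rw [h0, smul_zero]
  · right
    rw [h1]
    simp only [Finsupp.smul_apply, RED.poleDiv_apply] at h0 ⊢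
    rw [h2]
    exact h0

end Fermat.Agent.S36.Kron
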