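import Fermat.Agent.S36.StepA.Lvl2
import Fermat.Agent.S36.StepA.Near

/-!
# S36/Kron : the Hecke polynomial of a function of level `M` (`q ∤ M`)

`heckePoly hq hM u₀ ∈ (FN M)[T]` is the characteristic polynomial of `β u₀ = u₀(t^q)` over `α (FN M)`.  After `t ↦ t^q`:
`P(T) = (T - u₀(t^{q²})) ∏_{i<q} (T - u₀(ζ^i t))`.
-/

set_option autoImplicit false
set_option linter.unusedSectionVars false
set_option linter.style.haveILetI false

noncomputable section

namespace Fermat.Agent.S36.Kron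

open Polynomial AlgebraicCurve ModularCurve Fermat.Agent.S24 Fermat.Agent.GAL Fermat.Agent.GAL.Hecke
  Fermat.Agent.GAL.NormFormula Fermat.Agent.GAL.DegreeAlpha Fermat.Agent.S36.StepA

variable {M q : ℕ} [NeZero M] [NeZero q]

/-- `f(t) ↦ f(t^q)` on expansions. -/
def psi (M q : ℕ) [NeZero q] : FN M →+* LaurentSeries Kbar := (qExpand Kbar q).comp (valN M)

theorem psi_apply (f : FN M) : psi M q f = qExpand Kbar q (f : LaurentSeries Kbar) := rfl

theorem psi_injective : Function.Injective (psi M q) := (psi M q).injective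

theorem coe_algebraMap_FN (N : ℕ) (c : Kbar) :
    ((algebraMap Kbar (FN N) c : FN N) : LaurentSeries Kbar) = HahnSeries.C c := by
  rw [IntermediateField.coe_algebraMap_apply, Gauss.algebraMap_eq_C]

theorem coe_sub_FN (N : ℕ) (a b : FN N) :
    ((a - b : FN N) : LaurentSeries Kbar) = (a : LaurentSeries Kbar) - (b : LaurentSeries Kbar) := rfl

theorem psi_algebraMap (c : Kbar) : psi M q (algebraMap Kbar (FN M) c) = HahnSeries.C c := by
  rw [psi_apply, coe_algebraMap_FN, qExpand_C]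

theorem exists_charpoly_abs {F F' : Type*} [Field F] [Field F'] [Algebra F F']
    [FiniteDimensional F F'] (y : F') :
    ∃ P : F[X], P.Monic ∧ P.natDegree = Module.finrank F F' ∧
      ∀ c : F, P.eval c = Algebra.norm F (algebraMap F F' c - y) := by
  refine ⟨(Algebra.lmul F F' y).charpoly, LinearMap.charpoly_monic _,
    LinearMap.charpoly_natDegree _, fun c => ?_⟩
  rw [LinearMap.eval_charpoly, Algebra.norm_apply, map_sub (Algebra.lmul F F'), AlgHom.commutes]

theorem exists_heckePoly (hq : q.Prime) (hM : ¬ q ∣ M) (u₀ : FN M) :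
    ∃ P : (FN M)[X], P.Monic ∧ P.natDegree = q + 1 ∧
      ∀ c : FN M, heckeBetaBar Kbar M q c = heckeAlphaBar Kbar M q c →
        P.eval c = heckeNorm Kbar M q (c - u₀) := by
  obtain ⟨P, h1, h2, h3⟩ := @exists_charpoly_abs (FN M) (FN (M * q)) _ _
    (algebraAlong (heckeAlphaBar Kbar M q)) (finiteDimensional_alpha M q hq hM)
    (heckeBetaBar Kbar M q u₀)
  refine ⟨P, h1, by rw [h2, finrank_alpha M q hq hM], fun c hc => ?_⟩
  rw [h3, heckeNorm_apply, map_sub (heckeBetaBar Kbar M q), hc]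
  rfl

/-- **The Hecke polynomial.** -/
def heckePoly (hq : q.Prime) (hM : ¬ q ∣ M) (u₀ : FN M) : (FN M)[X] :=
  (exists_heckePoly hq hM u₀).choose

variable (hq : q.Prime) (hM : ¬ q ∣ M) (u₀ : FN M)

theorem heckePoly_monic : (heckePoly hq hM u₀).Monic := (exists_heckePoly hq hM u₀).choose_spec.1

theorem heckePoly_natDegree : (heckePoly hq hM u₀).natDegree = q + 1 :=
  (exists_heckePoly hq hM u₀).choose_spec.2.1

theorem heckePoly_eval (c : Kbar) :
    (heckePoly hq hM u₀).eval (algebraMap Kbar (FN M) c) =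
      heckeNorm Kbar M q (algebraMap Kbar (FN M) c - u₀) :=
  (exists_heckePoly hq hM u₀).choose_spec.2.2 _ (by rw [AlgHom.commutes, AlgHom.commutes])

/-- the product of the linear factors. -/
def prodPoly (q : ℕ) [NeZero q] (ζ : Kbar) (hζ0 : ζ ≠ 0) (s : LaurentSeries Kbar) : (LaurentSeries Kbar)[X] :=
  (X - C (qExpand Kbar (q * q) s)) *
    ∏ i : Fin q, (X - C (Fermat.Agent.S24.twist (ζ ^ (i : ℕ)) (pow_ne_zero _ hζ0) s))

theorem prodPoly_monic (ζ : Kbar) (hζ0 : ζ ≠ 0) (s : LaurentSeries Kbar) :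
    (prodPoly q ζ hζ0 s).Monic :=
  (monic_X_sub_C _).mul (monic_prod_of_monic _ _ fun _ _ => monic_X_sub_C _)

/-- **(P1)** -/
theorem heckePoly_map {ζ : Kbar} (hζ : IsPrimitiveRoot ζ q) :
    (heckePoly hq hM u₀).map (psi M q) =
      prodPoly q ζ (hζ.ne_zero hq.ne_zero) (u₀ : LaurentSeries Kbar) := by
  apply Polynomial.eq_of_infinite_eval_eq
  refine Set.infinite_of_injective_forall_mem (f := fun c : Kbar =>
    (HahnSeries.C c : LaurentSeries Kbar)) HahnSeries.C_injective fun c => ?_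
  show eval _ _ = eval _ _
  rw [← psi_algebraMap (M := M) (q := q) c, eval_map_apply, heckePoly_eval, psi_apply,
    qExpand_heckeNorm' hq hM hζ, psi_algebraMap, prodPoly, eval_mul, eval_sub, eval_X, eval_C,
    eval_prod]
  congr 1
  · rw [coe_sub_FN, coe_algebraMap_FN, map_sub, qExpand_C]
  · refine Finset.prod_congr rfl fun i _ => ?_
    rw [eval_sub, eval_X, eval_C, coe_sub_FN, coe_algebraMap_FN, map_sub, twist_C]

/-! ### Galois equivariance -/

theorem psi_gal (τ : Kbar ≃ₐ[ℚ] Kbar) (f : FN M) :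
    psi M q (gal M τ f) = coeffMap (τ : Kbar →+* Kbar) (psi M q f) := by
  rw [psi_apply, psi_apply, DR.Conc.AL_coeffMap_qExpand]
  rfl

theorem prodPoly_map_coeffMap (τ : Kbar ≃ₐ[ℚ] Kbar) (ζ : Kbar) (hζ0 : ζ ≠ 0)
    (s : LaurentSeries Kbar) :
    (prodPoly q ζ hζ0 s).map (coeffMap (τ : Kbar →+* Kbar)) =
      prodPoly q (τ ζ) ((map_ne_zero τ).2 hζ0) (coeffMap (τ : Kbar →+* Kbar) s) := by
  rw [prodPoly, prodPoly, Polynomial.map_mul, Polynomial.map_sub, map_X, map_C,
    DR.Conc.AL_coeffMap_qExpand, Polynomial.map_prod]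
  congr 1
  refine Finset.prod_congr rfl fun i _ => ?_
  rw [Polynomial.map_sub, map_X, map_C, coeffMap_twist]
  have h1 : τ (ζ ^ (i : ℕ)) = τ ζ ^ (i : ℕ) := map_pow τ ζ _
  simp only [h1]

/-- **(P3)** -/
theorem heckePoly_map_gal (τ : Kbar ≃ₐ[ℚ] Kbar) :
    (heckePoly hq hM u₀).map (gal M τ : FN M →+* FN M) = heckePoly hq hM (gal M τ u₀) := by
  obtain ⟨ζ, hζ⟩ : ∃ ζ : Kbar, IsPrimitiveRoot ζ q :=
    HasEnoughRootsOfUnity.exists_primitiveRoot Kbar q
  apply Polynomial.map_injective _ (psi_injective (M := M) (q := q))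
  have hτζ : IsPrimitiveRoot (τ ζ) q := hζ.map_of_injective τ.injective
  rw [heckePoly_map hq hM _ hτζ, Polynomial.map_map]
  have h1 : (psi M q).comp (gal M τ : FN M →+* FN M) =
      (coeffMap (τ : Kbar →+* Kbar)).comp (psi M q) := RingHom.ext fun f => psi_gal τ f
  rw [h1, ← Polynomial.map_map, heckePoly_map hq hM _ hζ, prodPoly_map_coeffMap]
  rfl

theorem gal_coeff_heckePoly (τ : Kbar ≃ₐ[ℚ] Kbar) (h : gal M τ u₀ = u₀) (i : ℕ) :
    gal M τ ((heckePoly hq hM u₀).coeff i) = (heckePoly hq hM u₀).coeff i := by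
  have := congrArg (fun P => P.coeff i) (heckePoly_map_gal hq hM u₀ τ)
  simp only [coeff_map, h] at this
  exact this

/-! ### the roots at level `M q²` -/

/-- the middle copy: `f(t) ↦ f(t^q)`. -/
def mid (M q : ℕ) [NeZero M] [NeZero q] : FN M →ₐ[Kbar] FN (M * q * q) :=
  (a2 M q).comp (heckeBetaBar Kbar M q)

/-- `f(t) ↦ f(t)`. -/
def lo (M q : ℕ) [NeZero M] [NeZero q] : FN M →ₐ[Kbar] FN (M * q * q) :=
  (a2 M q).comp (heckeAlphaBar Kbar M q)

/-- `f(t) ↦ f(t^{q²})`. -/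
def hi (M q : ℕ) [NeZero M] [NeZero q] : FN M →ₐ[Kbar] FN (M * q * q) :=
  (b2 M q).comp (heckeBetaBar Kbar M q)

theorem coe_mid (f : FN M) :
    ((mid M q f : FN (M * q * q)) : LaurentSeries Kbar) = qExpand Kbar q (f : LaurentSeries Kbar) := by
  show ((a2 M q (heckeBetaBar Kbar M q f) : FN (M * q * q)) : LaurentSeries Kbar) = _
  rw [coe_heckeAlphaBar, coe_heckeBetaBar]

theorem coe_lo (f : FN M) :
    ((lo M q f : FN (M * q * q)) : LaurentSeries Kbar) = (f : LaurentSeries Kbar) := by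
  show ((a2 M q (heckeAlphaBar Kbar M q f) : FN (M * q * q)) : LaurentSeries Kbar) = _
  rw [coe_heckeAlphaBar, coe_heckeAlphaBar]

theorem coe_hi (f : FN M) :
    ((hi M q f : FN (M * q * q)) : LaurentSeries Kbar) =
      qExpand Kbar (q * q) (f : LaurentSeries Kbar) := by
  show ((b2 M q (heckeBetaBar Kbar M q f) : FN (M * q * q)) : LaurentSeries Kbar) = _
  rw [coe_heckeBetaBar, coe_heckeBetaBar, qExpand_qExpand]

theorem mid_eq_b2 (f : FN M) : mid M q f = b2 M q (heckeAlphaBar Kbar M q f) := by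
  apply Subtype.ext
  rw [coe_mid, coe_heckeBetaBar, coe_heckeAlphaBar]

theorem eval_map_mid_eq_zero_iff (y : FN (M * q * q)) {ζ : Kbar} (hζ : IsPrimitiveRoot ζ q) :
    ((heckePoly hq hM u₀).map (mid M q : FN M →+* FN (M * q * q))).eval y = 0 ↔
      (prodPoly q ζ (hζ.ne_zero hq.ne_zero) (u₀ : LaurentSeries Kbar)).eval
        (y : LaurentSeries Kbar) = 0 := by
  have h1 : (valN (M * q * q)).comp (mid M q : FN M →+* FN (M * q * q)) = psi M q :=
    RingHom.ext fun f => coe_mid f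
  rw [← heckePoly_map hq hM u₀ hζ, ← h1, ← Polynomial.map_map, ← valN_apply, eval_map_apply,
    map_eq_zero]

/-- **(P2)** `u₀(t)` is a root. -/
theorem eval_lo : ((heckePoly hq hM u₀).map (mid M q : FN M →+* FN (M * q * q))).eval
    (lo M q u₀) = 0 := by
  obtain ⟨ζ, hζ⟩ : ∃ ζ : Kbar, IsPrimitiveRoot ζ q :=
    HasEnoughRootsOfUnity.exists_primitiveRoot Kbar q
  rw [eval_map_mid_eq_zero_iff hq hM u₀ _ hζ, prodPoly, eval_mul, eval_prod]
  apply mul_eq_zero_of_right
  refine Finset.prod_eq_zero (Finset.mem_univ (⟨0, hq.pos⟩ : Fin q)) ?_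
  rw [eval_sub, eval_X, eval_C, coe_lo, sub_eq_zero]
  ext n
  rw [twist_coeff]
  simp

/-- **(P2)** `u₀(t^{q²})` is a root. -/
theorem eval_hi : ((heckePoly hq hM u₀).map (mid M q : FN M →+* FN (M * q * q))).eval
    (hi M q u₀) = 0 := by
  obtain ⟨ζ, hζ⟩ : ∃ ζ : Kbar, IsPrimitiveRoot ζ q :=
    HasEnoughRootsOfUnity.exists_primitiveRoot Kbar q
  rw [eval_map_mid_eq_zero_iff hq hM u₀ _ hζ, prodPoly, eval_mul]
  apply mul_eq_zero_of_left
  rw [eval_sub, eval_X, eval_C, coe_hi, sub_self]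

/-- the shape of `HInput.root₀`, `HInput.root₂`. -/
theorem root_of_eval {y : FN (M * q * q)}
    (h : ((heckePoly hq hM u₀).map (mid M q : FN M →+* FN (M * q * q))).eval y = 0) :
    y ^ (q + 1) + ∑ i ∈ Finset.range (q + 1), mid M q ((heckePoly hq hM u₀).coeff i) * y ^ i = 0 := by
  have hmon := (heckePoly_monic hq hM u₀).map (mid M q : FN M →+* FN (M * q * q))
  have hdeg : ((heckePoly hq hM u₀).map (mid M q : FN M →+* FN (M * q * q))).natDegree = q + 1 := by
    rw [natDegree_map, heckePoly_natDegree]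
  rw [eval_eq_sum_range, hdeg, Finset.sum_range_succ] at h
  have h1 : ((heckePoly hq hM u₀).map (mid M q : FN M →+* FN (M * q * q))).coeff (q + 1) = 1 := by
    rw [← hdeg]; exact hmon.coeff_natDegree
  rw [h1, one_mul, add_comm] at h
  rw [← h]
  congr 1
  exact Finset.sum_congr rfl fun i _ => by rw [coeff_map]; rfl

end Fermat.Agent.S36.Kron
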