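import Fermat.Agent.DR.Conc.Export
import Fermat.Agent.S36R.KS.Main
import Fermat.Agent.S36R.Unit.Table

/-!
# S36 / Kron, file `Iface`: the interface between the two halves of the block KRON

`A` a place of `Kbar` over `q`, `𝕜` its residue field, `M` neat, `q ∤ M`, `R = RMq` the Gauss reduction of `FN M`,
`Eb = Igusa.E 𝕜 M`, `α, β : FN M → FN (M q)` the two degeneracy maps, `R1` the Gauss reduction of `FN (M q)`.

* `gco q x x' rc i` : the coefficients of `(T - x'^q)(T^q - x) + q ∑ rcᵢ Tⁱ` (without the leading one);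
* `KLoc .. e x x' u0 rc` : the output of the first half (Kronecker congruence) at the non cuspidal place `e`;
* `OdeData .. e X X' Hb rb` : its shadow in characteristic `q`, the input of `Ode.lean`.
-/

set_option autoImplicit false
set_option linter.unusedSectionVars false

noncomputable section

namespace Fermat.Agent.S36.Kron

open ModularCurve AlgebraicCurve Fermat.Agent.S24 Fermat.Agent.GAL Fermat.Agent.GAL.Gauss
  Fermat.Agent.GAL.RED Fermat.Agent.DR.Gal Fermat.Agent.DR.Conc Fermat.Agent.S36R.KS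

/-- the coefficient of `Tⁱ` (`i ≤ q`) in `(T - x'^q)(T^q - x) + q ∑ rcᵢ Tⁱ`. -/
def gco {F : Type*} [Field F] (q : ℕ) (x x' : F) (rc : ℕ → F) (i : ℕ) : F :=
  (if i = q then -x' ^ q else 0) + (if i = 1 then -x else 0) + (if i = 0 then x' ^ q * x else 0) +
    (q : F) * rc i

variable (A : ValuationSubring Kbar) (M q : ℕ) [NeZero M] [NeZero q] (hq : q.Prime)
  (hqM : ¬ q ∣ M) (hA : A.LiesOverPrime q)

set_option quotPrecheck false in
local notation "𝕜" => IsLocalRing.ResidueField ↥A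

/-- integral and regular outside the cusps. -/
def IntReg (y : FN M) : Prop := y ∈ (RMq A M q hq hqM hA).O ∧ y ∈ regOff Kbar (jF M)

/-- **The output of the first half of KRON at the place `e`.** -/
def KLoc [Fact q.Prime] [CharP 𝕜 q] [PerfectRing 𝕜 q] (e : Place 𝕜 (Igusa.E 𝕜 M)) (x x' u0 : FN M)
    (rc : ℕ → FN M) : Prop :=
  IntReg A M q hq hqM hA x ∧ IntReg A M q hq hqM hA x' ∧ u0 ∈ (RMq A M q hq hqM hA).O ∧
  (∀ i, IntReg A M q hq hqM hA (rc i)) ∧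
  e.ord ((RMq A M q hq hqM hA).red x') = 1 ∧
  (e.ord ((RMq A M q hq hqM hA).red x) = 1 ∨
    ((RMq A M q hq hqM hA).red x ≠ 0 ∧ e.ord ((RMq A M q hq hqM hA).red x) = 0)) ∧
  (RMq A M q hq hqM hA).red u0 = FrE 𝕜 M q ((RMq A M q hq hqM hA).red x') ∧
  (heckeBetaBar Kbar M q u0) ^ (q + 1) + ∑ i ∈ Finset.range (q + 1),
    heckeAlphaBar Kbar M q (gco q x x' rc i) * (heckeBetaBar Kbar M q u0) ^ i = 0 ∧
  (q : Kbar)⁻¹ • (heckeBetaBar Kbar M q u0 - heckeAlphaBar Kbar M q (x' ^ q)) ∈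
    (R1 A M q hq hqM hA).O

/-- **The shadow of `KLoc` in characteristic `q`.**  `Hb` = reduction of `(u0(t^q) - x'^q)/q`. -/
def OdeData (e : Place 𝕜 (Igusa.E 𝕜 M)) (X X' Hb : Igusa.E 𝕜 M) (rb : ℕ → Igusa.E 𝕜 M) : Prop :=
  X ∈ regOff 𝕜 (Igusa.jb 𝕜 M) ∧ X' ∈ regOff 𝕜 (Igusa.jb 𝕜 M) ∧
  (∀ i, rb i ∈ regOff 𝕜 (Igusa.jb 𝕜 M)) ∧
  e.ord X' = 1 ∧ (e.ord X = 1 ∨ (X ≠ 0 ∧ e.ord X = 0)) ∧
  Hb * (X' ^ (q ^ 2) - X) + ∑ i ∈ Finset.range (q + 1), rb i * X' ^ (q * i) = 0 ∧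
  theta (Hb : LaurentSeries 𝕜) =
    theta (X' : LaurentSeries 𝕜) ^ q - (X' : LaurentSeries 𝕜) ^ (q - 1) * theta (X' : LaurentSeries 𝕜)

end Fermat.Agent.S36.Kron
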