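import Fermat.Agent.S36.Kron.RatSpan
import Fermat.Agent.S36.Kron.RedReg
import Fermat.Agent.DR.Abs.Interp

/-!
# S36/Kron/Unif : rational uniformisers
-/

set_option autoImplicit false
set_option linter.unusedSectionVars false

noncomputable section

namespace Fermat.Agent.S36.Kron

open ModularCurve AlgebraicCurve Fermat.Agent.S24 Fermat.Agent.GAL Fermat.Agent.GAL.Gauss
  Fermat.Agent.GAL.RED Fermat.Agent.DR.Gal Fermat.Agent.DR.Conc Fermat.Agent.S36R Fermat.Agent.Lib.RR

variable (A : ValuationSubring Kbar) (M q : ℕ) [NeZero M] [NeZero q] (hq : q.Prime)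
  (hqM : ¬ q ∣ M) (hA : A.LiesOverPrime q)

/-- zero or of order `≥ 2`. -/
def Unif_Q {k Fb : Type*} [Field k] [Field Fb] [Algebra k Fb] (e : Place k Fb) (x : Fb) : Prop :=
  x = 0 ∨ 2 ≤ e.ord x

theorem Unif_Q_add {k Fb : Type*} [Field k] [Field Fb] [Algebra k Fb] (e : Place k Fb) {x y : Fb}
    (hx : Unif_Q e x) (hy : Unif_Q e y) : Unif_Q e (x + y) := by
  by_cases hxy : x + y = 0
  · exact Or.inl hxy
  rcases hx with rfl | hx
  · rwa [zero_add]
  rcases hy with rfl | hy
  · rw [add_zero]; exact Or.inr hx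
  have hx0 : x ≠ 0 := by
    rintro rfl
    simp at hx
  have hy0 : y ≠ 0 := by
    rintro rfl
    simp at hy
  exact Or.inr (le_trans (le_min hx hy) (Fermat.Agent.S24.ord_add_ge e hxy hx0 hy0))

theorem Unif_Q_smul {k Fb : Type*} [Field k] [Field Fb] [Algebra k Fb] (e : Place k Fb) (c : k)
    {x : Fb} (hx : Unif_Q e x) : Unif_Q e (c • x) := by
  rcases hx with rfl | hx
  · exact Or.inl (smul_zero c)
  by_cases hc : c = 0
  · exact Or.inl (by rw [hc, zero_smul])
  have hx0 : x ≠ 0 := by
    rintro rfl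
    simp at hx
  right
  rw [Algebra.smul_def, e.ord_mul ((_root_.map_ne_zero _).2 hc) hx0,
    Fermat.Agent.S24.ord_algebraMap, zero_add]
  exact hx

/-- **(RC5)** every non cuspidal place `e` has a uniformiser `w̄ - a` with `w` rational and nice.

PROOF.  `DR.Abs.exists_uniformizer` (`DR/Abs/Interp.lean`) : `ū` regular outside the poles of `j̄`, `ord_e ū = 1`.
By (RC4) `ū = ∑ c_i w̄_i` (`Submodule.mem_span_set'` or `Submodule.span_induction`).  Each `w̄_i` is regular at `e`
(it is in `regOff k j̄`: reduction of a nice function, `red_mem_regOff` below).  `a_i := Lib.PlaceEval.ev e w̄_i`.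
Suppose that no `w̄_i - a_i` has order `1`; then all of them are `0` or of order `≥ 2`
(`Lib.PlaceEval.ord_sub_ev_pos`), so `ū - ∑ c_i a_i = ∑ c_i (w̄_i - a_i)` is `0` or of order `≥ 2`; as `ord_e ū = 1 > 0`
the constant `∑ c_i a_i` must vanish (a nonzero constant has order `0`), so `ord_e ū ≥ 2`: contradiction.
(Cleaner: prove by `Submodule.span_induction` the statement
`P v := ∃ a, v = algebraMap a ∨ 2 ≤ e.ord (v - algebraMap a)` under the negation of the conclusion.) -/
theorem exists_rat_unif (hg : GoodRed A M)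
    (e : Place (IsLocalRing.ResidueField ↥A) (Igusa.E (IsLocalRing.ResidueField ↥A) M))
    (he : Igusa.jb (IsLocalRing.ResidueField ↥A) M ∈ e.toValuationSubring) :
    ∃ (w : FN M) (a : IsLocalRing.ResidueField ↥A), Nice A M q hq hqM hA ⊥ w ∧
      e.ord ((RMq A M q hq hqM hA).red w -
        algebraMap (IsLocalRing.ResidueField ↥A) (Igusa.E (IsLocalRing.ResidueField ↥A) M) a) = 1 := by
  have hM := natCast_M_ne_zero A M q hq hqM hA
  have := Igusa.isAlgClosed_residueField A
  have := Igusa.isFF_E (IsLocalRing.ResidueField ↥A) M hM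
  have hx : Igusa.jb (IsLocalRing.ResidueField ↥A) M ∉ Set.range
      (algebraMap (IsLocalRing.ResidueField ↥A) (Igusa.E (IsLocalRing.ResidueField ↥A) M)) := by
    rintro ⟨c, hc⟩
    apply Igusa.transcendental_jb (IsLocalRing.ResidueField ↥A) M
    rw [← hc]
    exact isAlgebraic_algebraMap c
  obtain ⟨t, ht1, htreg⟩ := Fermat.Agent.DR.Abs.exists_uniformizer hx e
    ((Lib.PlaceEval.mem_iff e).1 he)
  have htmem : t ∈ regOff (IsLocalRing.ResidueField ↥A)
      (Igusa.jb (IsLocalRing.ResidueField ↥A) M) := fun P hP =>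
    (Lib.PlaceEval.mem_iff P).2 (htreg P ((Lib.PlaceEval.mem_iff P).1 hP))
  by_contra hcon
  push Not at hcon
  have key : ∀ v ∈ Submodule.span (IsLocalRing.ResidueField ↥A)
      {v | ∃ w : FN M, Nice A M q hq hqM hA ⊥ w ∧ (RMq A M q hq hqM hA).red w = v},
      ∃ a : IsLocalRing.ResidueField ↥A, Unif_Q e (v - algebraMap (IsLocalRing.ResidueField ↥A)
        (Igusa.E (IsLocalRing.ResidueField ↥A) M) a) := by
    intro v hv
    induction hv using Submodule.span_induction with
    | mem v hv =>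
      obtain ⟨w, hw, rfl⟩ := hv
      have h1 := red_mem_regOff A M q hq hqM hA hg w hw.reg hw.int e he
      have h2 := (Lib.PlaceEval.mem_iff e).1 h1
      refine ⟨Lib.PlaceEval.ev e ((RMq A M q hq hqM hA).red w), ?_⟩
      rcases Lib.PlaceEval.ord_sub_ev_pos e h2 with h3 | h3
      · exact Or.inl (sub_eq_zero.2 h3)
      · right
        have h4 := hcon w (Lib.PlaceEval.ev e ((RMq A M q hq hqM hA).red w)) hw
        omega
    | zero => exact ⟨0, Or.inl (by rw [map_zero, sub_zero])⟩
    | add v v' _ _ ih ih' =>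
      obtain ⟨a, ha⟩ := ih
      obtain ⟨a', ha'⟩ := ih'
      refine ⟨a + a', ?_⟩
      have := Unif_Q_add e ha ha'
      rwa [sub_add_sub_comm, ← map_add] at this
    | smul c v _ ih =>
      obtain ⟨a, ha⟩ := ih
      refine ⟨c * a, ?_⟩
      have := Unif_Q_smul e c ha
      rwa [smul_sub, Algebra.smul_def c (algebraMap _ _ a), ← map_mul] at this
  obtain ⟨a, ha⟩ := key t (exists_rat_span A M q hq hqM hA hg t htmem)
  have ht0 : 0 ≤ e.ord t := by omega
  have hev : Lib.PlaceEval.ev e t = a := by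
    rw [Lib.PlaceEval.ev_eq_iff e ht0]
    rcases ha with h | h
    · exact Or.inl (sub_eq_zero.1 h)
    · right; omega
  have hev0 : Lib.PlaceEval.ev e t = 0 := Lib.PlaceEval.ev_eq_zero_of_pos e (by omega)
  rw [hev0] at hev
  rw [← hev, map_zero, sub_zero] at ha
  rcases ha with h | h
  · rw [h, e.ord_zero] at ht1
    omega
  · omega

end Fermat.Agent.S36.Kron
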