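import Fermat.Agent.S36.Kron.KMain
import Fermat.Agent.S36.Kron.Unif
import Fermat.Agent.S36.Kron.FrRat

/-!
# S36/Kron/KAll : `KLoc` at every non cuspidal place (rational coordinate route)

`w` a rational nice function with `ord_e (w̄ - a) = 1` (`exists_rat_unif`), `c ∈ A ∩ K0` a lift of `a`;
`x' = w - c`, `u0 = w - c^q`, `x = w - c^(q²)`.
-/

set_option autoImplicit false
set_option linter.unusedSectionVars false

noncomputable section

namespace Fermat.Agent.S36.Kron

open Polynomial AlgebraicCurve ModularCurve Fermat.Agent.S24 Fermat.Agent.GAL Fermat.Agent.GAL.RED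
  Fermat.Agent.GAL.Gauss Fermat.Agent.DR.Conc Fermat.Agent.DR.Gal Fermat.Agent.S36R
  Fermat.Agent.S36.StepA Fermat.Agent.S36R.NormC Fermat.Agent.GAL.NormFormula

variable (A : ValuationSubring Kbar) (M q : ℕ) [NeZero M] [NeZero q] (hq : q.Prime)
  (hqM : ¬ q ∣ M) (hA : A.LiesOverPrime q)

variable [Fact q.Prime] [CharP (IsLocalRing.ResidueField ↥A) q]
  [PerfectRing (IsLocalRing.ResidueField ↥A) q]

/-- **(KR3) for an arbitrary Kronecker triple.** -/
theorem kAll_of_triple
    (e : Place (IsLocalRing.ResidueField ↥A) (Igusa.E (IsLocalRing.ResidueField ↥A) M))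
    {x x' u0 : FN M} {s' : LaurentSeries (IsLocalRing.ResidueField ↥A)}
    (fx : x ∈ Set.range (bc0 A M)) (hfx : x' ∈ Set.range (bc0 A M)) (fu : u0 ∈ Set.range (bc0 A M))
    (gx : x ∈ regOff Kbar (jF M)) (hreg : x' ∈ regOff Kbar (jF M)) (gu : u0 ∈ regOff Kbar (jF M))
    (r' : Red A (x' : LaurentSeries Kbar) s')
    (ru : Red A (u0 : LaurentSeries Kbar) (coeffMap (frobenius _ q) s'))
    (rx : Red A (x : LaurentSeries Kbar) (coeffMap (frobenius _ q) (coeffMap (frobenius _ q) s')))
    (hord' : e.ord ((RK A M q hq hqM hA).red x') = 1)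
    (halt : e.ord ((RK A M q hq hqM hA).red x) = 1 ∨
      ((RK A M q hq hqM hA).red x ≠ 0 ∧ e.ord ((RK A M q hq hqM hA).red x) = 0)) :
    ∃ rc, KLoc A M q hq hqM hA e x x' u0 rc ∧
      (e.ord ((RK A M q hq hqM hA).red x) = 1 → KOut A M q hq hqM hA e x x' u0 rc) := by
  have hs' : (((RK A M q hq hqM hA).red x' : Igusa.E (IsLocalRing.ResidueField ↥A) M) :
      LaurentSeries (IsLocalRing.ResidueField ↥A)) = s' :=
    (coe_RM_red A M _ x' r'.1).trans r'.2
  have red_u0 : (RK A M q hq hqM hA).red u0 =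
      FrE (IsLocalRing.ResidueField ↥A) M q ((RK A M q hq hqM hA).red x') := by
    apply RK_red_eq A M q hq hqM hA
    rw [coe_FrE, hs']
    exact ru
  have red_x : (RK A M q hq hqM hA).red x =
      FrE (IsLocalRing.ResidueField ↥A) M q ((RK A M q hq hqM hA).red u0) := by
    rw [red_u0]
    apply RK_red_eq A M q hq hqM hA
    rw [coe_FrE, coe_FrE, hs']
    exact rx
  -- the differences
  have hd : ∀ i, i ≤ q → ((heckePoly hq hqM u0).coeff i - gco0 q x x' i ∈ Set.range (bc0 A M)) ∧
      Red A (((heckePoly hq hqM u0).coeff i - gco0 q x x' i : FN M) : LaurentSeries Kbar) 0 := by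
    intro i hi
    refine ⟨?_, red_coeff_sub hq hqM hA r' ru rx hi⟩
    have h1 : (heckePoly hq hqM u0).coeff i ∈ (bc0 A M).range :=
      coeff_heckePoly_mem_range_bc0 hq hqM u0 A fu i
    have h2 : gco0 q x x' i ∈ (bc0 A M).range := gco0_mem q (bc0 A M).range fx hfx i
    exact (bc0 A M).range.sub_mem h1 h2
  have hq0 : (q : Kbar) ≠ 0 := by exact_mod_cast hq.ne_zero
  refine ⟨fun i => if i ≤ q then (q : Kbar)⁻¹ • ((heckePoly hq hqM u0).coeff i - gco0 q x x' i)
    else 0, ?_⟩
  have hcoeff : ∀ i, i ≤ q → (heckePoly hq hqM u0).coeff i = gco q x x'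
      (fun i => if i ≤ q then (q : Kbar)⁻¹ • ((heckePoly hq hqM u0).coeff i - gco0 q x x' i)
        else 0) i := by
    intro i hi
    rw [gco_eq]
    simp only [if_pos hi]
    rw [Algebra.smul_def, map_inv₀, map_natCast, mul_inv_cancel_left₀ (by exact_mod_cast hq.ne_zero)]
    ring
  have rc_fix : ∀ i, (if i ≤ q then (q : Kbar)⁻¹ • ((heckePoly hq hqM u0).coeff i - gco0 q x x' i)
      else 0) ∈ Set.range (bc0 A M) := by
    intro i
    by_cases hi : i ≤ q
    · simp only [if_pos hi]
      exact (inv_smul_props A q hq hA (hd i hi).1 (hd i hi).2).1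
    · simp only [if_neg hi]
      exact ⟨0, map_zero _⟩
  have rc_g : ∀ i, (((if i ≤ q then (q : Kbar)⁻¹ • ((heckePoly hq hqM u0).coeff i - gco0 q x x' i)
      else 0 : FN M)) : LaurentSeries Kbar) ∈ gRing A := by
    intro i
    by_cases hi : i ≤ q
    · simp only [if_pos hi]
      exact (inv_smul_props A q hq hA (hd i hi).1 (hd i hi).2).2
    · simp only [if_neg hi]
      exact (gRing A).zero_mem
  have rc_reg : ∀ i, (if i ≤ q then (q : Kbar)⁻¹ • ((heckePoly hq hqM u0).coeff i - gco0 q x x' i)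
      else 0) ∈ regOff Kbar (jF M) := by
    intro i
    by_cases hi : i ≤ q
    · simp only [if_pos hi]
      exact Subalgebra.smul_mem _ (sub_mem (coeff_heckePoly_mem_regOff hq hqM u0 gu i)
        (gco0_mem q (regOff Kbar (jF M)).toSubring gx hreg i)) _
    · simp only [if_neg hi]
      exact zero_mem _
  have root : (heckeBetaBar Kbar M q u0) ^ (q + 1) + ∑ i ∈ Finset.range (q + 1),
      heckeAlphaBar Kbar M q (gco q x x'
        (fun i => if i ≤ q then (q : Kbar)⁻¹ • ((heckePoly hq hqM u0).coeff i - gco0 q x x' i)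
          else 0) i) * (heckeBetaBar Kbar M q u0) ^ i = 0 := by
    have h := root_alpha_beta hq hqM u0
    rw [← h]
    congr 1
    refine Finset.sum_congr rfl fun i hi => ?_
    rw [hcoeff i (Nat.lt_succ_iff.1 (Finset.mem_range.1 hi))]
  have div : (((q : Kbar)⁻¹ • (heckeBetaBar Kbar M q u0 - heckeAlphaBar Kbar M q (x' ^ q)) :
      FN (M * q)) : LaurentSeries Kbar) ∈ Gauss.gRing A := by
    have hcoe : ((heckeBetaBar Kbar M q u0 - heckeAlphaBar Kbar M q (x' ^ q) : FN (M * q)) :
        LaurentSeries Kbar) = qExpand Kbar q (u0 : LaurentSeries Kbar) -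
          (x' : LaurentSeries Kbar) ^ q := by
      show ((heckeBetaBar Kbar M q u0 : FN (M * q)) : LaurentSeries Kbar) -
        ((heckeAlphaBar Kbar M q (x' ^ q) : FN (M * q)) : LaurentSeries Kbar) = _
      rw [coe_heckeBetaBar, coe_heckeAlphaBar]
      rfl
    have hfixy : heckeBetaBar Kbar M q u0 - heckeAlphaBar Kbar M q (x' ^ q) ∈
        Set.range (bc0 A (M * q)) := by
      rw [mem_range_bc0_iff]
      intro τ hτ
      apply Subtype.ext
      rw [coe_arithmeticGalois_smul, hcoe, map_sub, map_pow, AL_coeffMap_qExpand]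
      have h1 := congrArg Subtype.val (((mem_range_bc0_iff A M u0).1 fu) τ hτ)
      have h2 := congrArg Subtype.val (((mem_range_bc0_iff A M x').1 hfx) τ hτ)
      rw [coe_arithmeticGalois_smul] at h1 h2
      rw [h1, h2]
    have hred : Red A ((heckeBetaBar Kbar M q u0 - heckeAlphaBar Kbar M q (x' ^ q) : FN (M * q)) :
        LaurentSeries Kbar) 0 := by
      rw [hcoe]
      have h1 := kred_sub (ru.qExpand q) (r'.pow q)
      rwa [Hecke.pow_char_eq_qExpand _ q s', sub_self] at h1
    exact (inv_smul_props A q hq hA hfixy hred).2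
  refine ⟨⟨⟨(mem_RM_O_iff A M _ x).2 rx.1, gx⟩, ⟨(mem_RM_O_iff A M _ x').2 r'.1, hreg⟩,
    (mem_RM_O_iff A M _ u0).2 ru.1, fun i => ⟨(mem_RM_O_iff A M _ _).2 (rc_g i), rc_reg i⟩, hord',
    halt, red_u0, root, (mem_R1_O_iff A M q hq hqM hA _).2 div⟩, fun hord => ?_⟩
  exact
    { x_fix := fx, x'_fix := hfx, u0_fix := fu, rc_fix := rc_fix, x_g := rx.1, x'_g := r'.1,
      u0_g := ru.1, rc_g := rc_g, x_reg := gx, x'_reg := hreg, u0_reg := gu, rc_reg := rc_reg,
      ord_x := hord, ord_x' := hord', red_u0 := red_u0, red_x := red_x, coeff := hcoeff,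
      root := root, div := div }

omit [NeZero M] [Fact q.Prime] [CharP (IsLocalRing.ResidueField ↥A) q]
  [PerfectRing (IsLocalRing.ResidueField ↥A) q] in
/-- coefficients in `K0 A` ⟹ in the range of `bc0`. -/
theorem mem_range_bc0_of_coeffIn {y : FN M} (hy : CoeffIn (K0 A) (y : LaurentSeries Kbar)) :
    y ∈ Set.range (bc0 A M) := by
  rw [mem_range_bc0_iff]
  intro τ hτ
  apply Subtype.ext
  rw [coe_arithmeticGalois_smul]
  exact (coeffIn_K0_iff A _).1 hy τ hτ

/-- the reduction of `w - c`. -/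
theorem red_sub_const {w : FN M} {t : LaurentSeries (IsLocalRing.ResidueField ↥A)}
    (hw : Red A (w : LaurentSeries Kbar) t) {c : Kbar} (hc : c ∈ A) :
    Red A ((w - algebraMap Kbar (FN M) c : FN M) : LaurentSeries Kbar)
      (t - HahnSeries.C (IsLocalRing.residue ↥A ⟨c, hc⟩)) := by
  have h : ((w - algebraMap Kbar (FN M) c : FN M) : LaurentSeries Kbar) =
      (w : LaurentSeries Kbar) - HahnSeries.C c := by
    show (w : LaurentSeries Kbar) - ((algebraMap Kbar (FN M) c : FN M) : LaurentSeries Kbar) = _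
    rw [DR.Conc.coe_algebraMap_FN]
  rw [h]
  exact kred_sub hw (red_C hc)

/-- **`KLoc` at every non cuspidal place, and `KOut` as soon as `ord_e x̄ = 1`.** -/
theorem exists_kAll (hg : GoodRed A M)
    (e : Place (IsLocalRing.ResidueField ↥A) (Igusa.E (IsLocalRing.ResidueField ↥A) M))
    (he : Igusa.jb (IsLocalRing.ResidueField ↥A) M ∈ e.toValuationSubring) :
    ∃ x x' u0 rc, KLoc A M q hq hqM hA e x x' u0 rc ∧
      (e.ord ((RK A M q hq hqM hA).red x) = 1 → KOut A M q hq hqM hA e x x' u0 rc) := by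
  obtain ⟨w, a, hw, hord⟩ := exists_rat_unif A M q hq hqM hA hg e he
  obtain ⟨c1, hc1⟩ := IsLocalRing.residue_surjective (R := ↥A) a
  obtain ⟨c, hcK, hcA, hcc⟩ := K0L.exists_rep' A hq hA c1.2
  have hca : IsLocalRing.residue ↥A ⟨c, hcA⟩ = a := by
    rw [← hc1, eq_comm, ← sub_eq_zero, ← map_sub, IsLocalRing.residue_eq_zero_iff]
    obtain ⟨h1, h2⟩ := (A.mem_nonunits_iff_exists_mem_maximalIdeal).1 hcc
    exact h2
  have hM := natCast_M_ne_zero A M q hq hqM hA
  have := Igusa.isAlgClosed_residueField A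
  have := Igusa.isFF_E (IsLocalRing.ResidueField ↥A) M hM
  set t : LaurentSeries (IsLocalRing.ResidueField ↥A) :=
    (((RK A M q hq hqM hA).red w : Igusa.E (IsLocalRing.ResidueField ↥A) M) :
      LaurentSeries (IsLocalRing.ResidueField ↥A)) with ht
  have hwR : Red A (w : LaurentSeries Kbar) t :=
    red_coe_RK A M q hq hqM hA ((mem_RM_O_iff A M _ w).1 hw.int)
  have hfr : coeffMap (frobenius (IsLocalRing.ResidueField ↥A) q) t = t :=
    congrArg Subtype.val (FrE_red_of_rat A M q hq hqM hA w hw.coeff hw.int)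
  have hfrC : ∀ b : IsLocalRing.ResidueField ↥A,
      coeffMap (frobenius (IsLocalRing.ResidueField ↥A) q) (t - HahnSeries.C b) =
        t - HahnSeries.C (b ^ q) := by
    intro b
    rw [map_sub, hfr, HahnSeries.C_apply, coeffMap_single, frobenius_def, HahnSeries.C_apply]
  have hcq : c ^ q ∈ A := pow_mem hcA q
  have hcqq : (c ^ q) ^ q ∈ A := pow_mem hcq q
  have hres1 : IsLocalRing.residue ↥A ⟨c ^ q, hcq⟩ = a ^ q := by
    rw [← hca, ← map_pow]
    rfl
  have hres2 : IsLocalRing.residue ↥A ⟨(c ^ q) ^ q, hcqq⟩ = (a ^ q) ^ q := by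
    rw [← hres1, ← map_pow]
    rfl
  have hcK' : c ∈ K0 A := hcK
  have n' : Nice A M q hq hqM hA (K0 A) (w - algebraMap Kbar (FN M) c) :=
    (hw.mono bot_le).sub (Nice.const hcK' hcA)
  have nu : Nice A M q hq hqM hA (K0 A) (w - algebraMap Kbar (FN M) (c ^ q)) :=
    (hw.mono bot_le).sub (Nice.const (pow_mem hcK' q) hcq)
  have nx : Nice A M q hq hqM hA (K0 A) (w - algebraMap Kbar (FN M) ((c ^ q) ^ q)) :=
    (hw.mono bot_le).sub (Nice.const (pow_mem (pow_mem hcK' q) q) hcqq)
  have r' : Red A ((w - algebraMap Kbar (FN M) c : FN M) : LaurentSeries Kbar)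
      (t - HahnSeries.C a) := by
    have := red_sub_const A M hwR hcA
    rwa [hca] at this
  have ru : Red A ((w - algebraMap Kbar (FN M) (c ^ q) : FN M) : LaurentSeries Kbar)
      (coeffMap (frobenius _ q) (t - HahnSeries.C a)) := by
    have := red_sub_const A M hwR hcq
    rwa [hres1, ← hfrC] at this
  have rx : Red A ((w - algebraMap Kbar (FN M) ((c ^ q) ^ q) : FN M) : LaurentSeries Kbar)
      (coeffMap (frobenius _ q) (coeffMap (frobenius _ q) (t - HahnSeries.C a))) := by
    have := red_sub_const A M hwR hcqq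
    rwa [hres2, ← hfrC, ← hfrC] at this
  have hcoeC : ∀ b : IsLocalRing.ResidueField ↥A,
      (((RK A M q hq hqM hA).red w - algebraMap (IsLocalRing.ResidueField ↥A)
        (Igusa.E (IsLocalRing.ResidueField ↥A) M) b : Igusa.E (IsLocalRing.ResidueField ↥A) M) :
        LaurentSeries (IsLocalRing.ResidueField ↥A)) = t - HahnSeries.C b := by
    intro b
    show t - ((algebraMap (IsLocalRing.ResidueField ↥A)
      (Igusa.E (IsLocalRing.ResidueField ↥A) M) b : Igusa.E (IsLocalRing.ResidueField ↥A) M) :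
        LaurentSeries (IsLocalRing.ResidueField ↥A)) = _
    rw [IntermediateField.coe_algebraMap_apply, KS.algebraMap_eq_C]
  have e' : (RK A M q hq hqM hA).red (w - algebraMap Kbar (FN M) c) =
      (RK A M q hq hqM hA).red w - algebraMap (IsLocalRing.ResidueField ↥A)
        (Igusa.E (IsLocalRing.ResidueField ↥A) M) a := by
    apply RK_red_eq A M q hq hqM hA
    rw [hcoeC]
    exact r'
  have ex : (RK A M q hq hqM hA).red (w - algebraMap Kbar (FN M) ((c ^ q) ^ q)) =
      (RK A M q hq hqM hA).red w - algebraMap (IsLocalRing.ResidueField ↥A)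
        (Igusa.E (IsLocalRing.ResidueField ↥A) M) ((a ^ q) ^ q) := by
    apply RK_red_eq A M q hq hqM hA
    rw [hcoeC, ← hfrC, ← hfrC]
    exact rx
  have hord' : e.ord ((RK A M q hq hqM hA).red (w - algebraMap Kbar (FN M) c)) = 1 := by
    rw [e']
    exact hord
  have halt : e.ord ((RK A M q hq hqM hA).red (w - algebraMap Kbar (FN M) ((c ^ q) ^ q))) = 1 ∨
      ((RK A M q hq hqM hA).red (w - algebraMap Kbar (FN M) ((c ^ q) ^ q)) ≠ 0 ∧
        e.ord ((RK A M q hq hqM hA).red (w - algebraMap Kbar (FN M) ((c ^ q) ^ q))) = 0) := by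
    rw [ex]
    by_cases hb : (a ^ q) ^ q = a
    · left
      rw [hb]
      exact hord
    · right
      set π := (RK A M q hq hqM hA).red w - algebraMap (IsLocalRing.ResidueField ↥A)
        (Igusa.E (IsLocalRing.ResidueField ↥A) M) a with hπ
      have hb' : a - (a ^ q) ^ q ≠ 0 := fun h => hb (sub_eq_zero.1 h).symm
      have hsplit : (RK A M q hq hqM hA).red w - algebraMap (IsLocalRing.ResidueField ↥A)
          (Igusa.E (IsLocalRing.ResidueField ↥A) M) ((a ^ q) ^ q) =
          algebraMap (IsLocalRing.ResidueField ↥A) (Igusa.E (IsLocalRing.ResidueField ↥A) M)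
            (a - (a ^ q) ^ q) + π := by
        rw [hπ, map_sub]
        ring
      have hc0 : algebraMap (IsLocalRing.ResidueField ↥A) (Igusa.E (IsLocalRing.ResidueField ↥A) M)
          (a - (a ^ q) ^ q) ≠ 0 := (_root_.map_ne_zero _).2 hb'
      have hπ0 : π ≠ 0 := by
        intro h0
        rw [h0, Place.ord_zero] at hord
        exact zero_ne_one hord
      have hordx : e.ord (algebraMap (IsLocalRing.ResidueField ↥A)
          (Igusa.E (IsLocalRing.ResidueField ↥A) M) (a - (a ^ q) ^ q) + π) = 0 := by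
        rw [RED.ord_add_eq_of_lt e hc0 hπ0 (by rw [RED.ord_algebraMap, hord]; exact one_pos),
          RED.ord_algebraMap]
      rw [hsplit]
      refine ⟨fun h0 => ?_, hordx⟩
      have h1 : π = - algebraMap (IsLocalRing.ResidueField ↥A)
          (Igusa.E (IsLocalRing.ResidueField ↥A) M) (a - (a ^ q) ^ q) := by
        rw [eq_neg_iff_add_eq_zero, add_comm]
        exact h0
      rw [h1, ← map_neg, RED.ord_algebraMap] at hord
      exact zero_ne_one hord
  obtain ⟨rc, hrc⟩ := kAll_of_triple A M q hq hqM hA e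
    (mem_range_bc0_of_coeffIn A M nx.coeff) (mem_range_bc0_of_coeffIn A M n'.coeff)
    (mem_range_bc0_of_coeffIn A M nu.coeff) nx.reg n'.reg nu.reg r' ru rx hord' halt
  exact ⟨_, _, _, rc, hrc⟩

end Fermat.Agent.S36.Kron
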