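import Fermat.Agent.S36.Kron.KOut
import Fermat.Agent.S36.Kron.HeckePolyInt
import Fermat.Agent.S36R.NormC.Series

/-!
# S36/Kron/KCong (KR3): the Kronecker congruence, by reduction + FACT D

`u0 : FN M` Gauss integral with reduction `ū0`.  The coefficients of the Hecke polynomial of `u0` are Gauss
integral, and its reduction is `(T - ū0(t^q)) (T^q - Fr ū0)`, read through `f ↦ f(t^q)`.
-/

set_option autoImplicit false

noncomputable section

namespace Fermat.Agent.S36.Kron

open Polynomial AlgebraicCurve ModularCurve Fermat.Agent.S24 Fermat.Agent.GAL Fermat.Agent.GAL.RED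
  Fermat.Agent.GAL.Gauss Fermat.Agent.DR.Conc Fermat.Agent.DR.Gal Fermat.Agent.S36R
  Fermat.Agent.S36.StepA Fermat.Agent.S36R.NormC

/-! ### a coefficient formula -/

theorem coeff_kron {S : Type*} [CommRing S] (a b : S) {q : ℕ} (hq : 2 ≤ q) {i : ℕ} (hi : i ≤ q) :
    ((X - C a) * (X ^ q - C b)).coeff i =
      (if i = q then -a else 0) + (if i = 1 then -b else 0) + (if i = 0 then a * b else 0) := by
  have e : (X - C a) * (X ^ q - C b) = X ^ (q + 1) - C b * X - C a * X ^ q + C (a * b) := by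
    rw [C_mul, pow_succ]; ring
  rw [e, coeff_add, coeff_sub, coeff_sub, coeff_X_pow, coeff_C_mul_X_pow, coeff_C_mul, coeff_X,
    coeff_C, if_neg (by omega : ¬ i = q + 1)]
  by_cases h0 : i = 0
  · subst h0
    have h1 : ¬ (0 = q) := by omega
    simp [h1]
  by_cases h1 : i = 1
  · subst h1
    have h2 : ¬ (1 = q) := by omega
    simp [h2]
  by_cases h2 : i = q
  · subst h2
    have h3 : ¬ (1 = i) := fun h => h1 h.symm
    simp [h0, h1, h3]
  · have h3 : ¬ (1 = i) := fun h => h1 h.symm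
    simp [h0, h1, h2, h3]

variable {A : ValuationSubring Kbar}

/-! ### reduction of polynomials -/

variable (A) in
/-- coefficientwise Gauss reduction of polynomials. -/
def RedP (P : (LaurentSeries Kbar)[X]) (Pb : (LaurentSeries (IsLocalRing.ResidueField ↥A))[X]) :
    Prop :=
  ∃ Q : (↥(gRing A))[X], Q.map (gRing A).subtype = P ∧ Q.map (gRes A) = Pb

theorem RedP.mul {P P' : (LaurentSeries Kbar)[X]}
    {Pb Pb' : (LaurentSeries (IsLocalRing.ResidueField ↥A))[X]} (h : RedP A P Pb)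
    (h' : RedP A P' Pb') : RedP A (P * P') (Pb * Pb') := by
  obtain ⟨Q, rfl, rfl⟩ := h
  obtain ⟨Q', rfl, rfl⟩ := h'
  exact ⟨Q * Q', Polynomial.map_mul _, Polynomial.map_mul _⟩

theorem RedP.one : RedP A 1 1 := ⟨1, Polynomial.map_one _, Polynomial.map_one _⟩

theorem RedP.prod {ι : Type*} (S : Finset ι) (P : ι → (LaurentSeries Kbar)[X])
    (Pb : ι → (LaurentSeries (IsLocalRing.ResidueField ↥A))[X]) (h : ∀ i ∈ S, RedP A (P i) (Pb i)) :
    RedP A (∏ i ∈ S, P i) (∏ i ∈ S, Pb i) := by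
  classical
  induction S using Finset.induction_on with
  | empty => rw [Finset.prod_empty, Finset.prod_empty]; exact RedP.one
  | insert a S ha ih =>
    rw [Finset.prod_insert ha, Finset.prod_insert ha]
    exact (h a (Finset.mem_insert_self a S)).mul
      (ih fun i hi => h i (Finset.mem_insert_of_mem hi))

theorem redP_X_sub_C {s : LaurentSeries Kbar} {r : LaurentSeries (IsLocalRing.ResidueField ↥A)}
    (h : Red A s r) : RedP A (X - C s) (X - C r) := by
  obtain ⟨h', rfl⟩ := h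
  refine ⟨X - C ⟨s, h'⟩, ?_, ?_⟩
  · rw [Polynomial.map_sub, map_X, map_C]; rfl
  · rw [Polynomial.map_sub, map_X, map_C]

theorem RedP.coeff {P : (LaurentSeries Kbar)[X]}
    {Pb : (LaurentSeries (IsLocalRing.ResidueField ↥A))[X]} (h : RedP A P Pb) (n : ℕ) :
    Red A (P.coeff n) (Pb.coeff n) := by
  obtain ⟨Q, rfl, rfl⟩ := h
  rw [coeff_map, coeff_map]
  exact ⟨(Q.coeff n).2, rfl⟩

variable {q : ℕ} [NeZero q]

/-- the reduction of `prodPoly`. -/
theorem redP_prodPoly (hq : q.Prime) (hA : A.LiesOverPrime q) {s : LaurentSeries Kbar}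
    {r : LaurentSeries (IsLocalRing.ResidueField ↥A)} (h : Red A s r) {ζ : Kbar} (hζ : ζ ^ q = 1)
    (hζ0 : ζ ≠ 0) :
    RedP A (prodPoly q ζ hζ0 s) ((X - C (qExpand _ (q * q) r)) * (X - C r) ^ q) := by
  refine (redP_X_sub_C (h.qExpand (q * q))).mul ?_
  have h1 := RedP.prod (A := A) Finset.univ
    (fun i : Fin q => (X - C (Fermat.Agent.S24.twist (ζ ^ (i : ℕ)) (pow_ne_zero _ hζ0) s)))
    (fun _ => X - C r) (fun i _ => redP_X_sub_C (red_twist hq hA h
      (by rw [← pow_mul, mul_comm, pow_mul, hζ, one_pow]) _))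
  rwa [Finset.prod_const, Finset.card_univ, Fintype.card_fin] at h1

/-! ### FACT D, series form, any level -/

/-- an `I`-fixed modular function (any level) with zero Gauss reduction is divisible by `q`. -/
theorem C_inv_mul_mem_gRing (hq : q.Prime) (hA : A.LiesOverPrime q) (N : ℕ) (y : FF (K0 A) N)
    (h : Red A ((bc0 A N y : FF Kbar N) : LaurentSeries Kbar) 0) :
    HahnSeries.C ((q : Kbar)⁻¹) * ((bc0 A N y : FF Kbar N) : LaurentSeries Kbar) ∈ gRing A := by
  by_cases hy : y = 0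
  · rw [hy, map_zero]
    show HahnSeries.C ((q : Kbar)⁻¹) * (0 : LaurentSeries Kbar) ∈ gRing A
    rw [mul_zero]; exact (gRing A).zero_mem
  obtain ⟨n, hn, hr⟩ := gauss_K0 hq hA N y hy
  have hq0 : (q : Kbar) ≠ 0 := by exact_mod_cast hq.ne_zero
  have hqA : (q : Kbar) ∈ A := natCast_mem _ q
  have hn1 : n ≤ -1 := by
    by_contra hlt
    push Not at hlt
    obtain ⟨t, ht⟩ := Int.eq_ofNat_of_zero_le (by omega : 0 ≤ n)
    apply hr
    have h1 := (red_C (A := A) (pow_mem hqA t)).mul h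
    rw [mul_zero] at h1
    have h2 : Red A (HahnSeries.C ((q : Kbar) ^ n) *
        ((bc0 A N y : FF Kbar N) : LaurentSeries Kbar)) _ := ⟨hn, rfl⟩
    rw [← zpow_natCast, ← ht] at h1
    exact h2.unique h1
  obtain ⟨t, ht⟩ := Int.eq_ofNat_of_zero_le (by omega : 0 ≤ -1 - n)
  have e : HahnSeries.C ((q : Kbar)⁻¹) * ((bc0 A N y : FF Kbar N) : LaurentSeries Kbar)
      = HahnSeries.C ((q : Kbar) ^ t) * (HahnSeries.C ((q : Kbar) ^ n) *
        ((bc0 A N y : FF Kbar N) : LaurentSeries Kbar)) := by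
    rw [← mul_assoc, ← map_mul, ← zpow_natCast, ← ht, ← zpow_add₀ hq0]
    congr 2
    rw [← zpow_neg_one]
    congr 1
    ring
  rw [e]
  exact (gRing A).mul_mem ((C_mem_gRing_iff A _).2 (pow_mem hqA t)) hn

end Fermat.Agent.S36.Kron
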