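import Fermat.Agent.S36.Kron.KCong

/-!
# S36/Kron/KCong2 (KR3): the Kronecker congruence at level `M`

`x, x', u0 : FN M` fixed by inertia, Gauss integral, regular outside the cusps, `ū0 = Fr x̄'`, `x̄ = Fr ū0`.
Then the Hecke polynomial of `u0` is `(T - x'^q)(T^q - x) + q ∑ rc i T^i`, `rc i` of the same kind.
-/

set_option autoImplicit false

noncomputable section

namespace Fermat.Agent.S36.Kron

open Polynomial AlgebraicCurve ModularCurve Fermat.Agent.S24 Fermat.Agent.GAL Fermat.Agent.GAL.RED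
  Fermat.Agent.GAL.Gauss Fermat.Agent.DR.Conc Fermat.Agent.DR.Gal Fermat.Agent.S36R
  Fermat.Agent.S36.StepA Fermat.Agent.S36R.NormC Fermat.Agent.GAL.NormFormula

variable {A : ValuationSubring Kbar}

theorem kred_sub {s t : LaurentSeries Kbar} {r r' : LaurentSeries (IsLocalRing.ResidueField ↥A)}
    (hs : Red A s r) (ht : Red A t r') : Red A (s - t) (r - r') := by
  obtain ⟨h, rfl⟩ := hs
  obtain ⟨h', rfl⟩ := ht
  refine ⟨sub_mem h h', ?_⟩
  rw [← map_sub]
  exact congrArg _ (Subtype.ext rfl)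

theorem kred_of_qExpand (d : ℕ) [NeZero d] {s : LaurentSeries Kbar}
    {r : LaurentSeries (IsLocalRing.ResidueField ↥A)}
    (h : Red A (qExpand Kbar d s) (qExpand _ d r)) : Red A s r := by
  have h1 : s ∈ gRing A := mem_gRing_of_qExpand A d h.1
  refine ⟨h1, ?_⟩
  have h2 : Red A (qExpand Kbar d s) (qExpand _ d (gRes A ⟨s, h1⟩)) := Red.qExpand ⟨h1, rfl⟩ d
  exact qExpand_injective (R := IsLocalRing.ResidueField ↥A) (N := d) (h2.unique h)

theorem redP_X_pow_sub_C {s : LaurentSeries Kbar}
    {r : LaurentSeries (IsLocalRing.ResidueField ↥A)} (h : Red A s r) (n : ℕ) :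
    RedP A (X ^ n - C s) (X ^ n - C r) := by
  obtain ⟨h', rfl⟩ := h
  refine ⟨X ^ n - C ⟨s, h'⟩, ?_, ?_⟩
  · rw [Polynomial.map_sub, Polynomial.map_pow, map_X, map_C]; rfl
  · rw [Polynomial.map_sub, Polynomial.map_pow, map_X, map_C]

variable {q : ℕ} [NeZero q]

/-- the identity of polynomials in characteristic `q`. -/
theorem char_identity (k : Type*) [Field k] [Fact q.Prime] [CharP k q] (s' : LaurentSeries k) :
    (X - C (qExpand k (q * q) (coeffMap (frobenius k q) s'))) *
        (X - C (coeffMap (frobenius k q) s')) ^ q =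
      ((X - C (s' ^ q)) * (X ^ q - C (coeffMap (frobenius k q) (coeffMap (frobenius k q) s')))).map
        (qExpand k q) := by
  have : CharP (LaurentSeries k) q :=
    charP_of_injective_algebraMap (algebraMap k (LaurentSeries k)).injective q
  rw [Polynomial.map_mul, Polynomial.map_sub, Polynomial.map_sub, Polynomial.map_pow, map_X, map_C,
    map_C, sub_pow_char, ← C_pow, Hecke.pow_char_eq_qExpand k q (coeffMap (frobenius k q) s'),
    Hecke.pow_char_eq_qExpand k q s', qExpand_qExpand]

/-- the three main coefficients. -/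
def gco0 {M : ℕ} (q : ℕ) (x x' : FN M) (i : ℕ) : FN M :=
  (if i = q then -x' ^ q else 0) + (if i = 1 then -x else 0) + (if i = 0 then x' ^ q * x else 0)

theorem gco_eq {M : ℕ} (q : ℕ) (x x' : FN M) (rc : ℕ → FN M) (i : ℕ) :
    gco q x x' rc i = gco0 q x x' i + (q : FN M) * rc i := rfl

theorem gco0_mem {M : ℕ} (q : ℕ) {x x' : FN M} (S : Subring (FN M)) (hx : x ∈ S) (hx' : x' ∈ S)
    (i : ℕ) : gco0 q x x' i ∈ S := by
  unfold gco0
  refine S.add_mem (S.add_mem ?_ ?_) ?_
  · split_ifs
    · exact S.neg_mem (S.pow_mem hx' q)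
    · exact S.zero_mem
  · split_ifs
    · exact S.neg_mem hx
    · exact S.zero_mem
  · split_ifs
    · exact S.mul_mem (S.pow_mem hx' q) hx
    · exact S.zero_mem

variable {M : ℕ} [NeZero M]

/-- **The congruence, series form**: the `i`-th coefficient of the Hecke polynomial is congruent to the `i`-th
coefficient of `(T - x'^q)(T^q - x)`. -/
theorem red_coeff_sub (hq : q.Prime) (hqM : ¬ q ∣ M) (hA : A.LiesOverPrime q)
    [Fact q.Prime] [CharP (IsLocalRing.ResidueField ↥A) q]
    {x x' u0 : FN M} {s' : LaurentSeries (IsLocalRing.ResidueField ↥A)}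
    (hx' : Red A (x' : LaurentSeries Kbar) s')
    (hu0 : Red A (u0 : LaurentSeries Kbar) (coeffMap (frobenius _ q) s'))
    (hx : Red A (x : LaurentSeries Kbar) (coeffMap (frobenius _ q) (coeffMap (frobenius _ q) s')))
    {i : ℕ} (hi : i ≤ q) :
    Red A ((((heckePoly hq hqM u0).coeff i - gco0 q x x' i : FN M)) : LaurentSeries Kbar) 0 := by
  obtain ⟨ζ, hζ⟩ : ∃ ζ : Kbar, IsPrimitiveRoot ζ q :=
    HasEnoughRootsOfUnity.exists_primitiveRoot Kbar q
  apply kred_of_qExpand q
  rw [map_zero]
  -- the Hecke polynomial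
  have h1 := (redP_prodPoly hq hA hu0 hζ.pow_eq_one (hζ.ne_zero hq.ne_zero)).coeff i
  rw [← heckePoly_map hq hqM u0 hζ, coeff_map, psi_apply, char_identity, coeff_map] at h1
  -- the main term
  have h2 : RedP A ((X - C ((x' : LaurentSeries Kbar) ^ q)) * (X ^ q - C (x : LaurentSeries Kbar)))
      ((X - C (s' ^ q)) * (X ^ q - C (coeffMap (frobenius _ q) (coeffMap (frobenius _ q) s')))) :=
    (redP_X_sub_C (hx'.pow q)).mul (redP_X_pow_sub_C hx q)
  have h3 := (h2.coeff i).qExpand q
  have h4 : ((gco0 q x x' i : FN M) : LaurentSeries Kbar) =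
      ((X - C ((x' : LaurentSeries Kbar) ^ q)) * (X ^ q - C (x : LaurentSeries Kbar))).coeff i := by
    rw [coeff_kron _ _ hq.two_le hi, gco0]
    have hc : ∀ (p : Prop) [Decidable p] (a : FN M),
        (((if p then a else 0 : FN M)) : LaurentSeries Kbar) =
          if p then (a : LaurentSeries Kbar) else 0 := by
      intro p _ a
      split_ifs <;> rfl
    show (((if i = q then -x' ^ q else 0 : FN M)) : LaurentSeries Kbar) +
      (((if i = 1 then -x else 0 : FN M)) : LaurentSeries Kbar) +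
      (((if i = 0 then x' ^ q * x else 0 : FN M)) : LaurentSeries Kbar) = _
    rw [hc, hc, hc]
    rfl
  have h5 := kred_sub h1 h3
  rw [sub_self, ← h4, ← map_sub] at h5
  exact h5

end Fermat.Agent.S36.Kron
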