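import Fermat.Agent.S36.Kron.KCong2
import Fermat.Agent.DR.Abs.Interp
import Fermat.Agent.Lib.Frobenius

/-!
# S36/Kron/KMain (KR1 + KR3): `exists_kOut`

For every non cuspidal place `e` of `Igusa.E kk M` with `Fr² e = e` there are `x, x', u0, rc` with `KOut`.
-/

set_option autoImplicit false

noncomputable section

namespace Fermat.Agent.S36.Kron

open Polynomial AlgebraicCurve ModularCurve Fermat.Agent.S24 Fermat.Agent.GAL Fermat.Agent.GAL.RED
  Fermat.Agent.GAL.Gauss Fermat.Agent.DR.Conc Fermat.Agent.DR.Gal Fermat.Agent.S36R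
  Fermat.Agent.S36.StepA Fermat.Agent.S36R.NormC Fermat.Agent.GAL.NormFormula

variable (A : ValuationSubring Kbar) (M q : ℕ) [NeZero M] [NeZero q] (hq : q.Prime)
  (hqM : ¬ q ∣ M) (hA : A.LiesOverPrime q)

/-! ### `Red` and `RK` -/

theorem red_coe_RK {x : FN M} (hx : (x : LaurentSeries Kbar) ∈ gRing A) :
    Red A (x : LaurentSeries Kbar)
      (((RK A M q hq hqM hA).red x : Igusa.E (IsLocalRing.ResidueField ↥A) M) :
        LaurentSeries (IsLocalRing.ResidueField ↥A)) :=
  ⟨hx, (coe_RM_red A M _ x hx).symm⟩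

theorem RK_red_eq {x : FN M} {r : Igusa.E (IsLocalRing.ResidueField ↥A) M}
    (h : Red A (x : LaurentSeries Kbar) (r : LaurentSeries (IsLocalRing.ResidueField ↥A))) :
    (RK A M q hq hqM hA).red x = r :=
  Subtype.ext ((coe_RM_red A M _ x h.1).trans h.2)

/-! ### the decomposition group -/

omit [NeZero M] in
include hq hA in
theorem gal_mem_range_bc0 {σ : Kbar ≃ₐ[ℚ] Kbar} (hσ : σ ∈ A.decompositionSubgroup ℚ) {y : FN M}
    (hy : y ∈ Set.range (bc0 A M)) :
    arithmeticGalois (modularFunctionFieldFull M) σ • y ∈ Set.range (bc0 A M) := by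
  rw [mem_range_bc0_iff] at hy ⊢
  intro τ hτ
  have h1 : σ⁻¹ * τ * σ⁻¹⁻¹ ∈ A.inertiaSubgroupIn ℚ :=
    PT.Local.ine_normal ⟨A, q, hq, hA⟩ ((A.decompositionSubgroup ℚ).inv_mem hσ) hτ
  rw [inv_inv] at h1
  have h2 := hy _ h1
  have h3 : τ * σ = σ * (σ⁻¹ * τ * σ) := by group
  rw [← mul_smul, ← map_mul, h3, map_mul, mul_smul, h2]

omit [NeZero M] in
theorem red_frob {σ : Kbar ≃ₐ[ℚ] Kbar} (hσ : A.IsFrobeniusAt σ q) [Fact q.Prime]
    [CharP (IsLocalRing.ResidueField ↥A) q] {y : FN M}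
    {r : LaurentSeries (IsLocalRing.ResidueField ↥A)} (h : Red A (y : LaurentSeries Kbar) r) :
    Red A ((arithmeticGalois (modularFunctionFieldFull M) σ • y : FN M) : LaurentSeries Kbar)
      (coeffMap (frobenius _ q) r) := by
  have h1 := h.coeffMap ⟨σ, hσ.mem_decompositionSubgroup⟩
  have h2 : coeffMap ((barAut A ⟨σ, hσ.mem_decompositionSubgroup⟩ : _ ≃+* _) : _ →+* _) r =
      coeffMap (frobenius _ q) r := by
    ext n
    exact hσ.smul_residue_eq _
  rw [h2] at h1
  exact h1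

omit [NeZero M] in
theorem gal_mem_gRing {σ : Kbar ≃ₐ[ℚ] Kbar} (hσ : σ ∈ A.decompositionSubgroup ℚ) {y : FN M}
    (h : (y : LaurentSeries Kbar) ∈ gRing A) :
    ((arithmeticGalois (modularFunctionFieldFull M) σ • y : FN M) : LaurentSeries Kbar) ∈ gRing A :=
  (Red.coeffMap (A := A) ⟨h, rfl⟩ ⟨σ, hσ⟩).1

omit [NeZero M] in
theorem coe_smul_FN (N : ℕ) (c : Kbar) (y : FN N) :
    ((c • y : FN N) : LaurentSeries Kbar) = HahnSeries.C c * (y : LaurentSeries Kbar) := by
  rw [Algebra.smul_def, ← algebraMap_eq_C]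
  rfl

omit [NeZero M] in
include hq hA in
/-- division by `q` of an `I`-fixed function with zero reduction. -/
theorem inv_smul_props {N : ℕ} {d : FN N} (hd : d ∈ Set.range (bc0 A N))
    (h0 : Red A (d : LaurentSeries Kbar) 0) :
    ((q : Kbar)⁻¹ • d ∈ Set.range (bc0 A N)) ∧
      (((q : Kbar)⁻¹ • d : FN N) : LaurentSeries Kbar) ∈ gRing A := by
  obtain ⟨y, rfl⟩ := hd
  constructor
  · exact ⟨(⟨(q : Kbar)⁻¹, inv_mem (natCast_mem _ q)⟩ : K0 A) • y,
      (smul_bc0 A N ⟨(q : Kbar)⁻¹, inv_mem (natCast_mem _ q)⟩ y).symm⟩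
  · rw [coe_smul_FN]
    exact C_inv_mul_mem_gRing hq hA N y h0

variable [Fact q.Prime] [CharP (IsLocalRing.ResidueField ↥A) q]
  [PerfectRing (IsLocalRing.ResidueField ↥A) q]

/-- **(KR3)** from `x = sg u0`, `u0 = sg x'`. -/
theorem kOut_of_frob (e : Place (IsLocalRing.ResidueField ↥A) (Igusa.E (IsLocalRing.ResidueField ↥A) M))
    (hfix : e ∈ fixSet (IsLocalRing.ResidueField ↥A) M q)
    {sg : Kbar ≃ₐ[ℚ] Kbar} (hsg : A.IsFrobeniusAt sg q) (x' : FN M)
    (hfx : x' ∈ Set.range (bc0 A M)) (hg : (x' : LaurentSeries Kbar) ∈ gRing A)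
    (hreg : x' ∈ regOff Kbar (jF M))
    (hord : e.ord ((RK A M q hq hqM hA).red (arithmeticGalois (modularFunctionFieldFull M) sg •
      arithmeticGalois (modularFunctionFieldFull M) sg • x')) = 1) :
    ∃ rc, KOut A M q hq hqM hA e
      (arithmeticGalois (modularFunctionFieldFull M) sg •
        arithmeticGalois (modularFunctionFieldFull M) sg • x') x'
      (arithmeticGalois (modularFunctionFieldFull M) sg • x') rc := by
  have hD := hsg.mem_decompositionSubgroup
  set u0 : FN M := arithmeticGalois (modularFunctionFieldFull M) sg • x' with hu0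
  set x : FN M := arithmeticGalois (modularFunctionFieldFull M) sg • u0 with hx
  set s' : LaurentSeries (IsLocalRing.ResidueField ↥A) :=
    (((RK A M q hq hqM hA).red x' : Igusa.E (IsLocalRing.ResidueField ↥A) M) :
      LaurentSeries (IsLocalRing.ResidueField ↥A)) with hs'
  have r' : Red A (x' : LaurentSeries Kbar) s' := red_coe_RK A M q hq hqM hA hg
  have ru : Red A (u0 : LaurentSeries Kbar) (coeffMap (frobenius _ q) s') := red_frob A M q hsg r'
  have rx : Red A (x : LaurentSeries Kbar) (coeffMap (frobenius _ q) (coeffMap (frobenius _ q) s')) :=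
    red_frob A M q hsg ru
  have fu : u0 ∈ Set.range (bc0 A M) := gal_mem_range_bc0 A M q hq hA hD hfx
  have fx : x ∈ Set.range (bc0 A M) := gal_mem_range_bc0 A M q hq hA hD fu
  have gu : u0 ∈ regOff Kbar (jF M) := semilinear_mem_regOff _ (gal_smul_jF M sg) hreg
  have gx : x ∈ regOff Kbar (jF M) := semilinear_mem_regOff _ (gal_smul_jF M sg) gu
  have red_u0 : (RK A M q hq hqM hA).red u0 =
      FrE (IsLocalRing.ResidueField ↥A) M q ((RK A M q hq hqM hA).red x') :=
    RK_red_eq A M q hq hqM hA ru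
  have red_x : (RK A M q hq hqM hA).red x =
      FrE (IsLocalRing.ResidueField ↥A) M q ((RK A M q hq hqM hA).red u0) := by
    rw [red_u0]
    exact RK_red_eq A M q hq hqM hA rx
  -- the differences
  have hd : ∀ i, i ≤ q → ((heckePoly hq hqM u0).coeff i - gco0 q x x' i ∈ Set.range (bc0 A M)) ∧
      Red A (((heckePoly hq hqM u0).coeff i - gco0 q x x' i : FN M) : LaurentSeries Kbar) 0 := by
    intro i hi
    refine ⟨?_, red_coeff_sub hq hqM hA r' ru rx hi⟩
    have h1 : (heckePoly hq hqM u0).coeff i ∈ (bc0 A M).range :=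
      coeff_heckePoly_mem_range_bc0 hq hqM u0 A fu i
    have h2 : gco0 q x x' i ∈ (bc0 A M).range := gco0_mem q (bc0 A M).range fx hfx i
    exact (bc0 A M).range.sub_mem h1 h2
  have hq0 : (q : Kbar) ≠ 0 := by exact_mod_cast hq.ne_zero
  refine ⟨fun i => if i ≤ q then (q : Kbar)⁻¹ • ((heckePoly hq hqM u0).coeff i - gco0 q x x' i)
    else 0, ?_⟩
  have hcoeff : ∀ i, i ≤ q → (heckePoly hq hqM u0).coeff i = gco q x x'
      (fun i => if i ≤ q then (q : Kbar)⁻¹ • ((heckePoly hq hqM u0).coeff i - gco0 q x x' i)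
        else 0) i := by
    intro i hi
    rw [gco_eq]
    simp only [if_pos hi]
    rw [Algebra.smul_def, map_inv₀, map_natCast, mul_inv_cancel_left₀ (by exact_mod_cast hq.ne_zero)]
    ring
  refine
    { x_fix := fx, x'_fix := hfx, u0_fix := fu, rc_fix := ?_, x_g := rx.1, x'_g := hg, u0_g := ru.1,
      rc_g := ?_, x_reg := gx, x'_reg := hreg, u0_reg := gu, rc_reg := ?_, ord_x := hord,
      ord_x' := ?_, red_u0 := red_u0, red_x := red_x, coeff := hcoeff, root := ?_, div := ?_ }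
  · intro i
    by_cases hi : i ≤ q
    · simp only [if_pos hi]
      exact (inv_smul_props A q hq hA (hd i hi).1 (hd i hi).2).1
    · simp only [if_neg hi]
      exact ⟨0, map_zero _⟩
  · intro i
    by_cases hi : i ≤ q
    · simp only [if_pos hi]
      exact (inv_smul_props A q hq hA (hd i hi).1 (hd i hi).2).2
    · simp only [if_neg hi]
      exact (gRing A).zero_mem
  · intro i
    by_cases hi : i ≤ q
    · simp only [if_pos hi]
      exact Subalgebra.smul_mem _ (sub_mem (coeff_heckePoly_mem_regOff hq hqM u0 gu i)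
        (gco0_mem q (regOff Kbar (jF M)).toSubring gx hreg i)) _
    · simp only [if_neg hi]
      exact zero_mem _
  · -- `ord_e x̄' = ord_{Fr² e} x̄ = 1`
    have h1 := SemilinearAut.ord_smul (Fr (IsLocalRing.ResidueField ↥A) M q) e
      ((RK A M q hq hqM hA).red x')
    have h2 := SemilinearAut.ord_smul (Fr (IsLocalRing.ResidueField ↥A) M q)
      (Fr (IsLocalRing.ResidueField ↥A) M q • e)
      (Fr (IsLocalRing.ResidueField ↥A) M q • (RK A M q hq hqM hA).red x')
    rw [(mem_fixSet _ M q e).1 hfix, Fr_smul, Fr_smul, ← red_u0, ← red_x, hord] at h2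
    rw [← h1, Fr_smul, ← red_u0]
    exact h2.symm
  · have h := root_alpha_beta hq hqM u0
    rw [← h]
    congr 1
    refine Finset.sum_congr rfl fun i hi => ?_
    rw [hcoeff i (Nat.lt_succ_iff.1 (Finset.mem_range.1 hi))]
  · -- `β u0 - α x'^q`
    have hcoe : ((heckeBetaBar Kbar M q u0 - heckeAlphaBar Kbar M q (x' ^ q) : FN (M * q)) :
        LaurentSeries Kbar) = qExpand Kbar q (u0 : LaurentSeries Kbar) -
          (x' : LaurentSeries Kbar) ^ q := by
      show ((heckeBetaBar Kbar M q u0 : FN (M * q)) : LaurentSeries Kbar) -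
        ((heckeAlphaBar Kbar M q (x' ^ q) : FN (M * q)) : LaurentSeries Kbar) = _
      rw [coe_heckeBetaBar, coe_heckeAlphaBar]
      rfl
    have hfixy : heckeBetaBar Kbar M q u0 - heckeAlphaBar Kbar M q (x' ^ q) ∈
        Set.range (bc0 A (M * q)) := by
      rw [mem_range_bc0_iff]
      intro τ hτ
      apply Subtype.ext
      rw [coe_arithmeticGalois_smul, hcoe, map_sub, map_pow, AL_coeffMap_qExpand]
      have h1 := congrArg Subtype.val (((mem_range_bc0_iff A M u0).1 fu) τ hτ)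
      have h2 := congrArg Subtype.val (((mem_range_bc0_iff A M x').1 hfx) τ hτ)
      rw [coe_arithmeticGalois_smul] at h1 h2
      rw [h1, h2]
    have hred : Red A ((heckeBetaBar Kbar M q u0 - heckeAlphaBar Kbar M q (x' ^ q) : FN (M * q)) :
        LaurentSeries Kbar) 0 := by
      rw [hcoe]
      have h1 := kred_sub (ru.qExpand q) (r'.pow q)
      rwa [Hecke.pow_char_eq_qExpand _ q s', sub_self] at h1
    exact (inv_smul_props A q hq hA hfixy hred).2

/-- **(KR1 + KR3)** -/
theorem exists_kOut (hg : GoodRed A M)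
    (e : Place (IsLocalRing.ResidueField ↥A) (Igusa.E (IsLocalRing.ResidueField ↥A) M))
    (he : 0 ≤ e.ord (Igusa.jb (IsLocalRing.ResidueField ↥A) M))
    (hfix : e ∈ fixSet (IsLocalRing.ResidueField ↥A) M q) :
    ∃ x x' u0 rc, KOut A M q hq hqM hA e x x' u0 rc := by
  have hM := natCast_M_ne_zero A M q hq hqM hA
  have := Igusa.isAlgClosed_residueField A
  have := Igusa.isFF_E (IsLocalRing.ResidueField ↥A) M hM
  have : IsGalois ℚ Kbar := Fermat.Agent.Lib.Frobenius.isGalois_algebraicClosure inferInstance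
  obtain ⟨sg, hsg⟩ := Fermat.Agent.Lib.Frobenius.exists_isFrobeniusAt A hq hA
  have hD := hsg.mem_decompositionSubgroup
  have hDi := (A.decompositionSubgroup ℚ).inv_mem hD
  have hjb : Igusa.jb (IsLocalRing.ResidueField ↥A) M ∉
      Set.range (algebraMap (IsLocalRing.ResidueField ↥A) _) := by
    rintro ⟨c, hc⟩
    exact Igusa.transcendental_jb (IsLocalRing.ResidueField ↥A) M (hc ▸ isAlgebraic_algebraMap c)
  obtain ⟨v, hv1, hv⟩ := Fermat.Agent.DR.Abs.exists_uniformizer hjb e he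
  obtain ⟨x0, h1, h2, h3⟩ := exists_lift_regOff_K0 A M hM hq hA hg v (XiAbs_mem_regOff_iff.2 hv)
  set x : FN M := bc0 A M x0 with hx
  set x' : FN M := arithmeticGalois (modularFunctionFieldFull M) sg⁻¹ •
    arithmeticGalois (modularFunctionFieldFull M) sg⁻¹ • x with hx'
  have hxx : arithmeticGalois (modularFunctionFieldFull M) sg •
      arithmeticGalois (modularFunctionFieldFull M) sg • x' = x := by
    rw [hx', map_inv, smul_inv_smul, smul_inv_smul]
  obtain ⟨rc, hrc⟩ := kOut_of_frob A M q hq hqM hA e hfix hsg x'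
    (gal_mem_range_bc0 A M q hq hA hDi (gal_mem_range_bc0 A M q hq hA hDi ⟨x0, rfl⟩))
    (gal_mem_gRing A M hDi (gal_mem_gRing A M hDi ((mem_RM_O_iff A M hM x).1 h2)))
    (semilinear_mem_regOff _ (gal_smul_jF M sg⁻¹) (semilinear_mem_regOff _ (gal_smul_jF M sg⁻¹) h1))
    (by rw [hxx]; exact (congrArg e.ord h3).trans hv1)
  exact ⟨_, _, _, rc, hrc⟩

end Fermat.Agent.S36.Kron
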