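import Fermat.Agent.S36.Kron.HeckePoly
import Fermat.Agent.S36.Kron.Iface
import Fermat.Agent.S36R.K0.Lattice
import Fermat.Agent.DR.Conc.Export

/-!
# S36/Kron/KOut : the interface of the first half of KRON (KR1-KR4)

`A` a place of `Kbar` over `q ∤ M`, `kk` its residue field, `R = DR.Conc.RM A M _` the Gauss reduction of
`FN M`, `e` a non cuspidal place of `Igusa.E kk M` with `Fr² e = e`.

`KOut … e x x' u0 rc` : `x, x', u0, rc i ∈ FN M` are fixed by the inertia group of `A`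
(`∈ Set.range (bc0 A M)`), Gauss integral, regular outside the cusps, `x̄` and `x̄'` are uniformisers at `e`,
`ū0 = Fr x̄'`, `x̄ = Fr ū0`, and the Hecke polynomial of `u0` is
`(T - x'^q) (T^q - x) + q ∑_{i ≤ q} rc i T^i`.
-/

set_option autoImplicit false

noncomputable section

namespace Fermat.Agent.S36.Kron

open Polynomial AlgebraicCurve ModularCurve Fermat.Agent.S24 Fermat.Agent.GAL Fermat.Agent.GAL.RED
  Fermat.Agent.DR.Conc Fermat.Agent.DR.Gal Fermat.Agent.S36R

/-! `gco q x x' rc i` (the coefficients of `(T - x'^q) (T^q - x) + q ∑ rc i T^i`) is the one of `Kron/Iface.lean`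
(the same name cannot be declared twice in one closure). -/

variable (A : ValuationSubring Kbar) (M q : ℕ) [NeZero M] [NeZero q] (hq : q.Prime)
  (hqM : ¬ q ∣ M) (hA : A.LiesOverPrime q)
  [Fact q.Prime] [CharP (IsLocalRing.ResidueField ↥A) q] [PerfectRing (IsLocalRing.ResidueField ↥A) q]

/-- The Gauss reduction datum of level `M`. -/
abbrev RK : RedData Kbar (FN M) (IsLocalRing.ResidueField ↥A)
    (Igusa.E (IsLocalRing.ResidueField ↥A) M) :=
  RM A M (natCast_M_ne_zero A M q hq hqM hA)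

/-- **The output of KR1-KR3.** -/
structure KOut (e : Place (IsLocalRing.ResidueField ↥A) (Igusa.E (IsLocalRing.ResidueField ↥A) M))
    (x x' u0 : FN M) (rc : ℕ → FN M) : Prop where
  x_fix : x ∈ Set.range (bc0 A M)
  x'_fix : x' ∈ Set.range (bc0 A M)
  u0_fix : u0 ∈ Set.range (bc0 A M)
  rc_fix : ∀ i, rc i ∈ Set.range (bc0 A M)
  x_g : (x : LaurentSeries Kbar) ∈ Gauss.gRing A
  x'_g : (x' : LaurentSeries Kbar) ∈ Gauss.gRing A
  u0_g : (u0 : LaurentSeries Kbar) ∈ Gauss.gRing A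
  rc_g : ∀ i, (rc i : LaurentSeries Kbar) ∈ Gauss.gRing A
  x_reg : x ∈ regOff Kbar (jF M)
  x'_reg : x' ∈ regOff Kbar (jF M)
  u0_reg : u0 ∈ regOff Kbar (jF M)
  rc_reg : ∀ i, rc i ∈ regOff Kbar (jF M)
  ord_x : e.ord ((RK A M q hq hqM hA).red x) = 1
  ord_x' : e.ord ((RK A M q hq hqM hA).red x') = 1
  red_u0 : (RK A M q hq hqM hA).red u0 =
    FrE (IsLocalRing.ResidueField ↥A) M q ((RK A M q hq hqM hA).red x')
  red_x : (RK A M q hq hqM hA).red x =
    FrE (IsLocalRing.ResidueField ↥A) M q ((RK A M q hq hqM hA).red u0)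
  coeff : ∀ i, i ≤ q → (heckePoly hq hqM u0).coeff i = gco q x x' rc i
  root : (heckeBetaBar Kbar M q u0) ^ (q + 1) + ∑ i ∈ Finset.range (q + 1),
    heckeAlphaBar Kbar M q (gco q x x' rc i) * (heckeBetaBar Kbar M q u0) ^ i = 0
  div : (((q : Kbar)⁻¹ • (heckeBetaBar Kbar M q u0 - heckeAlphaBar Kbar M q (x' ^ q)) :
    FN (M * q)) : LaurentSeries Kbar) ∈ Gauss.gRing A

namespace KOut

variable {A M q hq hqM hA}
  {e : Place (IsLocalRing.ResidueField ↥A) (Igusa.E (IsLocalRing.ResidueField ↥A) M)}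
  {x x' u0 : FN M} {rc : ℕ → FN M}

/-! NB. the integrality fields are stated with `gRing` because a structure field of the form
`x ∈ (RM ..).O` makes the kernel unfold `RM` (deterministic timeout). -/

theorem x_int (h : KOut A M q hq hqM hA e x x' u0 rc) : x ∈ (RK A M q hq hqM hA).O :=
  (mem_RM_O_iff A M _ x).2 h.x_g

theorem x'_int (h : KOut A M q hq hqM hA e x x' u0 rc) : x' ∈ (RK A M q hq hqM hA).O :=
  (mem_RM_O_iff A M _ x').2 h.x'_g

theorem u0_int (h : KOut A M q hq hqM hA e x x' u0 rc) : u0 ∈ (RK A M q hq hqM hA).O :=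
  (mem_RM_O_iff A M _ u0).2 h.u0_g

theorem rc_int (h : KOut A M q hq hqM hA e x x' u0 rc) (i : ℕ) :
    rc i ∈ (RK A M q hq hqM hA).O :=
  (mem_RM_O_iff A M _ (rc i)).2 (h.rc_g i)

theorem div_mem (h : KOut A M q hq hqM hA e x x' u0 rc) :
    (q : Kbar)⁻¹ • (heckeBetaBar Kbar M q u0 - heckeAlphaBar Kbar M q (x' ^ q)) ∈
      (R1 A M q hq hqM hA).O :=
  (mem_R1_O_iff A M q hq hqM hA _).2 h.div

end KOut

end Fermat.Agent.S36.Kron
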