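import Fermat.Agent.S36.Kron.Iface
import Fermat.Agent.S36.Kron.DerLocal

/-!
# S36 / Kron, file `Ode` (KR6): the differential equation of the Kronecker congruence

Notation of `Iface.lean`: `OdeData A M q e X X' Hb rb`.  The abstract local analysis is helper95's
`DerLocal.ord_hasse_abs`; here it is instantiated on `E = Igusa.E 𝕜 M ⊆ 𝕜((t))`, `d = θ`, with Kodaira-Spencer
(`S36R.KS.KS_main`): `ord_e hs ∈ {0, 12}` for `hs = Δ̄^(1-q)`, and `12` iff `ord_e X = 1` and `rb₀(e) ≠ 0`.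
-/

set_option autoImplicit false
set_option linter.unusedSectionVars false

noncomputable section

namespace Fermat.Agent.S36.Kron

open ModularCurve AlgebraicCurve Fermat.Agent.S24 Fermat.Agent.GAL Fermat.Agent.GAL.Gauss
  Fermat.Agent.GAL.RED Fermat.Agent.DR.Gal Fermat.Agent.DR.Conc Fermat.Agent.S36R.KS
  Fermat.Agent.S36R.Unit

variable (A : ValuationSubring Kbar) (M q : ℕ) [NeZero M] [NeZero q] (hq : q.Prime)
  (hqM : ¬ q ∣ M) (hA : A.LiesOverPrime q)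

set_option quotPrecheck false in
local notation "𝕜" => IsLocalRing.ResidueField ↥A

variable {e : Place (IsLocalRing.ResidueField ↥A) (Igusa.E (IsLocalRing.ResidueField ↥A) M)}
  {X X' Hb : Igusa.E (IsLocalRing.ResidueField ↥A) M}
  {rb : ℕ → Igusa.E (IsLocalRing.ResidueField ↥A) M}

include hq hqM hA in
/-- **(O6) the local theorem in characteristic `q`.** -/
theorem ord_hs_of_odeData (hneat : 4 ∣ M ∨ 9 ∣ M) (he : Igusa.jb 𝕜 M ∈ e.toValuationSubring)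
    (h : OdeData A M q e X X' Hb rb) (hs : Igusa.E 𝕜 M)
    (hhs : (hs : LaurentSeries 𝕜) = Hs 𝕜 q 1) (hreg : 0 ≤ e.ord hs) :
    e.ord hs = 0 ∨ (e.ord hs = 12 ∧ e.ord X = 1 ∧ ¬ (rb 0 = 0 ∨ 0 < e.ord (rb 0))) := by
  have hM := natCast_M_ne_zero A M q hq hqM hA
  have := Igusa.isAlgClosed_residueField A
  have := Igusa.isFF_E 𝕜 M hM
  have hfd := Igusa.finiteDimensional_jb 𝕜 M hM
  have hsep := Igusa.isSeparable_jb 𝕜 M hM
  obtain ⟨hXr, hX'r, hrbr, hX'1, hX, hrel, hode⟩ := h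
  have hX'1' : e.ord (X' - algebraMap 𝕜 (Igusa.E 𝕜 M) 0) = 1 := by
    rw [map_zero, sub_zero]; exact hX'1
  obtain ⟨κ, hκΔ, hκ⟩ := KS_main A M hM hneat X' hX'r e he 0 hX'1'
  have hres := (RED.curveBasic_residue_bijective e).2
  have hΔ : (hs : LaurentSeries 𝕜) * S28.DlL 𝕜 ^ (q - 1) = 1 := by
    have h0 := DlL_ne_zero 𝕜
    have hq1 : q = (q - 1) + 1 := (Nat.sub_add_cancel hq.one_lt.le).symm
    rw [hhs, Hs, pow_one, DlLinv_eq_inv, inv_pow]
    have : S28.DlL 𝕜 ^ q = S28.DlL 𝕜 ^ (q - 1) * S28.DlL 𝕜 := by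
      conv_lhs => rw [hq1, pow_succ]
    rw [this]
    field_simp
  have key := ord_hasse_abs (modularFunctionFieldFullC 𝕜 M).val (thetaAlg (R := 𝕜)) (Igusa.jb 𝕜 M)
    (theta_jqModC_ne_zero 𝕜) e hres q hq.two_le hX'1 hX
    (fun i => (Lib.PlaceEval.mem_iff e).1 (hrbr i e he)) hrel hode hκ hκΔ hΔ hreg
  rcases key with ⟨h1, h2, h3, h4⟩ | ⟨-, h4⟩
  · right
    refine ⟨h4, h1, ?_⟩
    rintro (h5 | h5)
    · exact h2 h5
    · omega
  · exact Or.inl h4

end Fermat.Agent.S36.Kron
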