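import Fermat.Agent.S36.Kron.Defs

/-!
# S36/Kron/RatCart : base change of the Gauss ring
-/

set_option autoImplicit false
set_option linter.unusedSectionVars false

noncomputable section

namespace Fermat.Agent.S36.Kron

open ModularCurve AlgebraicCurve Fermat.Agent.S24 Fermat.Agent.GAL Fermat.Agent.GAL.Gauss
  Fermat.Agent.GAL.RED Fermat.Agent.DR.Gal Fermat.Agent.DR.Conc Fermat.Agent.S36R Fermat.Agent.Lib.RR

variable {K₁ K₂ : Type*} [Field K₁] [Field K₂] (A₁ : ValuationSubring K₁) (A₂ : ValuationSubring K₂)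

/-- the restriction of `σ` to `A₁ → A₂`. -/
def RatCart_restr (σ : K₁ →+* K₂) (hσ : ∀ a, a ∈ A₁ → σ a ∈ A₂) : ↥A₁ →+* ↥A₂ :=
  (σ.comp A₁.subtype).codRestrict A₂.toSubring fun a => hσ a a.2

theorem RatCart_iA_coeffMap (σ : K₁ →+* K₂) (hσ : ∀ a, a ∈ A₁ → σ a ∈ A₂) (z : LaurentSeries ↥A₁) :
    iA A₂ (coeffMap (RatCart_restr A₁ A₂ σ hσ) z) = coeffMap σ (iA A₁ z) := by
  ext n
  rfl

theorem RatCart_pA_coeffMap (σ : K₁ →+* K₂) (hσ : ∀ a, a ∈ A₁ → σ a ∈ A₂)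
    (σb : IsLocalRing.ResidueField ↥A₁ →+* IsLocalRing.ResidueField ↥A₂)
    (hσb : ∀ (a : K₁) (ha : a ∈ A₁), IsLocalRing.residue ↥A₂ ⟨σ a, hσ a ha⟩ =
      σb (IsLocalRing.residue ↥A₁ ⟨a, ha⟩)) (z : LaurentSeries ↥A₁) :
    pA A₂ (coeffMap (RatCart_restr A₁ A₂ σ hσ) z) = coeffMap σb (pA A₁ z) := by
  ext n
  exact hσb (z.coeff n) (z.coeff n).2

/-- **(RC1)** base change of the Gauss ring.  PROOF: copy of `DR.Conc.coeffMap_mem_gRing` (two fields instead of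
one): `z, g ↦ coeffMap (restriction of σ) z, g`. -/
theorem coeffMap_mem_gRing₂ (σ : K₁ →+* K₂) (hσ : ∀ a, a ∈ A₁ → σ a ∈ A₂)
    (σb : IsLocalRing.ResidueField ↥A₁ →+* IsLocalRing.ResidueField ↥A₂)
    (hσb : ∀ (a : K₁) (ha : a ∈ A₁), IsLocalRing.residue ↥A₂ ⟨σ a, hσ a ha⟩ =
      σb (IsLocalRing.residue ↥A₁ ⟨a, ha⟩))
    {x : LaurentSeries K₁} (hx : x ∈ gRing A₁) : coeffMap σ x ∈ gRing A₂ := by
  obtain ⟨z, g, hg, h⟩ := hx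
  refine ⟨coeffMap (RatCart_restr A₁ A₂ σ hσ) z, coeffMap (RatCart_restr A₁ A₂ σ hσ) g, ?_, ?_⟩
  · rw [RatCart_pA_coeffMap A₁ A₂ σ hσ σb hσb]
    exact (map_ne_zero _).mpr hg
  · rw [RatCart_iA_coeffMap, RatCart_iA_coeffMap, ← map_mul, h]

/-- **(RC1')** PROOF: copy of `DR.Conc.gRes_coeffMap`. -/
theorem gRes_coeffMap₂ (σ : K₁ →+* K₂) (hσ : ∀ a, a ∈ A₁ → σ a ∈ A₂)
    (σb : IsLocalRing.ResidueField ↥A₁ →+* IsLocalRing.ResidueField ↥A₂)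
    (hσb : ∀ (a : K₁) (ha : a ∈ A₁), IsLocalRing.residue ↥A₂ ⟨σ a, hσ a ha⟩ =
      σb (IsLocalRing.residue ↥A₁ ⟨a, ha⟩))
    {x : LaurentSeries K₁} (hx : x ∈ gRing A₁) :
    gRes A₂ ⟨_, coeffMap_mem_gRing₂ A₁ A₂ σ hσ σb hσb hx⟩ = coeffMap σb (gRes A₁ ⟨x, hx⟩) := by
  obtain ⟨z, g, hg, h⟩ := (mem_gRing_iff A₁).mp hx
  rw [gRes_eq A₂ _ (z := coeffMap (RatCart_restr A₁ A₂ σ hσ) z)
      (g := coeffMap (RatCart_restr A₁ A₂ σ hσ) g)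
      (by rw [RatCart_pA_coeffMap A₁ A₂ σ hσ σb hσb]; exact (map_ne_zero _).mpr hg) (by
      show iA A₂ _ * coeffMap σ x = _
      rw [RatCart_iA_coeffMap, RatCart_iA_coeffMap, ← map_mul, h]),
    gRes_eq A₁ ⟨x, _⟩ hg h, RatCart_pA_coeffMap A₁ A₂ σ hσ σb hσb,
    RatCart_pA_coeffMap A₁ A₂ σ hσ σb hσb, map_div₀]

end Fermat.Agent.S36.Kron
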