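import Fermat.Agent.S36.Kron.Defs
import Fermat.Agent.FLAT.Geo.FixedBasis

/-!
# S36/Kron/RatIndep : independence of Laurent series and extension of the coefficients
-/

set_option autoImplicit false
set_option linter.unusedSectionVars false

noncomputable section

namespace Fermat.Agent.S36.Kron

open ModularCurve AlgebraicCurve Fermat.Agent.S24 Fermat.Agent.GAL Fermat.Agent.GAL.Gauss
  Fermat.Agent.GAL.RED Fermat.Agent.DR.Gal Fermat.Agent.DR.Conc Fermat.Agent.S36R Fermat.Agent.Lib.RR

/-- **(RC2)** linear independence of Laurent series is preserved by an extension of the field of coefficients.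
PROOF.  `E := span k₁ (range s)`, of dimension `n`; the coefficient forms are separating on `E`:
`FLAT.Geo.FixedBasis_sep` gives exponents `e : Fin n → ℤ` such that `x ↦ (coeff (e a) x)_a` is injective on `E`; so the
matrix `m a i := (s i).coeff (e a)` has trivial kernel (`Matrix.mulVec`), `m.det ≠ 0`
(`Matrix.exists_mulVec_eq_zero_iff`), so `(m.map σb).det = σb m.det ≠ 0` (`RingHom.map_det`).
If `∑ c i • coeffMap σb (s i) = 0`, take the coefficients at `e a`: `(m.map σb).mulVec c = 0`, `c = 0`. -/
theorem linearIndependent_coeffMap {k₁ k₂ : Type*} [Field k₁] [Field k₂] (σb : k₁ →+* k₂) {n : ℕ}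
    (s : Fin n → LaurentSeries k₁) (hs : LinearIndependent k₁ s) :
    LinearIndependent k₂ (fun i => coeffMap σb (s i)) := by
  classical
  let l : ℤ → (Fin n → k₁) →ₗ[k₁] k₁ := fun e =>
    ∑ i, ((s i).coeff e) • (LinearMap.proj i : (Fin n → k₁) →ₗ[k₁] k₁)
  have hl_apply : ∀ (e : ℤ) (c : Fin n → k₁), l e c = ∑ i, (s i).coeff e * c i := by
    intro e c
    simp only [l, LinearMap.sum_apply, LinearMap.smul_apply, LinearMap.proj_apply, smul_eq_mul]
  have hl : ∀ c : Fin n → k₁, (∀ e, l e c = 0) → c = 0 := by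
    intro c hc
    have h0 : ∑ i, c i • s i = 0 := by
      ext e
      rw [HahnSeries.coeff_sum, HahnSeries.coeff_zero, ← hc e, hl_apply]
      refine Finset.sum_congr rfl fun i _ => ?_
      rw [HahnSeries.coeff_smul, smul_eq_mul, mul_comm]
    funext i
    exact Fintype.linearIndependent_iff.1 hs c h0 i
  obtain ⟨e, he⟩ := Fermat.Agent.FLAT.Geo.FixedBasis_sep (k := k₁) (E := Fin n → k₁) (n := n)
    (Module.finrank_fin_fun k₁) l hl
  let m : Matrix (Fin n) (Fin n) k₁ := Matrix.of fun a i => (s i).coeff (e a)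
  have hdet : m.det ≠ 0 := by
    intro h0
    obtain ⟨v, hv0, hv⟩ := Matrix.exists_mulVec_eq_zero_iff.2 h0
    apply hv0
    apply he
    intro a
    rw [hl_apply]
    exact congrFun hv a
  have hdet' : (σb.mapMatrix m).det ≠ 0 := by
    rw [← RingHom.map_det, Ne, map_eq_zero]
    exact hdet
  rw [Fintype.linearIndependent_iff]
  intro g hg
  by_contra hcon
  apply hdet'
  rw [← Matrix.exists_mulVec_eq_zero_iff]
  refine ⟨g, fun h => hcon (by rw [h]; intro i; rfl), ?_⟩
  funext a
  have h1 := congrArg (fun x : LaurentSeries k₂ => x.coeff (e a)) hg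
  simp only [HahnSeries.coeff_sum, HahnSeries.coeff_smul, coeffMap_coeff, HahnSeries.coeff_zero,
    smul_eq_mul] at h1
  rw [Pi.zero_apply, ← h1]
  show ∑ i, σb ((s i).coeff (e a)) * g i = _
  exact Finset.sum_congr rfl fun i _ => mul_comm _ _

end Fermat.Agent.S36.Kron
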