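import Fermat.Agent.S36.Kron.RatCart
import Fermat.Agent.S36.Kron.RatIndep

/-!
# S36/Kron/RatInt : rational orthonormal families

The Gauss reduction datum `GAL.RED.gaussRedData` and its Cartesian property `gaussRedData_isCartesian` are available
over ANY field with a valuation subring.  Applied to `ℚ`, `A ∩ ℚ` they give orthonormal bases over `ℚ`, which stay
orthonormal over `Kbar`.
-/

set_option autoImplicit false
set_option linter.unusedSectionVars false

noncomputable section

namespace Fermat.Agent.S36.Kron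

open ModularCurve AlgebraicCurve Fermat.Agent.S24 Fermat.Agent.GAL Fermat.Agent.GAL.Gauss
  Fermat.Agent.GAL.RED Fermat.Agent.DR.Gal Fermat.Agent.DR.Conc Fermat.Agent.S36R Fermat.Agent.Lib.RR

variable (A : ValuationSubring Kbar) (M q : ℕ) [NeZero M] [NeZero q] (hq : q.Prime)
  (hqM : ¬ q ∣ M) (hA : A.LiesOverPrime q)

/-- `A ∩ ℚ`. -/
abbrev RatInt_AQ : ValuationSubring ℚ := A.comap (algebraMap ℚ Kbar)

/-- the inclusion `A ∩ ℚ → A`. -/
def RatInt_incl : ↥(RatInt_AQ A) →+* ↥A :=
  ((algebraMap ℚ Kbar).comp (RatInt_AQ A).subtype).codRestrict A.toSubring (fun a => a.2)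

theorem RatInt_coe_incl (a : ↥(RatInt_AQ A)) :
    ((RatInt_incl A a : ↥A) : Kbar) = algebraMap ℚ Kbar (a : ℚ) := rfl

instance RatInt_isLocalHom : IsLocalHom (RatInt_incl A) := by
  constructor
  intro a ha
  have ha0 : (a : ℚ) ≠ 0 := by
    intro h
    have h1 : RatInt_incl A a = 0 := by
      apply Subtype.ext
      rw [RatInt_coe_incl, h, map_zero]
      rfl
    rw [h1] at ha
    exact not_isUnit_zero ha
  obtain ⟨u, hu⟩ := ha
  have h2 : ((u⁻¹ : (↥A)ˣ) : Kbar) = algebraMap ℚ Kbar (a : ℚ)⁻¹ := by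
    have h3 : ((u : ↥A) : Kbar) * ((u⁻¹ : (↥A)ˣ) : Kbar) = 1 := by
      have := congrArg (Subtype.val) (u.mul_inv)
      exact this
    rw [hu, RatInt_coe_incl] at h3
    rw [map_inv₀]
    exact eq_inv_of_mul_eq_one_right h3
  have h4 : (a : ℚ)⁻¹ ∈ RatInt_AQ A := by
    show algebraMap ℚ Kbar (a : ℚ)⁻¹ ∈ A
    rw [← h2]
    exact (u⁻¹ : (↥A)ˣ).1.2
  refine IsUnit.of_mul_eq_one ⟨(a : ℚ)⁻¹, h4⟩ ?_
  apply Subtype.ext
  exact mul_inv_cancel₀ ha0

/-- the map of residue fields. -/
def RatInt_sb : IsLocalRing.ResidueField ↥(RatInt_AQ A) →+* IsLocalRing.ResidueField ↥A :=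
  IsLocalRing.ResidueField.map (RatInt_incl A)

theorem RatInt_sb_residue (a : ℚ) (ha : a ∈ RatInt_AQ A) :
    IsLocalRing.residue ↥A ⟨algebraMap ℚ Kbar a, ha⟩ =
      RatInt_sb A (IsLocalRing.residue ↥(RatInt_AQ A) ⟨a, ha⟩) := rfl

theorem RatInt_natCast_ne_zero (hM : ((M : ℕ) : IsLocalRing.ResidueField ↥A) ≠ 0) :
    ((M : ℕ) : IsLocalRing.ResidueField ↥(RatInt_AQ A)) ≠ 0 := by
  intro h
  apply hM
  rw [← map_natCast (RatInt_sb A), h, map_zero]

/-- a rational element of `FN M` comes from `modularFunctionFieldFull M`. -/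
theorem RatInt_exists_rat (x : FN M) (hx : CoeffIn ⊥ (x : LaurentSeries Kbar)) :
    ∃ y : ↥(modularFunctionFieldFullC ℚ M), coeffEmb Kbar (y : LaurentSeries ℚ) = (x : LaurentSeries Kbar) := by
  obtain ⟨⟨y, hyF⟩, hy⟩ := GAL.Desc.mem_range_bc_of_coeff (algebraMap ℚ Kbar) (modularFunctionFieldFull M) x
    (fun n => IntermediateField.mem_bot.mp (hx n))
  have h1 : laurentBaseChange ℚ (modularFunctionFieldFull M) = modularFunctionFieldFull M := by
    rw [laurentBaseChange]
    have h2 : (⇑(coeffEmb ℚ) '' (modularFunctionFieldFull M : Set (LaurentSeries ℚ))) =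
        (modularFunctionFieldFull M : Set (LaurentSeries ℚ)) := by
      have h3 : ∀ z : LaurentSeries ℚ, coeffEmb ℚ z = z := fun z => by
        rw [coeffEmb]
        exact coeffMap_id z
      ext z
      constructor
      · rintro ⟨z', hz', rfl⟩
        rw [h3]
        exact hz'
      · intro hz
        exact ⟨z, hz, h3 z⟩
    rw [h2]
    exact IntermediateField.adjoin_self ℚ _
  rw [h1] at hyF
  refine ⟨⟨y, hyF⟩, ?_⟩
  · have := congrArg (Subtype.val) hy
    exact this

/-- abstract form: an orthonormal family in the span of an independent family. -/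
theorem RatInt_abs {K F k Fb : Type*} [Field K] [Field F] [Algebra K F] [Field k] [Field Fb] [Algebra k Fb]
    (R : RedData K F k Fb) (hR : R.IsCartesian) {n : ℕ} (y : Fin n → F) (hy : LinearIndependent K y) :
    ∃ f : Fin n → F, (∀ i, f i ∈ Submodule.span K (Set.range y)) ∧ (∀ i, f i ∈ R.O) ∧
      LinearIndependent k (fun i => R.red (f i)) := by
  classical
  set LQ : Submodule K F := Submodule.span K (Set.range y) with hLQ
  have hfin : Module.Finite K LQ := Module.Finite.span_of_finite K (Set.finite_range y)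
  have hdim : Module.finrank K LQ = n := by
    rw [hLQ, finrank_span_eq_card hy, Fintype.card_fin]
  have hcart : Module.finrank k (R.redSub LQ) = n := by
    rw [hR LQ hfin, hdim]
  rcases Nat.eq_zero_or_pos n with hn | hn
  · subst hn
    exact ⟨fun i => i.elim0, fun i => i.elim0, fun i => i.elim0, linearIndependent_empty_type⟩
  have hfin' : Module.Finite k (R.redSub LQ) :=
    Module.finite_of_finrank_pos (by rw [hcart]; exact hn)
  let v := Module.finBasisOfFinrankEq k (R.redSub LQ) hcart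
  choose f hfL hfO hfv using fun i => (R.mem_redSub).mp (v i).2
  refine ⟨f, hfL, hfO, ?_⟩
  have h2 := v.linearIndependent.map' (R.redSub LQ).subtype (Submodule.ker_subtype _)
  have h3 : (fun i => R.red (f i)) = (R.redSub LQ).subtype ∘ v := funext hfv
  rw [h3]
  exact h2

/-- the inclusion, as a linear map for the standard module structure on Laurent series. -/
def RatInt_val (k : Type) [Field k] : ↥(modularFunctionFieldFullC k M) →ₗ[k] LaurentSeries k where
  toFun := Subtype.val
  map_add' _ _ := rfl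
  map_smul' c x := by
    show ((c • x : ↥(modularFunctionFieldFullC k M)) : LaurentSeries k) = c • (x : LaurentSeries k)
    rw [Algebra.smul_def, ← HahnSeries.C_mul_eq_smul, ← algebraMap_eq_C]
    rfl

theorem RatInt_of_coe {k : Type} [Field k] {n : ℕ} (r : Fin n → ↥(modularFunctionFieldFullC k M))
    (h : LinearIndependent k (fun i => (r i : LaurentSeries k))) : LinearIndependent k r :=
  LinearIndependent.of_comp (RatInt_val M k) h

theorem RatInt_val_ker (k : Type) [Field k] : LinearMap.ker (RatInt_val M k) = ⊥ :=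
  LinearMap.ker_eq_bot.mpr Subtype.val_injective

/-- the generic form of the Cartesian property, free of module structures over the base field. -/
theorem RatInt_generic {K₁ : Type} [Field K₁] (A₁ : ValuationSubring K₁)
    (hM₁ : ((M : ℕ) : IsLocalRing.ResidueField ↥A₁) ≠ 0) {n : ℕ}
    (y : Fin n → LaurentSeries K₁) (hyF : ∀ i, y i ∈ modularFunctionFieldFullC K₁ M)
    (hy : ∀ c : Fin n → K₁, ∑ j, HahnSeries.C (c j) * y j = 0 → ∀ j, c j = 0) :
    ∃ f : Fin n → LaurentSeries K₁, (∀ i, ∃ c : Fin n → K₁, f i = ∑ j, HahnSeries.C (c j) * y j) ∧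
      ∃ hf : ∀ i, f i ∈ gRing A₁,
        LinearIndependent (IsLocalRing.ResidueField ↥A₁) (fun i => gRes A₁ ⟨f i, hf i⟩) := by
  classical
  let y' : Fin n → ↥(modularFunctionFieldFullC K₁ M) := fun i => ⟨y i, hyF i⟩
  have hsum : ∀ c : Fin n → K₁, ((∑ j, c j • y' j : ↥(modularFunctionFieldFullC K₁ M)) : LaurentSeries K₁) =
      ∑ j, HahnSeries.C (c j) * y j := by
    intro c
    push_cast
    refine Finset.sum_congr rfl fun j _ => ?_
    rw [Algebra.smul_def, algebraMap_eq_C]
  have hyind : LinearIndependent K₁ y' := by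
    rw [Fintype.linearIndependent_iff]
    intro c hc
    apply hy c
    rw [← hsum c, hc]
    rfl
  obtain ⟨f, hfL, hfO, hfind⟩ := RatInt_abs (gaussRedData A₁ M hM₁) (gaussRedData_isCartesian hM₁) y' hyind
  refine ⟨fun i => (f i : LaurentSeries K₁), fun i => ?_, fun i => hfO i, ?_⟩
  · obtain ⟨c, hc⟩ := (Submodule.mem_span_range_iff_exists_fun K₁).mp (hfL i)
    exact ⟨c, by rw [← hsum c, hc]⟩
  · have h1 := hfind.map' (RatInt_val M (IsLocalRing.ResidueField ↥A₁)) (RatInt_val_ker M _)
    have h2 : (fun i => gRes A₁ ⟨(f i : LaurentSeries K₁), hfO i⟩) =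
        (RatInt_val M (IsLocalRing.ResidueField ↥A₁)) ∘ (fun i => (gaussRedData A₁ M hM₁).red (f i)) := by
      funext i
      show _ = (((gaussRedData A₁ M hM₁).red (f i) :
        ↥(modularFunctionFieldFullC (IsLocalRing.ResidueField ↥A₁) M)) :
        LaurentSeries (IsLocalRing.ResidueField ↥A₁))
      rw [(gaussRedData A₁ M hM₁).red_of_mem (hfO i)]
      rfl
    rw [h2]
    exact h1


theorem RatInt_final (hM : ((M : ℕ) : IsLocalRing.ResidueField ↥A) ≠ 0) {n : ℕ} (w : Fin n → FN M)
    (hint : ∀ i, (w i : LaurentSeries Kbar) ∈ gRing A)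
    (h : LinearIndependent (IsLocalRing.ResidueField ↥A) (fun i => gRes A ⟨_, hint i⟩)) :
    LinearIndependent (IsLocalRing.ResidueField ↥A) (fun i => (RM A M hM).red (w i)) := by
  apply RatInt_of_coe
  have h2 : (fun i => (((RM A M hM).red (w i) :
      Igusa.E (IsLocalRing.ResidueField ↥A) M) : LaurentSeries (IsLocalRing.ResidueField ↥A))) =
      fun i => gRes A ⟨_, hint i⟩ := by
    funext i
    rw [coe_RM_red A M hM _ (hint i)]
  rw [h2]
  exact h

theorem RatInt_step {n : ℕ} (f : Fin n → LaurentSeries ℚ) (hf : ∀ i, f i ∈ gRing (RatInt_AQ A))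
    (hfind : LinearIndependent (IsLocalRing.ResidueField ↥(RatInt_AQ A)) (fun i => gRes (RatInt_AQ A) ⟨f i, hf i⟩)) :
    ∃ hint : ∀ i, coeffEmb Kbar (f i) ∈ gRing A,
      LinearIndependent (IsLocalRing.ResidueField ↥A) (fun i => gRes A ⟨coeffEmb Kbar (f i), hint i⟩) := by
  have hint : ∀ i, coeffEmb Kbar (f i) ∈ gRing A := fun i =>
    coeffMap_mem_gRing₂ (RatInt_AQ A) A (algebraMap ℚ Kbar) (fun a ha => ha) (RatInt_sb A)
      (RatInt_sb_residue A) (hf i)
  refine ⟨hint, ?_⟩
  have h1 := linearIndependent_coeffMap (RatInt_sb A) _ hfind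
  have h2 : (fun i => gRes A ⟨coeffEmb Kbar (f i), hint i⟩) =
      fun i => coeffMap (RatInt_sb A) (gRes (RatInt_AQ A) ⟨f i, hf i⟩) := by
    funext i
    exact gRes_coeffMap₂ (RatInt_AQ A) A (algebraMap ℚ Kbar) (fun a ha => ha)
      (RatInt_sb A) (RatInt_sb_residue A) (hf i)
  rw [h2]
  exact h1

/-- the rational part: coefficients `c` of an orthonormal family. -/
theorem RatInt_coeffs (hM : ((M : ℕ) : IsLocalRing.ResidueField ↥A) ≠ 0) {n : ℕ} (b : Fin n → FN M)
    (hb : LinearIndependent Kbar b) (hrat : ∀ i, CoeffIn ⊥ (b i : LaurentSeries Kbar)) :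
    ∃ (c : Fin n → Fin n → ℚ) (f : Fin n → LaurentSeries ℚ),
      (∀ i, ((∑ j, algebraMap ℚ Kbar (c i j) • b j : FN M) : LaurentSeries Kbar) = coeffEmb Kbar (f i)) ∧
      ∃ hf : ∀ i, f i ∈ gRing (RatInt_AQ A),
        LinearIndependent (IsLocalRing.ResidueField ↥(RatInt_AQ A)) (fun i => gRes (RatInt_AQ A) ⟨f i, hf i⟩) := by
  classical
  have hMQ := RatInt_natCast_ne_zero A M hM
  choose y hy using fun i => RatInt_exists_rat M (b i) (hrat i)
  have hsum : ∀ c : Fin n → ℚ, ((∑ j, algebraMap ℚ Kbar (c j) • b j : FN M) : LaurentSeries Kbar) =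
      coeffEmb Kbar (∑ j, HahnSeries.C (c j) * (y j : LaurentSeries ℚ)) := by
    intro c
    push_cast
    rw [map_sum]
    refine Finset.sum_congr rfl fun j _ => ?_
    rw [Algebra.smul_def, algebraMap_eq_C, map_mul, hy j]
    congr 1
    rw [coeffEmb, HahnSeries.C_apply, HahnSeries.C_apply, coeffMap_single]
  obtain ⟨f, hfc, hf, hfind⟩ := RatInt_generic M (RatInt_AQ A) hMQ (fun i => (y i : LaurentSeries ℚ))
    (fun i => (y i).2) (by
      intro c hc j
      have h1 := hsum c
      rw [hc, map_zero] at h1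
      have h2 : (∑ j, algebraMap ℚ Kbar (c j) • b j : FN M) = 0 := Subtype.ext h1
      exact (map_eq_zero _).mp ((Fintype.linearIndependent_iff.mp hb) _ h2 j))
  choose c hc using hfc
  exact ⟨c, f, fun i => by rw [hsum, ← hc i], hf, hfind⟩

/-- **(RC3)** the span of `n` independent rational functions contains `n` rational Gauss integral functions with
independent reductions.

PROOF.  `AQ := A.comap (algebraMap ℚ Kbar)`, `kQ` its residue field, `σb : kQ →+* k` the induced map
(`IsLocalRing.ResidueField.map` of the local homomorphism `↥AQ →+* ↥A`); `(M : kQ) ≠ 0` since `σb` is injective and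
`natCast_M_ne_zero A M q hq hqM hA`.  `RQ := gaussRedData AQ M _ : RedData ℚ (modularFunctionFieldFullC ℚ M) kQ _`
(`modularFunctionFieldFullC ℚ M = modularFunctionFieldFull M` is `rfl`).
`b i = coeffEmb Kbar (y i)` with `y i ∈ modularFunctionFull M`: `GAL.Desc.mem_range_bc_of_coeff` /
`GAL.Desc.mem_baseChange_of_coeffMap_mem` for `ι = algebraMap ℚ Kbar` (`laurentBaseChange ℚ F₀ = F₀`: `coeffEmb ℚ = id`,
`IntermediateField.adjoin_self`-type lemma), cf. `S36R.mem_range_bc0_iff`.
`LQ := span ℚ (range y)` has dimension `n` (the `y i` are independent over `ℚ` because the `b i` are).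
`gaussRedData_isCartesian` : `finrank kQ (RQ.redSub LQ) = n`; a basis of `RQ.redSub LQ` consists of `RQ.red (f i)`,
`f i ∈ LQ ∩ RQ.O`.  `w i := ⟨coeffEmb Kbar (f i), _⟩`.  It lies in the `Kbar`-span of the `b i`, is rational;
(RC1) integral, (RC1') `R.red (w i) = coeffMap σb (RQ.red (f i))` as series (`coe_RM_red`), (RC2) independence
(`LinearIndependent.of_comp` / `.map'` with the inclusion `Eb → k((t))`). -/
theorem exists_int_of_rat {n : ℕ} (b : Fin n → FN M) (hb : LinearIndependent Kbar b)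
    (hrat : ∀ i, CoeffIn ⊥ (b i : LaurentSeries Kbar)) :
    ∃ w : Fin n → FN M, (∀ i, w i ∈ Submodule.span Kbar (Set.range b)) ∧
      (∀ i, CoeffIn ⊥ (w i : LaurentSeries Kbar)) ∧ (∀ i, w i ∈ (RMq A M q hq hqM hA).O) ∧
      LinearIndependent (IsLocalRing.ResidueField ↥A) (fun i => (RMq A M q hq hqM hA).red (w i)) := by
  have hM := natCast_M_ne_zero A M q hq hqM hA
  obtain ⟨c, f, hw, hf, hfind⟩ := RatInt_coeffs A M hM b hb hrat
  obtain ⟨hint, hind⟩ := RatInt_step A f hf hfind
  have hint' : ∀ i, ((∑ j, algebraMap ℚ Kbar (c i j) • b j : FN M) : LaurentSeries Kbar) ∈ gRing A := fun i => by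
    rw [hw i]
    exact hint i
  refine ⟨fun i => ∑ j, algebraMap ℚ Kbar (c i j) • b j, fun i => ?_, fun i => ?_, fun i => ?_, ?_⟩
  · exact Submodule.sum_mem _ fun j _ => Submodule.smul_mem _ _ (Submodule.subset_span ⟨j, rfl⟩)
  · intro m
    rw [hw i, coeffEmb_coeff]
    exact IntermediateField.algebraMap_mem _ _
  · exact (mem_RM_O_iff A M hM _).mpr (hint' i)
  · refine RatInt_final A M hM _ hint' ?_
    have h2 : (fun i => gRes A ⟨((∑ j, algebraMap ℚ Kbar (c i j) • b j : FN M) : LaurentSeries Kbar), hint' i⟩) =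
        fun i => gRes A ⟨coeffEmb Kbar (f i), hint i⟩ := by
      funext i
      congr 1
      exact Subtype.ext (hw i)
    rw [h2]
    exact hind

end Fermat.Agent.S36.Kron
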