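import Fermat.Agent.S36.Kron.RatInt
import Fermat.Agent.S36.Kron.Descent
import Fermat.Agent.S36.Kron.GalRR

/-!
# S36/Kron/RatSpan : the reductions of the rational nice functions span
-/

set_option autoImplicit false
set_option linter.unusedSectionVars false

noncomputable section

namespace Fermat.Agent.S36.Kron

open ModularCurve AlgebraicCurve Fermat.Agent.S24 Fermat.Agent.GAL Fermat.Agent.GAL.Gauss
  Fermat.Agent.GAL.RED Fermat.Agent.DR.Gal Fermat.Agent.DR.Conc Fermat.Agent.S36R Fermat.Agent.Lib.RR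

/-- a function regular outside the poles of `yb` lies in `L(a (yb)_∞)` for all large `a`. -/
theorem RatSpan_mem_rr {k Fb : Type*} [Field k] [Field Fb] [Algebra k Fb] [Lib.RR.IsFF k Fb]
    [IsAlgClosed k] (yb v : Fb) (hv : v ∈ regOff k yb) (g : ℕ) :
    ∃ a : ℕ, g ≤ a ∧ v ∈ riemannRochSpace ((a : ℤ) • RED.poleDiv (K := k) yb) := by
  obtain ⟨a₀, ha₀⟩ := Level_exists_bound (k := k) v
  refine ⟨a₀ + g, by omega, ?_⟩
  rw [mem_riemannRochSpace_iff]
  intro Q
  right
  rw [Finsupp.smul_apply, RED.poleDiv_apply, smul_eq_mul]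
  by_cases hQ : yb ∈ Q.toValuationSubring
  · have h1 := Basic_ord_nonneg_of_mem Q (hv Q hQ)
    have h2 : (0 : ℤ) ≤ ((a₀ + g : ℕ) : ℤ) * max (-Q.ord yb) 0 :=
      mul_nonneg (by positivity) (le_max_right _ _)
    omega
  · have h1 : Q.ord yb < 0 := by
      by_contra hcon
      apply hQ
      by_cases h0 : yb = 0
      · rw [h0]; exact zero_mem _
      · exact Fermat.Agent.S24.mem_of_ord_nonneg Q h0 (by omega)
    have h2 : ((a₀ + g : ℕ) : ℤ) * 1 ≤ ((a₀ + g : ℕ) : ℤ) * max (-Q.ord yb) 0 :=
      mul_le_mul_of_nonneg_left (le_trans (by omega) (le_max_left _ _)) (by positivity)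
    have h3 := ha₀ Q
    push_cast at h2 ⊢
    omega

/-- elements of `L(a (y)_∞)` are regular outside the poles of `y`. -/
theorem RatSpan_regOff_of_mem_rr {K F : Type*} [Field K] [Field F] [Algebra K F] [Lib.RR.IsFF K F]
    (y u : F) (a : ℤ) (hu : u ∈ riemannRochSpace (a • RED.poleDiv (K := K) y)) :
    u ∈ regOff K y := by
  intro P hP
  rw [mem_riemannRochSpace_iff] at hu
  rcases hu P with h0 | h0
  · rw [h0]; exact zero_mem _
  · by_cases hu0 : u = 0
    · rw [hu0]; exact zero_mem _
    · refine Fermat.Agent.S24.mem_of_ord_nonneg P hu0 ?_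
      have h1 := Basic_ord_nonneg_of_mem P hP
      rw [Finsupp.smul_apply, RED.poleDiv_apply, max_eq_right (by omega), smul_zero, neg_zero] at h0
      exact h0

/-- `n` independent vectors of a subspace of dimension `n` span it. -/
theorem RatSpan_span_eq {k V : Type*} [Field k] [AddCommGroup V] [Module k V] (S : Submodule k V)
    {n : ℕ} (hn : Module.finrank k S = n) (hS : Module.Finite k S) (v : Fin n → V)
    (hv : ∀ i, v i ∈ S) (hli : LinearIndependent k v) : S ≤ Submodule.span k (Set.range v) := by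
  let v' : Fin n → S := fun i => ⟨v i, hv i⟩
  have hli' : LinearIndependent k v' := by
    apply LinearIndependent.of_comp S.subtype
    exact hli
  have htop := hli'.span_eq_top_of_card_eq_finrank' (by rw [Fintype.card_fin, hn])
  intro x hx
  have hx' : (⟨x, hx⟩ : S) ∈ Submodule.span k (Set.range v') := by rw [htop]; trivial
  have := Submodule.mem_map_of_mem (f := S.subtype) hx'
  rw [Submodule.map_span, ← Set.range_comp] at this
  exact this

variable (A : ValuationSubring Kbar) (M q : ℕ) [NeZero M] [NeZero q] (hq : q.Prime)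
  (hqM : ¬ q ∣ M) (hA : A.LiesOverPrime q)

/-- **(RC4)** the functions on the reduction which are regular outside the cusps are spanned by the reductions of the
RATIONAL nice functions.

PROOF.  Instances as in `DR.Conc.exists_lift_regOff`; `r`, `hr` from `RED.exists_isRedMap _ (RM_isCartesian ..) hg`.
As in `DR.Conc.Level_exists_lift` : `ub ∈ L̄(a (j̄)_∞)` with `3 g ≤ deg (a (j)_∞)`, and
`R.redSub V = L̄(a (j̄)_∞)` for `V := L(a (j)_∞)` (`hr.redSub_L`, `mapDomain_zsmul'`, `map_poleDiv_jF`).
`V` is finite dimensional (`Lib.RR`), Galois stable (`gal_mem_rr`): `exists_rat_basis`, then `exists_int_of_rat`: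
`w i ∈ V` rational integral, `n = finrank V` independent reductions in `R.redSub V`, whose dimension is `n`
(`RM_isCartesian`): they span it (`LinearIndependent.span_eq_top_of_card_eq_finrank'` in the subspace).
`w i ∈ V ⟹ w i ∈ regOff` as at the end of `Level_exists_lift`. -/
theorem exists_rat_span (hg : GoodRed A M) (ub : Igusa.E (IsLocalRing.ResidueField ↥A) M)
    (hub : ub ∈ regOff (IsLocalRing.ResidueField ↥A) (Igusa.jb (IsLocalRing.ResidueField ↥A) M)) :
    ub ∈ Submodule.span (IsLocalRing.ResidueField ↥A)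
      {v | ∃ w : FN M, Nice A M q hq hqM hA ⊥ w ∧ (RMq A M q hq hqM hA).red w = v} := by
  have hM := natCast_M_ne_zero A M q hq hqM hA
  have : Lib.RR.IsFF Kbar (FN M) := Fermat.Agent.GAL.Desc.isFF_FF_Kbar M
  have := Igusa.isAlgClosed_residueField A
  have := Igusa.isFF_E (IsLocalRing.ResidueField ↥A) M hM
  obtain ⟨r, hr⟩ := RED.exists_isRedMap (RM A M hM) (RM_isCartesian A M hM) hg
  obtain ⟨a, ha, hubL⟩ := RatSpan_mem_rr (k := IsLocalRing.ResidueField ↥A)
    (Igusa.jb (IsLocalRing.ResidueField ↥A) M) ub hub (3 * genusFF Kbar (FN M))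
  have hpos : 0 < Divisor.degree (RED.poleDiv (K := Kbar) (jF M)) := by
    rw [Level_degree_poleDiv_jF]
    exact_mod_cast DegreeAlpha.dedekindPsi_pos M
  have hdeg : 3 * (genusFF Kbar (FN M) : ℤ) ≤
      Divisor.degree ((a : ℤ) • RED.poleDiv (K := Kbar) (jF M)) := by
    rw [map_zsmul, smul_eq_mul]
    have h1 : (a : ℤ) * 1 ≤ (a : ℤ) * Divisor.degree (RED.poleDiv (K := Kbar) (jF M)) :=
      mul_le_mul_of_nonneg_left (by omega) (by positivity)
    have h2 : (3 * genusFF Kbar (FN M) : ℤ) ≤ a := by exact_mod_cast ha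
    omega
  have hL := hr.redSub_L _ hdeg
  rw [mapDomain_zsmul', (map_poleDiv_jF A M hM r hr).1] at hL
  set V : Submodule Kbar (FN M) := riemannRochSpace ((a : ℤ) • RED.poleDiv (K := Kbar) (jF M))
    with hV
  have hVfin : FiniteDimensional Kbar V := inferInstance
  obtain ⟨b, hbV, hbli, hbrat⟩ := exists_rat_basis M V (fun σ f hf => gal_mem_rr M a σ f hf)
  obtain ⟨w, hwspan, hwrat, hwO, hwli⟩ := exists_int_of_rat A M q hq hqM hA b hbli hbrat
  have hwV : ∀ i, w i ∈ V := fun i =>
    (Submodule.span_le.mpr (by rintro _ ⟨j, rfl⟩; exact hbV j)) (hwspan i)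
  have hcart : Module.finrank (IsLocalRing.ResidueField ↥A) ((RM A M hM).redSub V) =
      Module.finrank Kbar V := RM_isCartesian A M hM V hVfin
  have hfin : Module.Finite (IsLocalRing.ResidueField ↥A) ((RM A M hM).redSub V) := by
    rw [hL]
    infer_instance
  have hle := RatSpan_span_eq ((RM A M hM).redSub V) hcart hfin
    (fun i => (RM A M hM).red (w i)) (fun i => ⟨w i, hwV i, hwO i, rfl⟩) hwli
  have hub' : ub ∈ (RM A M hM).redSub V := by rw [hL]; exact hubL
  refine Submodule.span_mono ?_ (hle hub')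
  rintro _ ⟨i, rfl⟩
  exact ⟨w i, ⟨hwrat i, hwO i, RatSpan_regOff_of_mem_rr _ _ _ (hwV i)⟩, rfl⟩

end Fermat.Agent.S36.Kron
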