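import Fermat.Agent.S36.Geo.HMain
import Fermat.Agent.S37.Equivariant

/-!
# S36/Kron/Split : from the Kronecker congruence to the input `HInput` of the horizontal valuation (abstract part, KR4)

`R`, `r` a good reduction of `E`, `e` a point of the reduction, `x` a coordinate of the residue disc.
* `smul_mem_discRing_iff` : `discRing` is stable under the semilinear automorphisms which are trivial after reduction;
* `taylor_const_unique`, `taylor_const_fixed` : the constant term of the Taylor expansion;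
* `exists_split` : `x' = γ + x w`, `q ∣ γ`  ⟹  `x'^q = q A + x² B`;
* `hInput_of_congr` : the term `HInput`.
-/

set_option autoImplicit false
set_option linter.unusedSectionVars false

namespace Fermat.Agent.S36.Kron

open AlgebraicCurve Fermat.Agent.Lib.RR Fermat.Agent.GAL.RED Fermat.Agent.S36.Val
  Fermat.Agent.S36.Geo

section Disc

variable {K F k Fb : Type*} [Field K] [Field F] [Algebra K F] [Field k] [Field Fb] [Algebra k Fb]
  [IsFF K F] [IsAlgClosed K] [IsFF k Fb] [IsAlgClosed k]
  {R : RedData K F k Fb} {r : Place K F → Place k Fb} {e : Place k Fb} {x : F} {ρ : K}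

/-- the reduction of `f` vanishes at `e`. -/
def Van (R : RedData K F k Fb) (e : Place k Fb) (f : F) : Prop :=
  R.red f = 0 ∨ 0 < e.ord (R.red f)

theorem Split_smul_mem_discRing (hg : genusFF K F = genusFF k Fb) (hr : IsRedMap R r)
    (g : SemilinearAut K F) (hred : ∀ f, R.red (g • f) = R.red f) {f : F}
    (hf : f ∈ discRing R r e) : g • f ∈ discRing R r e := by
  have hred1 : ∀ f : F, R.red (g • f) = (1 : SemilinearAut k Fb) • R.red f := by
    intro f; rw [hred, one_smul]
  have hredi : ∀ f : F, R.red (g⁻¹ • f) = (1 : SemilinearAut k Fb) • R.red f := by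
    intro f; rw [one_smul, ← hred (g⁻¹ • f), smul_inv_smul]
  refine ⟨(Fermat.Agent.S37.equivariant_smul_mem_O_iff g 1 hred1 f).2 hf.1, fun P hP => ?_⟩
  have h1 := SemilinearAut.ord_smul g (g⁻¹ • P) f
  rw [smul_inv_smul] at h1
  rw [h1]
  apply hf.2
  rw [Fermat.Agent.S37.IsRedMap.smul_comm hg hr g⁻¹ 1 hredi P, one_smul, hP]

/-- **(S1)** -/
theorem smul_mem_discRing_iff (hg : genusFF K F = genusFF k Fb) (hr : IsRedMap R r)
    (g : SemilinearAut K F) (hred : ∀ f, R.red (g • f) = R.red f) (f : F) :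
    g • f ∈ discRing R r e ↔ f ∈ discRing R r e := by
  refine ⟨fun h => ?_, Split_smul_mem_discRing hg hr g hred⟩
  have := Split_smul_mem_discRing hg hr g⁻¹
    (fun f => by rw [← hred (g⁻¹ • f), smul_inv_smul]) h
  rwa [inv_smul_smul] at this

/-- **(S2)** -/
theorem taylor_const_unique (hr : IsRedMap R r) (h : DiscHyp R r e x ρ) {γ γ' : K} {g g' : F}
    (hg : g ∈ discRing R r e) (hg' : g' ∈ discRing R r e)
    (heq : algebraMap K F γ + x * g = algebraMap K F γ' + x * g') : γ = γ' := by
  obtain ⟨P₀, hP₀, hx⟩ := Taylor.exists_origin hr h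
  by_contra hne
  have h1 : algebraMap K F (γ - γ') = x * (g' - g) := by
    rw [map_sub]; linear_combination heq
  have hc : algebraMap K F (γ - γ') ≠ 0 := by
    rw [Ne, map_eq_zero, sub_eq_zero]; exact hne
  have hd0 : g' - g ≠ 0 := by
    intro h0
    rw [h0, mul_zero] at h1
    exact hc h1
  have h2 := congrArg P₀.ord h1
  rw [ord_algebraMap, P₀.ord_mul (Taylor.x_ne h) hd0, hx] at h2
  have h3 := ((discRing R r e).sub_mem hg' hg).2 P₀ hP₀
  omega

/-- **(S2')** the Taylor constant of a fixed function is fixed. -/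
theorem taylor_const_fixed (hr : IsRedMap R r) (h : DiscHyp R r e x ρ) (σ : SemilinearAut K F)
    (hσ : ∀ f, f ∈ discRing R r e → σ • f ∈ discRing R r e) (hx : σ • x = x) {f : F}
    (hf : σ • f = f) {γ : K} {g : F} (hg : g ∈ discRing R r e)
    (heq : f = algebraMap K F γ + x * g) : SemilinearAut.baseAut σ γ = γ := by
  have h1 : f = algebraMap K F (SemilinearAut.baseAut σ γ) + x * (σ • g) := by
    conv_lhs => rw [← hf, heq, smul_add, smul_mul', hx, SemilinearAut.smul_algebraMap]
  exact taylor_const_unique hr h (hσ g hg) hg (h1.symm.trans heq)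

/-- **(S3)** -/
theorem van_iff (hr : IsRedMap R r) (h : DiscHyp R r e x ρ) {f : F} (hf : f ∈ discRing R r e)
    {γ : K} {g : F} (hg : g ∈ discRing R r e) (heq : f = algebraMap K F γ + x * g) :
    Van R e f ↔ γ ∈ R.A.nonunits := by
  obtain ⟨P₀, hP₀, hx⟩ := Taylor.exists_origin hr h
  refine (value_small_iff hr hf hP₀ ?_).symm
  by_cases hg0 : g = 0
  · left
    rw [heq, hg0, mul_zero, add_zero]
  · right
    have : f - algebraMap K F γ = x * g := by rw [heq]; ring
    rw [this, P₀.ord_mul (Taylor.x_ne h) hg0, hx]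
    have := hg.2 P₀ hP₀
    omega

theorem exists_taylor_one (hr : IsRedMap R r) (h : DiscHyp R r e x ρ) {f : F}
    (hf : f ∈ discRing R r e) :
    ∃ (γ : K) (g : F), γ ∈ R.A ∧ g ∈ discRing R r e ∧ f = algebraMap K F γ + x * g := by
  obtain ⟨P₀, hP₀, hx⟩ := Taylor.exists_origin hr h
  exact Taylor.step hr h hP₀ hx hf

/-- **(S4)** -/
theorem exists_split (h : DiscHyp R r e x ρ) {q : ℕ} (hq : q.Prime) (hq0 : (q : K) ≠ 0) {x' : F}
    {γ : K} {w : F} (hw : w ∈ discRing R r e) (hx' : x' = algebraMap K F γ + x * w)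
    (hγ : γ ∈ R.A) (hγq : γ / q ∈ R.A) :
    ∃ Aq B : F, Aq ∈ discRing R r e ∧ B ∈ discRing R r e ∧
      x' ^ q = (q : F) * Aq + x ^ 2 * B := by
  have hxD := Taylor.x_mem h
  have haD : algebraMap K F γ ∈ discRing R r e := Taylor.algebraMap_mem hγ
  have hbD : x * w ∈ discRing R r e := (discRing R r e).mul_mem hxD hw
  obtain ⟨⟨r0, hr0⟩, hr0e⟩ := exists_add_pow_prime_eq hq
    (⟨_, haD⟩ : ↥(discRing R r e)) (⟨_, hbD⟩ : ↥(discRing R r e))
  have h1 : (algebraMap K F γ + x * w) ^ q = algebraMap K F γ ^ q + (x * w) ^ q +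
      (q : F) * algebraMap K F γ * (x * w) * r0 := by
    have := congrArg (fun z : ↥(discRing R r e) => (z : F)) hr0e
    simpa using this
  have hcD : algebraMap K F (γ / q * γ ^ (q - 1)) ∈ discRing R r e :=
    Taylor.algebraMap_mem (R.A.mul_mem _ _ hγq (R.A.pow_mem hγ _))
  refine ⟨algebraMap K F (γ / q * γ ^ (q - 1)) + algebraMap K F γ * (x * w) * r0,
    x ^ (q - 2) * w ^ q, ?_, ?_, ?_⟩
  · exact (discRing R r e).add_mem hcD
      ((discRing R r e).mul_mem ((discRing R r e).mul_mem haD hbD) hr0)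
  · exact (discRing R r e).mul_mem ((discRing R r e).pow_mem hxD _) ((discRing R r e).pow_mem hw _)
  · have h2 : algebraMap K F γ ^ q = (q : F) * algebraMap K F (γ / q * γ ^ (q - 1)) := by
      rw [← map_natCast (algebraMap K F) q, ← map_mul, ← map_pow]
      congr 1
      have : γ ^ q = γ * γ ^ (q - 1) := by
        rw [← pow_succ', Nat.sub_add_cancel hq.one_le]
      rw [this]
      field_simp
    have h3 : (x * w) ^ q = x ^ 2 * (x ^ (q - 2) * w ^ q) := by
      rw [mul_pow, ← mul_assoc, ← pow_add, Nat.add_sub_cancel' hq.two_le]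
    rw [hx', h1, h2, h3]
    ring

end Disc

section Input

variable {K E F k Eb : Type*} [Field K] [Field E] [Field F] [Algebra K E] [Algebra E F] [Algebra K F]
  [IsScalarTower K E F] [Field k] [Field Eb] [Algebra k Eb]
  [IsFF K E] [IsAlgClosed K] [IsFF k Eb] [IsAlgClosed k]
  {R : RedData K E k Eb} {r : Place K E → Place k Eb} {e : Place k Eb} {q : ℕ} {ϖ : K}
  {x x' : E} {rc : ℕ → E} {x₀ x₂ : F}

/-- the coefficients of `(T - x'^q) (T^q - x) + q ∑ rc_i T^i` (without the leading one). -/
def gcoAbs {E : Type*} [Field E] (q : ℕ) (x x' : E) (rc : ℕ → E) (i : ℕ) : E :=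
  (if i = q then -x' ^ q else 0) + (if i = 1 then -x else 0) + (if i = 0 then x' ^ q * x else 0) +
    (q : E) * rc i

/-- **(KR4 + KR9, abstract form.)** -/
theorem hInput_of_congr (hr : IsRedMap R r) (hq : q.Prime) (hq0 : (q : K) ≠ 0)
    (disc : DiscHyp R r e x (ϖ ^ q)) (hϖ : ϖ ^ (q + 1) = (q : K))
    (hrc : ∀ i, i ≤ q → rc i ∈ discRing R r e) (hx' : x' ∈ discRing R r e)
    (hdiv : ∀ (γ : K) (w : E), w ∈ discRing R r e → x' = algebraMap K E γ + x * w → γ / q ∈ R.A)
    (hc : ¬ Van R e (rc 0))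
    (root₀ : x₀ ^ (q + 1) +
      ∑ i ∈ Finset.range (q + 1), algebraMap E F (gcoAbs q x x' rc i) * x₀ ^ i = 0)
    (root₂ : x₂ ^ (q + 1) +
      ∑ i ∈ Finset.range (q + 1), algebraMap E F (gcoAbs q x x' rc i) * x₂ ^ i = 0)
    (ne : x₀ ≠ x₂) (finite : FiniteDimensional E F)
    (finrank_le : Module.finrank E F ≤ q * (q + 1)) :
    ∃ (rr ss : ℕ → E) (c : K), HInput R r e q ϖ x (gcoAbs q x x' rc) rr ss c x₀ x₂ := by
  have hq2 := hq.two_le
  have hxD := Taylor.x_mem disc
  obtain ⟨γ, w, hγ, hw, hxe⟩ := exists_taylor_one hr disc hx'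
  obtain ⟨Aq, B, hA, hB, hsplit⟩ := exists_split disc hq hq0 hw hxe hγ (hdiv γ w hw hxe)
  obtain ⟨c, g0, hcA, hg0, hrc0⟩ := exists_taylor_one hr disc (hrc 0 (Nat.zero_le _))
  have hcu : c ∉ R.A.nonunits := fun h =>
    hc ((van_iff hr disc (hrc 0 (Nat.zero_le _)) hg0 hrc0).2 h)
  refine ⟨fun i => rc i + (if i = q then -Aq else 0) + (if i = 0 then Aq * x else 0),
    fun i => (if i = q then -B else 0) + (if i = 0 then B * x else 0), c,
    { disc := disc
      ϖ_pow := hϖ
      g_eq := ?_
      rr_mem := ?_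
      ss_mem := ?_
      c_mem := hcA
      c_unit := hcu
      rr_zero := ?_
      root₀ := root₀
      root₂ := root₂
      ne := ne
      finite := finite
      finrank_le := finrank_le }⟩
  · intro i _
    unfold gcoAbs
    by_cases h0 : i = 0
    · subst h0
      have e1 : ¬ (0 = q) := by omega
      have e2 : ¬ ((0 : ℕ) = 1) := by omega
      simp only [e1, e2, ↓reduceIte]
      linear_combination x * hsplit
    · by_cases h1 : i = q
      · subst h1
        have e2 : ¬ (i = 1) := by omega
        simp only [h0, e2, ↓reduceIte]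
        linear_combination -hsplit
      · simp only [h0, h1, ↓reduceIte]
        ring
  · intro i hi
    refine (discRing R r e).add_mem ((discRing R r e).add_mem (hrc i hi) ?_) ?_
    · split_ifs
      · exact (discRing R r e).neg_mem hA
      · exact (discRing R r e).zero_mem
    · split_ifs
      · exact (discRing R r e).mul_mem hA hxD
      · exact (discRing R r e).zero_mem
  · intro i _
    refine (discRing R r e).add_mem ?_ ?_
    · split_ifs
      · exact (discRing R r e).neg_mem hB
      · exact (discRing R r e).zero_mem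
    · split_ifs
      · exact (discRing R r e).mul_mem hB hxD
      · exact (discRing R r e).zero_mem
  · have h1 : rc 0 + (if 0 = q then -Aq else 0) + (if (0 : ℕ) = 0 then Aq * x else 0) -
        algebraMap K E c = algebraMap K E 0 + x * (g0 + Aq) := by
      have e1 : ¬ (0 = q) := by omega
      simp only [e1, ↓reduceIte]
      rw [hrc0, map_zero]
      ring
    have hD : g0 + Aq ∈ discRing R r e := (discRing R r e).add_mem hg0 hA
    have hD' : algebraMap K E 0 + x * (g0 + Aq) ∈ discRing R r e :=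
      (discRing R r e).add_mem (Taylor.algebraMap_mem R.A.zero_mem)
        ((discRing R r e).mul_mem hxD hD)
    show Van R e _
    rw [h1]
    exact (van_iff hr disc hD' hD rfl).2 Taylor.zero_mem_nonunits

end Input

end Fermat.Agent.S36.Kron
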